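import Fermat.Agent.LT.General.ClassField.Data
import Fermat.Agent.LT.Dihedral.QuadConj

/-!
# The places over the bad number of the general dihedral data
-/

set_option autoImplicit false

noncomputable section

open NumberField IsDedekindDomain
open FermatAgent.LT.Dihedral
open FermatAgent.LT.Dihedral.QuadData
open scoped nonZeroDivisors

namespace FermatAgent.LTG.Dihedral.DihedralData

variable {F : Type} [Field F] [NumberField F] {m : ℕ} (D : DihedralData F m)

section Bad

omit D in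
lemma coeO_natCast {K : Type} [Field K] [NumberField K] (n : ℕ) : ((n : 𝓞 K) : K) = n :=
  map_natCast (algebraMap (𝓞 K) K) n

/-- The prime of `F` lies over the bad number. -/
def InT (_D : DihedralData F m) (q : HeightOneSpectrum (𝓞 F)) : Prop := (m : 𝓞 F) ∈ q.asIdeal

lemma inT_below_iff (P : HeightOneSpectrum (𝓞 D.M)) :
    D.InT (D.below P) ↔ (m : 𝓞 D.M) ∈ P.asIdeal := by
  rw [InT, below_asIdeal, Ideal.mem_comap, map_natCast]

lemma inT_below_conjP {P : HeightOneSpectrum (𝓞 D.M)} :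
    D.InT (D.below (D.conjP P)) ↔ D.InT (D.below P) := by
  rw [below_conjP]

/-- The divisor of `F` of the bad number. -/
def mF (_D : DihedralData F m) : Dv F := dvElt (m : F)

/-- The modulus of the residue character. -/
def R : Dv D.M := idealDv (Ideal.span {((m ^ D.r : ℕ) : 𝓞 D.M)})

variable [hm : Fact (1 < m)]

omit D in
lemma natCast_m_ne {K : Type} [Field K] [NumberField K] : (m : 𝓞 K) ≠ 0 :=
  Nat.cast_ne_zero.2 (by have := hm.out; omega)

lemma cast_m_ne (_D : DihedralData F m) : (m : F) ≠ 0 := Nat.cast_ne_zero.2 (by have := hm.out; omega)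

lemma span_m_ne : Ideal.span {(m : 𝓞 D.M)} ≠ ⊥ := by
  simpa using (natCast_m_ne (K := D.M) (m := m))

/-- The places of `M` over the bad number. -/
def TP : Finset (HeightOneSpectrum (𝓞 D.M)) :=
  (Ideal.finite_factors (I := Ideal.span {(m : 𝓞 D.M)}) D.span_m_ne).toFinset

lemma mem_TP {P : HeightOneSpectrum (𝓞 D.M)} : P ∈ D.TP ↔ D.InT (D.below P) := by
  rw [TP, Set.Finite.mem_toFinset, Set.mem_ofPred_eq, Ideal.dvd_iff_le,
    Ideal.span_singleton_le_iff_mem, inT_below_iff]

/-- The places of `F` over the bad number. -/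
def TF : Finset (HeightOneSpectrum (𝓞 F)) :=
  (Ideal.finite_factors (I := Ideal.span {(m : 𝓞 F)})
    (by simpa using (natCast_m_ne (K := F) (m := m)))).toFinset

lemma mem_TF {q : HeightOneSpectrum (𝓞 F)} : q ∈ TF (m := m) (F := F) ↔ D.InT q := by
  rw [TF, Set.Finite.mem_toFinset, Set.mem_ofPred_eq, Ideal.dvd_iff_le,
    Ideal.span_singleton_le_iff_mem]
  rfl

lemma mF_T {q : HeightOneSpectrum (𝓞 F)} (h : D.InT q) : 1 ≤ D.mF q := by
  have := (mem_prime_iff q (natCast_m_ne (K := F) (m := m))).1 h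
  rwa [coeO_natCast] at this

lemma mF_not {q : HeightOneSpectrum (𝓞 F)} (h : ¬ D.InT q) : D.mF q = 0 := by
  have h1 := mt (mem_prime_iff q (natCast_m_ne (K := F) (m := m))).2 h
  rw [coeO_natCast] at h1
  have h2 := dvElt_coe_nonneg (m : 𝓞 F) q
  rw [coeO_natCast, Finsupp.zero_apply] at h2
  rw [mF]
  omega

lemma R_eq : D.R = extDv ((D.r : ℤ) • D.mF) := by
  have hc : (((m ^ D.r : ℕ) : 𝓞 D.M) : D.M) = algebraMap F D.M ((m : F) ^ D.r) := by
    rw [coeO_natCast, map_pow, map_natCast, Nat.cast_pow]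
  rw [R, idealDv_span, hc, dvElt_algebraMap (pow_ne_zero _ D.cast_m_ne), dvElt_pow D.cast_m_ne,
    mF, natCast_zsmul]

lemma R_apply (P : HeightOneSpectrum (𝓞 D.M)) :
    D.R P = D.ram P * ((D.r : ℤ) * D.mF (D.below P)) := by
  rw [R_eq, extDv_apply, Finsupp.smul_apply, smul_eq_mul]

lemma R_T {P : HeightOneSpectrum (𝓞 D.M)} (h : D.InT (D.below P)) : 1 ≤ D.R P := by
  have h1 := D.mF_T h
  have h2 := D.one_le_ram P
  have h3 : (1 : ℤ) ≤ D.r := by exact_mod_cast Nat.pos_of_ne_zero D.r_ne_zero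
  rw [R_apply]
  exact one_le_mul_of_one_le_of_one_le h2 (one_le_mul_of_one_le_of_one_le h3 h1)

lemma R_not {P : HeightOneSpectrum (𝓞 D.M)} (h : ¬ D.InT (D.below P)) : D.R P = 0 := by
  rw [R_apply, D.mF_not h, mul_zero, mul_zero]

omit hm in
lemma R_nonneg : 0 ≤ D.R := idealDv_nonneg _

lemma R_conjP (P : HeightOneSpectrum (𝓞 D.M)) : D.R (D.conjP P) = D.R P := by
  rw [R_apply, R_apply, ram_conjP, below_conjP]

lemma conjDv_R : D.conjDv D.R = D.R :=
  Finsupp.ext fun P => by rw [conjDv_apply, R_conjP]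

lemma exists_inT : ∃ P : HeightOneSpectrum (𝓞 D.M), D.InT (D.below P) := by
  have hne : Ideal.span {(m : 𝓞 D.M)} ≠ ⊤ := by
    intro h
    have h1 := congrArg Ideal.absNorm h
    rw [Ideal.absNorm_top, Ideal.absNorm_span_singleton,
      show (m : 𝓞 D.M) = algebraMap ℤ (𝓞 D.M) (m : ℤ) by simp, Algebra.norm_algebraMap,
      Int.natAbs_pow, Int.natAbs_natCast, Nat.pow_eq_one] at h1
    have := hm.out
    rcases h1 with h1 | h1
    · omega
    · exact Module.finrank_pos.ne' h1
  obtain ⟨P, hP, hle⟩ := Ideal.exists_le_maximal _ hne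
  have hP0 : P ≠ ⊥ := fun h => D.span_m_ne (le_bot_iff.1 (h ▸ hle))
  exact ⟨⟨P, hP.isPrime, hP0⟩,
    (D.inT_below_iff _).2 ((Ideal.span_singleton_le_iff_mem _).1 hle)⟩

open Classical in
/-- The part prime to `m` of the different of `F`. -/
def dD : Dv F := (diffDv F).filter fun q => ¬ D.InT q

omit hm in
lemma dD_T {q : HeightOneSpectrum (𝓞 F)} (h : D.InT q) : D.dD q = 0 := by
  classical
  simp [dD, h]

omit hm in
lemma dD_of_not {q : HeightOneSpectrum (𝓞 F)} (h : ¬ D.InT q) : D.dD q = diffDv F q := by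
  classical
  simp [dD, h]

omit hm in
lemma dD_nonneg (q : HeightOneSpectrum (𝓞 F)) : 0 ≤ D.dD q := by
  by_cases h : D.InT q
  · rw [D.dD_T h]
  · rw [D.dD_of_not h]
    exact idealDv_nonneg _ q

omit hm in
lemma dD_le_diff (q : HeightOneSpectrum (𝓞 F)) : D.dD q ≤ diffDv F q := by
  by_cases h : D.InT q
  · rw [D.dD_T h]
    exact idealDv_nonneg _ q
  · rw [D.dD_of_not h]

end Bad

end FermatAgent.LTG.Dihedral.DihedralData
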