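import Fermat.Agent.LT.General.Dihedral.Slices

/-!
# The dihedral form is a cusp function
-/

set_option autoImplicit false

noncomputable section

open NumberField IsDedekindDomain
open FermatAgent.LT
open FermatAgent.LT.Dihedral
open FermatAgent.LT.Dihedral.QuadData

namespace FermatAgent.LTG.Dihedral.DihedralData

variable {F : Type} [Field F] [NumberField F] {m : ℕ} [hm : Fact (1 < m)] {D : DihedralData F m}

theorem G_bounded : ∃ C, ∀ x g, ‖D.G x g‖ ≤ C := by
  classical
  have := D.isTotallyComplex
  obtain ⟨S, c, R, hS, hc, -, hcov⟩ := exists_siegel D.levelN_ne_bot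
  choose C hC using fun q : Cosets D.levelN => (G_isWaveSeries (D := D) q.out).exists_bound hc
  refine ⟨∑ q ∈ hS.toFinset, |C q|, fun x g => ?_⟩
  obtain ⟨γ, hγS, hγx⟩ := hcov (x, (g : Cosets D.levelN))
  induction γ using QuotientGroup.induction_on with | H γ => ?_
  change (infAct γ x, rationalMat γ • (g : Cosets D.levelN)).2 ∈ S at hγS
  change (infAct γ x, rationalMat γ • (g : Cosets D.levelN)).1 ∈ siegelInf c R at hγx
  set q : Cosets D.levelN := rationalMat γ • (g : Cosets D.levelN)
  have hq : ((q.out : GAf F) : Cosets D.levelN) =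
      ((rationalMat γ * g : GAf F) : Cosets D.levelN) := QuotientGroup.out_eq' q
  rw [QuotientGroup.eq] at hq
  have hinv : ∀ k ∈ levelGroup D.levelN, ∀ g', D.G (infAct γ x) (g' * k) = D.G (infAct γ x) g' := by
    intro k hk
    obtain ⟨k₁, hk₁, n, hn, rfl⟩ := Subgroup.mem_sup_of_normal_right.1 hk
    rw [Matrix.GeneralLinearGroup.center_eq_range_scalar] at hn
    obtain ⟨a, rfl⟩ := hn
    intro g'
    rw [scalar_eq_upperTri, ← mul_assoc, G_central, G_level hk₁]
  have key : D.G x g = D.G (infAct γ x) q.out := by
    rw [← hinv _ hq q.out, mul_inv_cancel_left, G_rational]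
  rw [key]
  refine (hC q _ fun w => (hγx w).2.1).trans ((le_abs_self _).trans ?_)
  exact Finset.single_le_sum (f := fun q => |C q|) (fun _ _ => abs_nonneg _) (hS.mem_toFinset.2 hγS)

/-- The dihedral form is a cusp function. -/
theorem G_isCuspFn : IsCuspFn D.levelN D.G where
  rational := G_rational
  central := G_central
  level _ hk := G_level hk
  continuous g := haveI := D.isTotallyComplex; (G_isWaveSeries g).continuous
  bounded := G_bounded
  sph0 w x g := haveI := D.isTotallyComplex; (G_isWaveSeries g).isSph0 w x
  expansion := haveI := D.isTotallyComplex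
    hasExpansion_of_slices G_rational fun g => (G_isWaveSeries g).exists_coeff

end FermatAgent.LTG.Dihedral.DihedralData
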