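import Fermat.Agent.LT.General.Dihedral.Basic
import Fermat.Agent.LT.Dihedral.QuadPrimes

/-!
# The primes of `M` over a prime of `F` not over `m`, general bad number
-/

set_option autoImplicit false

noncomputable section

open NumberField IsDedekindDomain
open FermatAgent.LT.Dihedral
open FermatAgent.LT.Dihedral.QuadData
open scoped nonZeroDivisors

namespace FermatAgent.LTG.Dihedral.DihedralData

variable {F : Type} [Field F] [NumberField F] {m : ℕ} (D : DihedralData F m)

lemma unramified_map {q : HeightOneSpectrum (𝓞 F)} (h : ¬ D.InT q) :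
    (D.mapI q.asIdeal).IsRadical :=
  D.unramified q h

lemma ram_eq_one {P : HeightOneSpectrum (𝓞 D.M)} (h : ¬ D.InT (D.below P)) : D.ram P = 1 :=
  D.ram_eq_one_of_isRadical (D.unramified_map h)

/-- The decomposition of a prime not over `m`. -/
lemma prime_cases {q : HeightOneSpectrum (𝓞 F)} (h : ¬ D.InT q) :
    ∃ P, D.below P = q ∧
      ((D.conjP P = P ∧ D.mapI q.asIdeal = P.asIdeal) ∨
        (D.conjP P ≠ P ∧ D.mapI q.asIdeal = P.asIdeal * (D.conjP P).asIdeal)) :=
  D.prime_cases_of_isRadical (D.unramified_map h)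

variable [hm : Fact (1 < m)]

omit hm in
/-- The different of `M` outside `m` comes from `F`. -/
lemma diff_not {P : HeightOneSpectrum (𝓞 D.M)} (h : ¬ D.InT (D.below P)) :
    diffDv D.M P = D.dD (D.below P) := by
  have htow := differentIdeal_eq_differentIdeal_mul_differentIdeal ℤ (𝓞 F) (𝓞 D.M)
  have hnd : ¬ P.asIdeal ∣ differentIdeal (𝓞 F) (𝓞 D.M) := by
    rw [not_dvd_differentIdeal_iff]
    have hp0 : P.asIdeal.under (𝓞 F) ≠ ⊥ := (D.below P).ne_bot
    have : (P.asIdeal.under (𝓞 F)).IsMaximal := (D.below P).isMaximal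
    have : Finite ((𝓞 F) ⧸ P.asIdeal.under (𝓞 F)) := Ideal.finiteQuotientOfFreeOfNeBot _ hp0
    have : Finite ((P.asIdeal.under (𝓞 F)).ResidueField) :=
      Finite.of_surjective _ (Ideal.bijective_algebraMap_quotient_residueField _).2
    rw [← Ideal.ramificationIdx_eq_one_iff,
      ← Ideal.ramificationIdx'_eq_ramificationIdx (P.asIdeal.under (𝓞 F)) P.asIdeal hp0]
    have h1 : idealDv (D.mapI (D.below P).asIdeal) P = 1 := D.ram_eq_one h
    refine Ideal.ramificationIdx'_spec ?_ ?_
    · rw [pow_one]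
      exact Ideal.map_comap_le
    · intro hle
      have hne := map_ne_bot_ext (L := D.M) (D.below P).ne_bot
      have h2 := FractionalIdeal.count_mono D.M P (FractionalIdeal.coeIdeal_ne_zero.2 hne)
        ((FractionalIdeal.coeIdeal_le_coeIdeal _).2 hle)
      rw [FractionalIdeal.coeIdeal_pow, FractionalIdeal.count_pow,
        FractionalIdeal.count_self] at h2
      change _ ≤ idealDv (D.mapI (D.below P).asIdeal) P at h2
      rw [h1] at h2
      norm_num at h2
  have hrel : idealDv (differentIdeal (𝓞 F) (𝓞 D.M)) P = 0 := by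
    by_contra hne
    have h1 : 1 ≤ idealDv (differentIdeal (𝓞 F) (𝓞 D.M)) P := by
      have : (0 : ℤ) ≤ idealDv (differentIdeal (𝓞 F) (𝓞 D.M)) P := idealDv_nonneg _ P
      omega
    refine hnd (Ideal.dvd_iff_le.2 fun x hx => ?_)
    rcases eq_or_ne x 0 with rfl | hx0
    · exact zero_mem _
    exact (mem_prime_iff P hx0).2
      (h1.trans ((idealDv_le_iff differentIdeal_ne_bot hx0).1 hx P))
  rw [diffDv, htow, idealDv_mul differentIdeal_ne_bot (map_ne_bot_ext differentIdeal_ne_bot),
    idealDv_map differentIdeal_ne_bot, Finsupp.add_apply, hrel, zero_add, extDv_apply,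
    D.ram_eq_one h, one_mul, D.dD_of_not h]
  rfl

end FermatAgent.LTG.Dihedral.DihedralData
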