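import Fermat.Agent.LT.Dihedral.QuadAux
import Fermat.Agent.LT.General.Dihedral.Primes

/-!
# The character on divisors, general bad number, and its extension `fT` to elements
-/

set_option autoImplicit false

noncomputable section

open NumberField IsDedekindDomain
open FermatAgent.LT.Dihedral
open FermatAgent.LT.Dihedral.QuadData
open scoped nonZeroDivisors

namespace FermatAgent.LTG.Dihedral.DihedralData

variable {F : Type} [Field F] [NumberField F] {m : ℕ} (D : DihedralData F m)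

open Classical in
/-- The value of `ξ` at a prime as a unit, `1` at the places over `m`. -/
def ξu (P : HeightOneSpectrum (𝓞 D.M)) : ℂˣ :=
  if h : D.ξ P.asIdeal = 0 then 1 else Units.mk0 (D.ξ P.asIdeal) h

/-- The character on divisors. -/
def ξd : Dv D.M →+ Additive ℂˣ :=
  Finsupp.liftAddHom fun P => zmultiplesHom _ (Additive.ofMul (D.ξu P))

/-- The character on divisors, as a complex number. -/
def ξc (J : Dv D.M) : ℂ := ((D.ξd J).toMul : ℂˣ)

lemma ξc_zero : D.ξc 0 = 1 := by simp [ξc]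

lemma ξc_add (J J' : Dv D.M) : D.ξc (J + J') = D.ξc J * D.ξc J' := by simp [ξc]

lemma ξc_ne_zero (J : Dv D.M) : D.ξc J ≠ 0 := Units.ne_zero _

lemma ξc_neg (J : Dv D.M) : D.ξc (-J) = (D.ξc J)⁻¹ :=
  eq_inv_of_mul_eq_one_left (by rw [← ξc_add, neg_add_cancel, ξc_zero])

lemma ξc_sub (J J' : Dv D.M) : D.ξc (J - J') = D.ξc J / D.ξc J' := by
  rw [sub_eq_add_neg, ξc_add, ξc_neg, div_eq_mul_inv]

lemma ξc_single (P : HeightOneSpectrum (𝓞 D.M)) :
    D.ξc (Finsupp.single P 1) = D.ξu P := by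
  simp [ξc, ξd]

lemma coprime_of_mul {I J : Ideal (𝓞 D.M)} (h : I * J ⊔ Ideal.span {(m : 𝓞 D.M)} = ⊤) :
    I ⊔ Ideal.span {(m : 𝓞 D.M)} = ⊤ :=
  top_le_iff.1 (h ▸ sup_le_sup_right Ideal.mul_le_left _)

variable [hm : Fact (1 < m)]

lemma coprime_iff {I : Ideal (𝓞 D.M)} : I ⊔ Ideal.span {(m : 𝓞 D.M)} = ⊤ ↔
    ∀ P, D.InT (D.below P) → ¬ I ≤ P.asIdeal := by
  constructor
  · intro h P hP hle
    exact P.isPrime.ne_top (top_le_iff.1 (h ▸ sup_le hle
      ((Ideal.span_singleton_le_iff_mem _).2 ((D.inT_below_iff P).1 hP))))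
  · intro h
    by_contra hne
    obtain ⟨p, hp, hle⟩ := Ideal.exists_le_maximal _ hne
    have hp0 : p ≠ ⊥ := fun h0 => D.span_m_ne (le_bot_iff.1 (h0 ▸ le_sup_right.trans hle))
    exact h ⟨p, hp.isPrime, hp0⟩ ((D.inT_below_iff _).2
      ((Ideal.span_singleton_le_iff_mem _).1 (le_sup_right.trans hle))) (le_sup_left.trans hle)

lemma coprime_prime {P : HeightOneSpectrum (𝓞 D.M)} (h : ¬ D.InT (D.below P)) :
    P.asIdeal ⊔ Ideal.span {(m : 𝓞 D.M)} = ⊤ :=
  D.coprime_iff.2 fun Q hQ hle =>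
    h ((HeightOneSpectrum.ext (P.isMaximal.eq_of_le Q.isPrime.ne_top hle)) ▸ hQ)

lemma ξ_prime_eq_zero_iff (P : HeightOneSpectrum (𝓞 D.M)) :
    D.ξ P.asIdeal = 0 ↔ D.InT (D.below P) := by
  rw [D.ξ_eq_zero]
  refine ⟨fun h => not_not.1 fun hT => h (D.coprime_prime hT), fun h hc => ?_⟩
  exact D.coprime_iff.1 hc P h le_rfl

lemma coe_ξu {P : HeightOneSpectrum (𝓞 D.M)} (h : ¬ D.InT (D.below P)) :
    (D.ξu P : ℂ) = D.ξ P.asIdeal := by
  rw [ξu, dif_neg (mt (D.ξ_prime_eq_zero_iff P).1 h), Units.val_mk0]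

lemma ξu_T {P : HeightOneSpectrum (𝓞 D.M)} (h : D.InT (D.below P)) : D.ξu P = 1 := by
  rw [ξu, dif_pos ((D.ξ_prime_eq_zero_iff P).2 h)]

lemma ξc_of_supp {J : Dv D.M} (h : ∀ P, ¬ D.InT (D.below P) → J P = 0) : D.ξc J = 1 := by
  have : D.ξd J = 0 := by
    rw [ξd, Finsupp.liftAddHom_apply]
    refine Finset.sum_eq_zero fun P hP => ?_
    by_cases hT : D.InT (D.below P)
    · simp [D.ξu_T hT]
    · exact absurd (h P hT) (Finsupp.mem_support_iff.1 hP)
  simp [ξc, this]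

lemma ξc_idealDv {I : Ideal (𝓞 D.M)} (hI : I ⊔ Ideal.span {(m : 𝓞 D.M)} = ⊤) :
    D.ξc (idealDv I) = D.ξ I := by
  induction I using UniqueFactorizationMonoid.induction_on_prime with
  | h₁ =>
    obtain ⟨P, hP⟩ := D.exists_inT
    exact absurd (show (0 : Ideal (𝓞 D.M)) ≤ P.asIdeal from bot_le) (D.coprime_iff.1 hI P hP)
  | h₂ J hJ => rw [Ideal.isUnit_iff.1 hJ, idealDv_top, ξc_zero, ← Ideal.one_eq_top, map_one]
  | h₃ J p hJ hp ih =>
    obtain ⟨v, rfl⟩ : ∃ v : HeightOneSpectrum (𝓞 D.M), v.asIdeal = p :=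
      ⟨⟨p, Ideal.isPrime_of_prime hp, hp.ne_zero⟩, rfl⟩
    have hv := D.coprime_of_mul hI
    rw [mul_comm] at hI
    have hJc := D.coprime_of_mul hI
    rw [idealDv_mul v.ne_bot hJ, ξc_add, ih hJc, idealDv_prime, ξc_single, map_mul, D.coe_ξu]
    exact fun hT => D.coprime_iff.1 hv v hT le_rfl

lemma ξc_pow_four (J : Dv D.M) : D.ξc J ^ 4 = 1 := by
  induction J using Finsupp.induction with
  | zero => simp [ξc_zero]
  | single_add P n E _ _ ih =>
    rw [ξc_add, mul_pow, ih, mul_one]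
    have h1 : (D.ξu P : ℂ) ^ 4 = 1 := by
      by_cases hT : D.InT (D.below P)
      · simp [D.ξu_T hT]
      · rw [D.coe_ξu hT, D.ξ_pow_four _ (D.coprime_prime hT)]
    have h2 : (D.ξu P) ^ (4 : ℕ) = 1 := Units.ext (by simpa using h1)
    have h3 : ((D.ξu P) ^ n) ^ (4 : ℕ) = 1 := by
      rw [← zpow_natCast, ← zpow_mul, mul_comm n, zpow_mul, zpow_natCast, h2, one_zpow]
    rw [← Units.val_one, ← h3]
    simp [ξc, ξd]

lemma norm_ξc (J : Dv D.M) : ‖D.ξc J‖ = 1 :=
  Complex.norm_eq_one_of_pow_eq_one (D.ξc_pow_four J) (by norm_num)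

/-- The restriction of the character to divisors of `F`. -/
def η (A : Dv F) : ℂ := D.ξc (extDv A)

omit hm in
lemma η_add (A B : Dv F) : D.η (A + B) = D.η A * D.η B := by rw [η, map_add, ξc_add]; rfl

omit hm in
lemma η_zero : D.η 0 = 1 := by simp [η, ξc_zero]

omit hm in
lemma η_neg (A : Dv F) : D.η (-A) = (D.η A)⁻¹ := by rw [η, map_neg, ξc_neg]; rfl

lemma ξc_conj (J : Dv D.M) : D.ξc (D.conjDv J) = (D.ξc J)⁻¹ := by
  induction J using Finsupp.induction with
  | zero => simp [ξc_zero]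
  | single_add P n E _ _ ih =>
    rw [map_add, ξc_add, ξc_add, ih, mul_inv]
    congr 1
    have h1 : D.conjDv (Finsupp.single P n) = Finsupp.single (D.conjP P) n :=
      Finsupp.mapDomain_single
    have hu : D.ξu (D.conjP P) = (D.ξu P)⁻¹ := by
      by_cases hT : D.InT (D.below P)
      · rw [D.ξu_T hT, D.ξu_T (by rwa [D.below_conjP]), inv_one]
      · refine eq_inv_of_mul_eq_one_left (Units.ext ?_)
        have hc : P.asIdeal ⊔ Ideal.span {(m : 𝓞 D.M)} = ⊤ :=
          D.coprime_prime hT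
        rw [Units.val_mul, D.coe_ξu (by rwa [D.below_conjP]), D.coe_ξu hT, Units.val_one,
          mul_comm, D.conjP_asIdeal, ← D.ξ_conj _ hc, mapRingHom_σ]
        rfl
    rw [h1]
    simp only [ξc, ξd, Finsupp.liftAddHom_apply_single, zmultiplesHom_apply, hu]
    simp [← ofMul_zpow]

lemma η_single {q : HeightOneSpectrum (𝓞 F)} (h : ¬ D.InT q) :
    D.η (Finsupp.single q 1) = D.ξ (D.mapI q.asIdeal) ∧
      D.ξ (D.mapI q.asIdeal) ^ 2 = 1 := by
  refine ⟨?_, ?_⟩
  · rw [η, extDv_single, one_zsmul, ξc_idealDv]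
    obtain ⟨P, rfl, hP⟩ := D.prime_cases h
    have h3 : ∀ Q, D.below Q = D.below P → Q.asIdeal ⊔ Ideal.span {(m : 𝓞 D.M)} = ⊤ :=
      fun Q hQ => D.coprime_prime (hQ ▸ h)
    rcases hP with ⟨-, he⟩ | ⟨-, he⟩
    · rw [mapI] at he; rw [he]; exact h3 P rfl
    · rw [mapI] at he; rw [he]
      rw [sup_comm, Ideal.sup_mul_eq_of_coprime_left (by rw [sup_comm]; exact h3 P rfl),
        sup_comm]
      exact h3 _ (D.below_conjP P)
  · rcases em (D.mapI q.asIdeal).IsPrime with hp | hp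
    · rw [mapI, (D.ξ_base q h).1 hp]; norm_num
    · rw [mapI, (D.ξ_base q h).2 hp]; norm_num

lemma η_sq (A : Dv F) : D.η A * D.η A = 1 := by
  induction A using Finsupp.induction with
  | zero => simp [η_zero]
  | single_add q n E _ _ ih =>
    rw [η_add, mul_mul_mul_comm, ih, mul_one]
    have h2 : D.η (Finsupp.single q 1) * D.η (Finsupp.single q 1) = 1 := by
      by_cases hq : D.InT q
      · rw [η, D.ξc_of_supp, one_mul]
        intro P hP
        rw [extDv_apply, Finsupp.single_eq_of_ne (fun h => hP (by rw [h]; exact hq)), mul_zero]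
      · rw [(D.η_single hq).1, ← pow_two, (D.η_single hq).2]
    clear * - h2
    induction n using Int.induction_on with
    | zero => simp [η_zero]
    | succ k ih' => rw [Finsupp.single_add, η_add, mul_mul_mul_comm, ih', h2, one_mul]
    | pred k ih' =>
      rw [sub_eq_add_neg, Finsupp.single_add, η_add, mul_mul_mul_comm, ih', one_mul,
        Finsupp.single_neg, η_neg, ← mul_inv, h2, inv_one]

/-- An element of order at least `0` at the places over `m`. -/
def TInt (x : D.M) : Prop := ∀ P, D.InT (D.below P) → OrdGe P 0 x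

/-- An element of order `0` at the places over `m`. -/
def TUnit (x : D.M) : Prop := x ≠ 0 ∧ ∀ P, D.InT (D.below P) → dvElt x P = 0

variable {D} in
omit hm in
lemma TUnit.tint {x : D.M} (h : D.TUnit x) : D.TInt x := fun P hP => Or.inr (h.2 P hP).ge

omit hm in
lemma tint_int (a : 𝓞 D.M) : D.TInt (a : D.M) := fun _ _ => ordGe_int a

variable {D} in
omit hm in
lemma TInt.mul {x y : D.M} (hx : D.TInt x) (hy : D.TInt y) : D.TInt (x * y) :=
  fun P hP => by simpa using (hx P hP).mul (hy P hP)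

variable {D} in
omit hm in
lemma TUnit.mul_iff {x y : D.M} (hx : D.TUnit x) : D.TUnit (x * y) ↔ D.TUnit y := by
  rcases eq_or_ne y 0 with rfl | hy
  · simp [TUnit]
  simp only [TUnit, ne_eq, mul_ne_zero hx.1 hy, not_false_eq_true, hy, true_and]
  refine forall₂_congr fun P hP => ?_
  rw [dvElt_mul hx.1 hy, Finsupp.add_apply, hx.2 P hP, zero_add]

lemma tunit_int_iff {a : 𝓞 D.M} :
    D.TUnit (a : D.M) ↔ Ideal.span {a} ⊔ Ideal.span {(m : 𝓞 D.M)} = ⊤ := by
  rw [coprime_iff]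
  simp only [Ideal.span_singleton_le_iff_mem]
  constructor
  · rintro ⟨h0, h⟩ P hP hmem
    have := (mem_prime_iff P (RingOfIntegers.coe_ne_zero_iff.1 h0)).1 hmem
    rw [h P hP] at this
    exact absurd this (by norm_num)
  · intro h
    have ha : a ≠ 0 := fun h0 => by
      obtain ⟨P, hP⟩ := D.exists_inT
      exact h P hP (h0 ▸ zero_mem _)
    refine ⟨RingOfIntegers.coe_ne_zero_iff.2 ha, fun P hP => ?_⟩
    have h1 := mt (mem_prime_iff P ha).2 (h P hP)
    have h2 : (0 : ℤ) ≤ dvElt (a : D.M) P := dvElt_coe_nonneg a P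
    omega

/-- A `T`-integral element is a quotient of integers with denominator a unit at `T`. -/
lemma exists_frac {v : D.M} (h : D.TInt v) :
    ∃ a b : 𝓞 D.M, (∀ P, D.InT (D.below P) → b ∉ P.asIdeal) ∧ v * (b : D.M) = (a : D.M) := by
  classical
  rcases eq_or_ne v 0 with rfl | hv
  · exact ⟨0, 1, fun P _ => (Ideal.ne_top_iff_one _).1 P.isPrime.ne_top, by simp [coeO_zero]⟩
  set S := (dvElt v).support ∪ D.TP
  obtain ⟨b, hb⟩ := exists_crt S
    (fun Q => if Q ∈ D.TP then 1 else (dvElt v Q).natAbs)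
    (fun Q => if Q ∈ D.TP then 1 else 0)
  have hbT : ∀ P, D.InT (D.below P) → b ∉ P.asIdeal := by
    intro P hP hmem
    have h1 := hb P (Finset.mem_union_right _ (D.mem_TP.2 hP))
    simp only [D.mem_TP.2 hP, if_true,
      Nat.cast_one, ← coeO_sub, ordGe_one_iff] at h1
    exact P.isPrime.ne_top ((Ideal.eq_top_iff_one _).2 (by simpa using sub_mem hmem h1))
  have hint : v * (b : D.M) = 0 ∨ 0 ≤ dvElt (v * (b : D.M)) := by
    rcases eq_or_ne b 0 with rfl | hb0
    · exact Or.inl (by rw [coeO_zero, mul_zero])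
    refine Or.inr fun Q => ?_
    rw [dvElt_mul hv (RingOfIntegers.coe_ne_zero_iff.2 hb0), Finsupp.add_apply]
    have hb' : 0 ≤ dvElt (b : D.M) Q := dvElt_coe_nonneg b Q
    show (0 : ℤ) ≤ _
    by_cases hQ : D.InT (D.below Q)
    · exact add_nonneg ((h Q hQ).resolve_left hv) hb'
    by_cases hQs : Q ∈ S
    · have h1 := hb Q hQs
      have hQ' : Q ∉ D.TP := mt D.mem_TP.1 hQ
      rw [if_neg hQ', if_neg hQ', coeO_zero, sub_zero] at h1
      have h2 : ((dvElt v Q).natAbs : ℤ) ≤ _ := h1.resolve_left (RingOfIntegers.coe_ne_zero_iff.2 hb0)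
      linarith [neg_abs_le (dvElt v Q), Int.natCast_natAbs (dvElt v Q)]
    · have : dvElt v Q = 0 := Finsupp.notMem_support_iff.1 fun hs => hQs (Finset.mem_union_left _ hs)
      rw [this, zero_add]
      exact hb'
  obtain ⟨a, ha⟩ := exists_int_of_nonneg hint
  exact ⟨a, b, hbT, ha.symm⟩

open Classical in
/-- The residue character on the elements of `M`, zero at those not units at `m`. -/
def fT (x : D.M) : ℂ := if D.TUnit x then D.ξc (dvElt x) else 0

omit hm in
lemma fT_of_unit {x : D.M} (h : D.TUnit x) : D.fT x = D.ξc (dvElt x) := if_pos h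

omit hm in
lemma fT_of_not {x : D.M} (h : ¬ D.TUnit x) : D.fT x = 0 := if_neg h

omit hm in
lemma fT_zero : D.fT 0 = 0 := D.fT_of_not fun h => h.1 rfl

variable {D} in
omit hm in
lemma TUnit.of_fT {x : D.M} (h : D.fT x ≠ 0) : D.TUnit x :=
  not_not.1 fun hx => h (D.fT_of_not hx)

lemma norm_fT_le (x : D.M) : ‖D.fT x‖ ≤ 1 := by
  by_cases h : D.TUnit x
  · rw [D.fT_of_unit h, norm_ξc]
  · rw [D.fT_of_not h, norm_zero]
    exact zero_le_one

omit hm in
lemma fT_mul {x y : D.M} (hx : D.TUnit x) : D.fT (x * y) = D.fT x * D.fT y := by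
  by_cases hy : D.TUnit y
  · rw [D.fT_of_unit hx, D.fT_of_unit hy, D.fT_of_unit (hx.mul_iff.2 hy), dvElt_mul hx.1 hy.1,
      ξc_add]
  · rw [D.fT_of_not hy, mul_zero, D.fT_of_not (mt hx.mul_iff.1 hy)]

/-- On integers `fT` is the residue character. -/
lemma fT_int (a : 𝓞 D.M) : D.fT (a : D.M) = D.χ (Ideal.Quotient.mk _ a) := by
  rw [← D.ξ_principal]
  by_cases h : D.TUnit (a : D.M)
  · rw [D.fT_of_unit h, ← idealDv_span, D.ξc_idealDv (D.tunit_int_iff.1 h)]
  · rw [D.fT_of_not h, eq_comm, D.ξ_eq_zero]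
    exact mt D.tunit_int_iff.2 h

omit hm in
lemma fT_eq_one {x : D.M} (hx : x ≠ 0) (h : dvElt x = 0) : D.fT x = 1 := by
  rw [D.fT_of_unit ⟨hx, fun P _ => by simp [h]⟩, h, ξc_zero]

lemma mem_modulus {a : 𝓞 D.M} (h : ∀ P, D.InT (D.below P) → OrdGe P (D.R P) (a : D.M)) :
    a ∈ Ideal.span {((m ^ D.r : ℕ) : 𝓞 D.M)} := by
  rcases eq_or_ne a 0 with rfl | ha
  · exact zero_mem _
  refine (idealDv_le_iff ?_ ha).2 fun P => ?_
  · rw [ne_eq, Ideal.span_singleton_eq_bot, Nat.cast_pow]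
    exact pow_ne_zero _ natCast_m_ne
  by_cases hP : D.InT (D.below P)
  · exact (h P hP).resolve_left (RingOfIntegers.coe_ne_zero_iff.2 ha)
  · exact (D.R_not hP).le.trans (dvElt_coe_nonneg a P)

/-- `fT` is periodic modulo the modulus at the places over `m`. -/
lemma fT_periodic {x u : D.M} (hx : D.TInt x)
    (hu : ∀ P, D.InT (D.below P) → OrdGe P (D.R P) u) : D.fT (x + u) = D.fT x := by
  have hui : D.TInt u := fun P hP => (hu P hP).mono (D.R_nonneg P)
  obtain ⟨a, b, hb, ha⟩ := D.exists_frac hx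
  obtain ⟨c, d, hd, hc⟩ := D.exists_frac hui
  have hbu : D.TUnit (b : D.M) := D.tunit_int_iff.2 (D.coprime_iff.2 fun P hP hle =>
    hb P hP (hle (Ideal.mem_span_singleton_self b)))
  have hdu : D.TUnit (d : D.M) := D.tunit_int_iff.2 (D.coprime_iff.2 fun P hP hle =>
    hd P hP (hle (Ideal.mem_span_singleton_self d)))
  have hbd : D.TUnit ((b : D.M) * d) := hbu.mul_iff.2 hdu
  have h1 : (b : D.M) * d * (x + u) = ((a * d + c * b : 𝓞 D.M) : D.M) := by
    rw [coeO_add, coeO_mul, coeO_mul, ← ha, ← hc]; ring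
  have h2 : (b : D.M) * d * x = ((a * d : 𝓞 D.M) : D.M) := by
    rw [coeO_mul, ← ha]; ring
  have hcb : c * b ∈ Ideal.span {((m ^ D.r : ℕ) : 𝓞 D.M)} := by
    refine Ideal.mul_mem_right _ _ (D.mem_modulus fun P hP => ?_)
    rw [← hc]
    simpa using (hu P hP).mul (ordGe_int d)
  refine mul_left_cancel₀ (a := D.fT ((b : D.M) * d)) ?_ ?_
  · rw [D.fT_of_unit hbd]
    exact D.ξc_ne_zero _
  · rw [← D.fT_mul hbd, ← D.fT_mul hbd, h1, h2, fT_int, fT_int, map_add,
      Ideal.Quotient.eq_zero_iff_mem.2 hcb, add_zero]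

end FermatAgent.LTG.Dihedral.DihedralData
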