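import Fermat.Agent.LT.General.Dihedral.Invariance
import Fermat.Agent.LT.MultOne.StrongApprox

/-!
# The dihedral form and its invariance
-/

set_option autoImplicit false

noncomputable section

open NumberField IsDedekindDomain WithZero
open FermatAgent.LT
open FermatAgent.LT.Dihedral
open FermatAgent.LT.Dihedral.QuadData
open FermatAgent.LT.Dihedral.DihedralData (ratIdele)

namespace FermatAgent.LTG.Dihedral.DihedralData

variable {F : Type} [Field F] [NumberField F] {m : ℕ} [hm : Fact (1 < m)] (D : DihedralData F m)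

/-- A decomposition of an adelic matrix. -/
structure Dec (g : GAf F) where
  γ : GL (Fin 2) F
  a : (Adf F)ˣ
  k : GL (Fin 2) (IntAd F)
  z : (Adf F)ˣ
  hT : ∀ q, D.InT q → (a : Adf F) q = 1
  hk : k ∈ D.K0
  heq : g = rationalMat γ * upperTri a 0 1 * Matrix.GeneralLinearGroup.map intToAdele k *
    upperTri z 0 z

open Classical in
/-- An idele is an element of `F` times one trivial over `m` times a unit. -/
theorem exists_idele_split (a' : (Adf F)ˣ) : ∃ (q : Fˣ) (a : (Adf F)ˣ) (u : (IntAd F)ˣ),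
    (∀ v, D.InT v → (a : Adf F) v = 1) ∧
      a' = ratIdele q * a * Units.map intToAdele.toMonoidHom u ∧
      ∀ v, ¬ D.InT v → ((Units.map intToAdele.toMonoidHom u : (Adf F)ˣ) : Adf F) v = 1 := by
  obtain ⟨q, hq0, hq⟩ := exists_ord_eq (TF (m := m) (F := F)) fun v => adDv a' v
  let qu : Fˣ := Units.mk0 q hq0
  set a₁ : (Adf F)ˣ := a' * (ratIdele qu)⁻¹ with ha₁
  have ha₁T : ∀ v, D.InT v → adDv a₁ v = 0 := fun v hv => by
    rw [ha₁, adDv_mul, adDv_inv, adDv_rat, Finsupp.add_apply, Finsupp.neg_apply,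
      show dvElt (qu : F) v = adDv a' v from hq v (D.mem_TF.2 hv), add_neg_cancel]
  let uA : Adf F := ⟨fun v => if D.InT v then (a₁ : Adf F) v else 1, by
    filter_upwards [(a₁ : Adf F).2] with v hv
    split_ifs
    · exact hv
    · exact one_mem _⟩
  have huA : ∀ v, Valued.v (uA v) = 1 := fun v => by
    show Valued.v (if D.InT v then (a₁ : Adf F) v else 1) = 1
    split_ifs with h
    · rw [valued_idele, ha₁T v h, neg_zero, exp_zero]
    · exact map_one _
  have huu : IsUnit uA := FiniteAdeleRing.isUnit_iff.2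
    ⟨fun v h => by have := huA v; rw [h, map_zero] at this; exact zero_ne_one this,
      Filter.Eventually.of_forall huA⟩
  obtain ⟨u, hu⟩ := exists_intUnit huu.unit huA
  set a₂ : (Adf F)ˣ := a₁ * (Units.map intToAdele.toMonoidHom u)⁻¹ with ha₂
  have ha₂T : ∀ v, D.InT v → (a₂ : Adf F) v = 1 := fun v hv => by
    have h1 : (a₁ : Adf F) v = (huu.unit : Adf F) v := by
      show _ = if D.InT v then _ else _
      rw [if_pos hv]
    rw [ha₂, hu, Units.val_mul, adele_mul_apply, h1, ← adele_mul_apply, Units.mul_inv]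
    rfl
  refine ⟨qu, a₂, u, ha₂T, ?_, fun v hv => ?_⟩
  · rw [ha₂, mul_assoc, inv_mul_cancel_right, ha₁, mul_comm, inv_mul_cancel_right]
  · rw [hu]
    show (if D.InT v then (a₁ : Adf F) v else 1) = 1
    rw [if_neg hv]

lemma upperTri_mem_K0 (u : (IntAd F)ˣ) : upperTri u 0 1 ∈ D.K0 := fun q _ => by
  simp [upperTri]

/-- The level. -/
def levelN : Ideal (𝓞 F) := Ideal.span {((m ^ D.nT : ℕ) : 𝓞 F)}

lemma levelN_ne_bot : D.levelN ≠ ⊥ := by
  rw [levelN, Ne, Ideal.span_singleton_eq_bot, Nat.cast_eq_zero]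
  exact pow_ne_zero _ (zero_lt_one.trans hm.out).ne'

lemma exists_K0_of_congr {u : GAf F} (hu : u ∈ congrSubgroup D.levelN) :
    ∃ k ∈ D.K0, Matrix.GeneralLinearGroup.map intToAdele k = u := by
  obtain ⟨k, hk, rfl⟩ := Subgroup.mem_map.1 hu
  refine ⟨k, fun q hq => ?_, rfl⟩
  have h : k 1 0 ∈ D.levelN.map (RingHom.pi fun v : HeightOneSpectrum (𝓞 F) =>
      algebraMap (𝓞 F) (v.adicCompletionIntegers F)) :=
    Ideal.Quotient.eq_zero_iff_mem.1
      (congrArg (fun M : GL (Fin 2) _ => M 1 0) (MonoidHom.mem_ker.1 hk))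
  rw [levelN, Ideal.map_span, Set.image_singleton, Ideal.mem_span_singleton] at h
  obtain ⟨c, hc⟩ := h
  rw [hc, Pi.mul_apply, MulMemClass.coe_mul, map_mul]
  refine (mul_le_of_le_one_right' (c q).2).trans ?_
  show Valued.v (loc q (((m ^ D.nT : ℕ) : 𝓞 F) : F)) ≤ _
  have hm0 : (m : F) ≠ 0 := Nat.cast_ne_zero.2 (zero_lt_one.trans hm.out).ne'
  refine ordGe_iff_valued.1 (Or.inr ?_)
  push_cast
  rw [dvElt_pow hm0, Finsupp.smul_apply, nsmul_eq_mul]
  exact le_mul_of_one_le_right (Nat.cast_nonneg _) (D.mF_T hq)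

theorem exists_dec (g : GAf F) : Nonempty (D.Dec g) := by
  obtain ⟨γ, a', u, hu, rfl⟩ := exists_rational_diag_congr D.levelN_ne_bot g
  obtain ⟨k, hk, rfl⟩ := D.exists_K0_of_congr hu
  obtain ⟨q, a, w, haT, rfl, -⟩ := D.exists_idele_split a'
  refine ⟨⟨γ * upperTri q 0 1, a, upperTri w 0 1 * k, 1, haT,
    D.K0.mul_mem (D.upperTri_mem_K0 w) hk, ?_⟩⟩
  rw [map_mul rationalMat, map_mul (Matrix.GeneralLinearGroup.map intToAdele), rationalMat_upperTri,
    map_upperTri, map_zero, map_zero, map_one, map_one, upperTri_one, mul_one]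
  simp only [mul_assoc]
  congr 1
  rw [← mul_assoc (upperTri a 0 1), upperTri_mul, ← mul_assoc (upperTri _ _ _), upperTri_mul]
  simp
  rfl

variable {D}

/-- The value attached to a decomposition. -/
def Dec.value {g : GAf F} (d : D.Dec g) (x : XInf F) : ℂ :=
  D.theta (adDv d.a) 0 (infAct d.γ⁻¹ x)

/-- The value does not depend on the decomposition. -/
theorem Dec.value_eq {g : GAf F} (d₁ d₂ : D.Dec g) (x : XInf F) : d₁.value x = d₂.value x := by
  rw [Dec.value, Dec.value, show d₁.γ⁻¹ = d₁.γ⁻¹ * d₂.γ * d₂.γ⁻¹ by rw [mul_inv_cancel_right],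
    infAct_mul']
  refine theta_eq_of_rel d₁.hT d₂.hT _ (D.K0.mul_mem d₁.hk (D.K0.inv_mem d₂.hk))
    (d₁.z * d₂.z⁻¹) ?_ _
  have h := d₁.heq.symm.trans d₂.heq
  set K₁ := Matrix.GeneralLinearGroup.map intToAdele d₁.k with hK₁
  set K₂ := Matrix.GeneralLinearGroup.map intToAdele d₂.k with hK₂
  set Z₁ := upperTri d₁.z (0 : Adf F) d₁.z with hZ₁
  set Z₂ := upperTri d₂.z (0 : Adf F) d₂.z with hZ₂
  have hZ : upperTri (d₁.z * d₂.z⁻¹) (0 : Adf F) (d₁.z * d₂.z⁻¹) = Z₁ * Z₂⁻¹ := by
    rw [hZ₁, hZ₂, upperTri_inv, upperTri_mul]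
    simp
  have hcomm : ∀ X : GAf F, X * Z₁ = Z₁ * X := fun X => by
    simp only [hZ₁, ← scalar_eq_upperTri, Matrix.GeneralLinearGroup.scalar_commute]
  rw [map_mul rationalMat, map_inv, map_mul (Matrix.GeneralLinearGroup.map intToAdele), map_inv,
    ← hK₁, ← hK₂, hZ]
  set R₂ := rationalMat d₂.γ
  set A₂ := upperTri d₂.a (0 : Adf F) 1
  have h3 : R₂ * A₂ = rationalMat d₁.γ * upperTri d₁.a 0 1 * K₁ * Z₁ * Z₂⁻¹ * K₂⁻¹ := by
    rw [h]; group
  rw [mul_assoc _ R₂, h3]
  have hcomm2 : ∀ X : GAf F, X * Z₂⁻¹ = Z₂⁻¹ * X := fun X => by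
    rw [hZ₂, upperTri_inv]
    simp only [mul_zero, neg_zero, zero_mul, ← scalar_eq_upperTri,
      Matrix.GeneralLinearGroup.scalar_commute]
  simp only [mul_assoc, inv_mul_cancel_left]
  congr 2
  rw [← mul_assoc Z₁, ← mul_assoc K₂⁻¹]
  rw [show K₂⁻¹ * Z₁ = Z₁ * K₂⁻¹ from hcomm _, mul_assoc Z₁ K₂⁻¹, ← mul_assoc Z₁,
    hcomm2 (Z₁ * K₂⁻¹), hcomm2 Z₁, mul_assoc]

variable (D) in
/-- The dihedral form. -/
def G (x : XInf F) (g : GAf F) : ℂ := (D.exists_dec g).some.value x

lemma G_eq {g : GAf F} (d : D.Dec g) (x : XInf F) : D.G x g = d.value x := Dec.value_eq _ d x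

/-- Left invariance. -/
theorem G_rational (γ : GL (Fin 2) F) (x : XInf F) (g : GAf F) :
    D.G (infAct γ x) (rationalMat γ * g) = D.G x g := by
  set d := (D.exists_dec g).some
  let d' : D.Dec (rationalMat γ * g) :=
    { d with
      γ := γ * d.γ
      heq := by
        conv_lhs => rw [d.heq]
        rw [map_mul]
        simp only [mul_assoc] }
  rw [G_eq d', G_eq d, Dec.value, Dec.value]
  simp only [d']
  rw [mul_inv_rev, infAct_mul', ← infAct_mul' γ⁻¹, inv_mul_cancel]
  congr 2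
  exact funext fun w => by simp [infAct]

/-- Central invariance. -/
theorem G_central (a : (Adf F)ˣ) (x : XInf F) (g : GAf F) :
    D.G x (g * upperTri a 0 a) = D.G x g := by
  set d := (D.exists_dec g).some
  let d' : D.Dec (g * upperTri a 0 a) :=
    { d with
      z := d.z * a
      heq := by
        conv_lhs => rw [d.heq]
        rw [mul_assoc _ (upperTri d.z 0 d.z), upperTri_mul]
        congr 2
        simp }
  rw [G_eq d', G_eq d]
  rfl

/-- The level of the form. -/
theorem G_level {k : GAf F} (hk : k ∈ congrSubgroup D.levelN) (x : XInf F) (g : GAf F) :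
    D.G x (g * k) = D.G x g := by
  obtain ⟨k', hk', rfl⟩ := D.exists_K0_of_congr hk
  set d := (D.exists_dec g).some
  let d' : D.Dec (g * Matrix.GeneralLinearGroup.map intToAdele k') :=
    { d with
      k := d.k * k'
      hk := D.K0.mul_mem d.hk hk'
      heq := by
        conv_lhs => rw [d.heq]
        rw [map_mul]
        simp only [mul_assoc]
        rw [← scalar_eq_upperTri, Matrix.GeneralLinearGroup.scalar_commute] }
  rw [G_eq d', G_eq d]
  rfl

end FermatAgent.LTG.Dihedral.DihedralData
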