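import Fermat.Agent.LT.General.Dihedral.Eta
import Fermat.Agent.LT.Dihedral.Gamma

/-!
# The quadratic exponential sum over the residues of `M` modulo an ideal of `F` prime to `m`
-/

set_option autoImplicit false

noncomputable section

open NumberField IsDedekindDomain Finset
open FermatAgent.LT.Dihedral
open FermatAgent.LT.Dihedral.QuadData

namespace FermatAgent.LTG.Dihedral.DihedralData

variable {F : Type} [Field F] [NumberField F] {m : ℕ} [hm : Fact (1 < m)] (D : DihedralData F m)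

variable {θ : AddChar (𝓞 F) ℂ} {𝔞 : Ideal (𝓞 F)}

omit hm in
lemma gamma_prime {q : HeightOneSpectrum (𝓞 F)} (h : ¬ D.InT q) (hθ : Conductor θ q.asIdeal) :
    qsum (D.mapI q.asIdeal) (fun x => θ (D.nrmO x)) =
      D.ξ (D.mapI q.asIdeal) * (Ideal.absNorm q.asIdeal : ℂ) := by
  obtain ⟨P, rfl, ⟨hc, hP⟩ | ⟨hc, hP⟩⟩ := D.prime_cases h
  · rw [D.gamma_inert hP hc hθ, (D.ξ_base _ h).1 ?_, neg_one_mul]
    show (D.mapI _).IsPrime
    rw [hP]
    exact P.isPrime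
  · rw [D.gamma_split hP hc hθ, (D.ξ_base _ h).2 ?_, one_mul]
    show ¬ (D.mapI _).IsPrime
    intro hp
    rcases (hp.mul_le (I := P.asIdeal) (J := (D.conjP P).asIdeal)).1 (hP ▸ le_rfl) with h1 | h1
    · have h2 : P.asIdeal ≤ (D.conjP P).asIdeal := h1.trans (hP ▸ Ideal.mul_le_right)
      exact hc (HeightOneSpectrum.ext
        (P.isMaximal.eq_of_le (D.conjP P).isPrime.ne_top h2)).symm
    · have h2 : (D.conjP P).asIdeal ≤ P.asIdeal := h1.trans (hP ▸ Ideal.mul_le_left)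
      exact hc (HeightOneSpectrum.ext ((D.conjP P).isMaximal.eq_of_le P.isPrime.ne_top h2))

include hm in
/-- The quadratic exponential sum equals `η(𝔞) N𝔞`. -/
theorem gamma_eq {θ : AddChar (𝓞 F) ℂ} {𝔞 : Ideal (𝓞 F)} (h0 : 𝔞 ≠ ⊥)
    (hT : 𝔞 ⊔ Ideal.span {(m : 𝓞 F)} = ⊤) (hθ : Conductor θ 𝔞) :
    qsum (D.mapI 𝔞) (fun x => θ (D.nrmO x)) = D.ξ (D.mapI 𝔞) * (Ideal.absNorm 𝔞 : ℂ) := by
  suffices H : ∀ (n : ℕ) (θ : AddChar (𝓞 F) ℂ) (𝔞 : Ideal (𝓞 F)), Ideal.absNorm 𝔞 = n →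
      𝔞 ≠ ⊥ → 𝔞 ⊔ Ideal.span {(m : 𝓞 F)} = ⊤ → Conductor θ 𝔞 →
      qsum (D.mapI 𝔞) (fun x => θ (D.nrmO x)) =
        D.ξ (D.mapI 𝔞) * (Ideal.absNorm 𝔞 : ℂ) from H _ θ 𝔞 rfl h0 hT hθ
  clear h0 hT hθ θ 𝔞
  intro n
  induction n using Nat.strong_induction_on with
  | _ n ih =>
    intro θ 𝔞 hn h0 hT hθ
    subst hn
    by_cases htop : 𝔞 = ⊤
    · subst htop
      have he : D.mapI ⊤ = ⊤ := Ideal.map_top _
      rw [he, ← Ideal.one_eq_top, map_one, one_mul, Ideal.one_eq_top, Ideal.absNorm_top,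
        Nat.cast_one]
      have h1 : Subsingleton (𝓞 D.M ⧸ (⊤ : Ideal (𝓞 D.M))) :=
        Ideal.Quotient.subsingleton_iff.2 rfl
      rw [qsum, finsum_eq_single _ 0 fun c hc => absurd (Subsingleton.elim c 0) hc]
      exact hθ.trivial _ Submodule.mem_top
    obtain ⟨p, hp, hle⟩ := Ideal.exists_le_maximal _ htop
    let q : HeightOneSpectrum (𝓞 F) :=
      ⟨p, hp.isPrime, fun h => h0 (le_bot_iff.1 (h ▸ hle))⟩
    obtain ⟨𝔟, hb⟩ : q.asIdeal ∣ 𝔞 := Ideal.dvd_iff_le.2 hle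
    have hq : ¬ D.InT q := by
      intro hi
      exact q.isPrime.ne_top (top_le_iff.1 (hT ▸ sup_le hle
        ((Ideal.span_singleton_le_iff_mem _).2 hi)))
    have hb0 : 𝔟 ≠ ⊥ := fun h => h0 (by rw [hb, h, Ideal.mul_bot])
    have hbT : 𝔟 ⊔ Ideal.span {(m : 𝓞 F)} = ⊤ := top_le_iff.1 (hT ▸ sup_le_sup_right
      (hb ▸ Ideal.mul_le_right) _)
    have hlt : ∀ 𝔡, 𝔡 ≠ ⊥ → Ideal.absNorm 𝔡 < Ideal.absNorm (q.asIdeal * 𝔡) := fun 𝔡 hd => by
      rw [map_mul]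
      refine lt_mul_left (Nat.pos_of_ne_zero (mt Ideal.absNorm_eq_zero_iff.1 hd)) ?_
      rcases Nat.lt_or_ge 1 (Ideal.absNorm q.asIdeal) with h | h
      · exact h
      · interval_cases hh : Ideal.absNorm q.asIdeal
        · exact absurd (Ideal.absNorm_eq_zero_iff.1 hh) q.ne_bot
        · exact absurd (Ideal.absNorm_eq_one_iff.1 hh) q.isPrime.ne_top
    rw [hb] at hθ ih ⊢
    by_cases hcop : q.asIdeal ⊔ 𝔟 = ⊤
    · obtain ⟨θ₁, θ₂, h1, h2, he⟩ := D.gamma_crt hb0 hcop hθ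
      rw [he, D.gamma_prime hq h1, ih _ (hlt 𝔟 hb0) _ _ rfl hb0 hbT h2]
      simp only [mapI, Ideal.map_mul, map_mul, Nat.cast_mul]
      ring
    · obtain ⟨𝔠, rfl⟩ : q.asIdeal ∣ 𝔟 := Ideal.dvd_iff_le.2 (by
        have : q.asIdeal ⊔ 𝔟 = q.asIdeal :=
          ((q.isMaximal).eq_of_le hcop le_sup_left).symm
        exact this ▸ le_sup_right)
      have hc0 : 𝔠 ≠ ⊥ := fun h => hb0 (by rw [h, Ideal.mul_bot])
      have hcT : 𝔠 ⊔ Ideal.span {(m : 𝓞 F)} = ⊤ := top_le_iff.1 (hbT ▸ sup_le_sup_right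
        Ideal.mul_le_right _)
      obtain ⟨θ', h', he⟩ := D.gamma_descent (D.unramified_map hq) hc0 hθ
      have hi := ih _ ((hlt 𝔠 hc0).trans (hlt _ hb0)) _ _ rfl hc0 hcT h'
      rw [hi, card_quot, card_quot, absNorm_mapI, absNorm_mapI] at he
      have hN : (Ideal.absNorm 𝔠 : ℂ) ≠ 0 :=
        Nat.cast_ne_zero.2 (mt Ideal.absNorm_eq_zero_iff.1 hc0)
      have hξ : D.ξ (D.mapI q.asIdeal) ^ 2 = 1 := (D.η_single hq).2
      push_cast [map_mul] at he ⊢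
      rw [show D.ξ (D.mapI (q.asIdeal * (q.asIdeal * 𝔠))) =
        D.ξ (D.mapI q.asIdeal) ^ 2 * D.ξ (D.mapI 𝔠) by
          simp only [mapI, Ideal.map_mul, map_mul]; ring, hξ, one_mul]
      refine mul_left_cancel₀ (pow_ne_zero 2 hN) (he.trans ?_)
      ring

end FermatAgent.LTG.Dihedral.DihedralData
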