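import Fermat.Agent.LT.General.Dihedral.Key
import Fermat.Agent.LT.General.Dihedral.HeckeSum
import Fermat.Agent.LT.Dihedral.Form

/-!
# The invariance of the theta series under the rational matrices
-/

set_option autoImplicit false

noncomputable section

open NumberField IsDedekindDomain WithZero
open FermatAgent.LT
open FermatAgent.LT.Dihedral
open FermatAgent.LT.Dihedral.QuadData
open FermatAgent.LT.Dihedral.DihedralData (winv wMat infAct_wMat)
open scoped nonZeroDivisors

namespace FermatAgent.LTG.Dihedral.DihedralData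

variable {F : Type} [Field F] [NumberField F] {m : ℕ} (D : DihedralData F m)

include D in
lemma isTotallyComplex : IsTotallyComplex F := ⟨D.totallyComplex⟩

variable [hm : Fact (1 < m)]

omit hm in
/-- Moving the theta series by an upper triangular matrix. -/
theorem theta_upper (A : Dv F) (β : F) (q : Fˣ) (c : F) (y : XInf F) :
    D.theta A β (infAct (upperTri q c 1) y) =
      D.theta (A - dvElt (q : F)) ((β - c) / (q : F)) y := by
  rw [theta, theta, ← (Equiv.mulRight q).tsum_eq (D.term (A - dvElt (q : F)) ((β - c) / (q : F)) y)]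
  refine tsum_congr fun ν => ?_
  have hfreq : D.freqDv (A - dvElt (q : F)) ((ν * q : Fˣ) : F) = D.freqDv A (ν : F) := by
    rw [freqDv, freqDv, Units.val_mul, dvElt_mul ν.ne_zero q.ne_zero]
    abel
  simp only [Equiv.coe_mulRight]
  rw [term, term, waveProd_upper (D := D), hfreq, Units.val_mul]
  have hph : ph (-(β * (ν : F))) * ph ((ν : F) * c) =
      ph (-((β - c) / (q : F) * ((ν : F) * (q : F)))) := by
    rw [← ph_add]
    congr 1
    field_simp
    ring
  linear_combination (D.coefR (D.freqDv A (ν : F)) *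
    (((Real.sqrt (ndeg (D.freqDv A (ν : F))))⁻¹ : ℝ) : ℂ) * waveProd ((ν : F) * q) y) * hph

/-- The integral matrices upper triangular to high order over `m`. -/
def K0 : Subgroup (GL (Fin 2) (IntAd F)) where
  carrier := {k | ∀ q, D.InT q → Valued.v ((k 1 0 q : q.adicCompletionIntegers F) :
    q.adicCompletion F) ≤ exp (-(D.nT : ℤ))}
  one_mem' := fun q _ => by simp
  mul_mem' {a b} ha hb := fun q hq => by
    rw [Units.val_mul, Matrix.mul_apply, Fin.sum_univ_two, Pi.add_apply, Pi.mul_apply, Pi.mul_apply,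
      AddMemClass.coe_add, MulMemClass.coe_mul, MulMemClass.coe_mul]
    refine (Valuation.map_add _ _ _).trans (max_le ?_ ?_) <;> rw [map_mul]
    · exact (mul_le_mul' (ha q hq) (b 0 0 q).2).trans_eq (mul_one _)
    · exact (mul_le_mul' (a 1 1 q).2 (hb q hq)).trans_eq (one_mul _)
  inv_mem' {a} ha := fun q hq => by
    set b := a⁻¹ with hb
    have h0 := congrArg (fun M : Matrix (Fin 2) (Fin 2) (IntAd F) => M 1 0) (Units.mul_inv a)
    have h1 := congrArg (fun M : Matrix (Fin 2) (Fin 2) (IntAd F) => M 1 1) (Units.mul_inv a)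
    simp only [Matrix.mul_apply, Fin.sum_univ_two, Matrix.one_apply_eq,
      Matrix.one_apply_ne (show (1 : Fin 2) ≠ 0 by decide), ← hb] at h0 h1
    have hx : b 1 0 = a 1 0 * (b 1 0 * b 0 1 - b 1 1 * b 0 0) := by
      linear_combination (-b 1 0) * h1 + b 1 1 * h0
    rw [hx, Pi.mul_apply, MulMemClass.coe_mul, map_mul]
    exact (mul_le_mul' (ha q hq) (((b 1 0 * b 0 1 - b 1 1 * b 0 0 : IntAd F) q)).2).trans_eq
      (mul_one _)

variable {D}

omit hm in
lemma infAct_lower {t : F} {γ : GL (Fin 2) F} (h00 : γ 0 0 = 1) (h01 : γ 0 1 = 0)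
    (h10 : γ 1 0 = t) (h11 : γ 1 1 = 1) (y : XInf F) :
    infAct γ y = winv (hshift (winv y) (embVec (-t))) := by
  have hw : (wMat : GL (Fin 2) F) * upperTri 1 (-t) 1 = γ * wMat := by
    refine Units.ext (Matrix.ext fun i j => ?_)
    fin_cases i <;> fin_cases j <;>
      simp [wMat, wUni, upperTri, Matrix.mul_apply, Fin.sum_univ_two, *]
  rw [← infAct_upperUni_hshift, ← infAct_wMat, ← infAct_mul', hw, infAct_mul', infAct_wMat,
    winv_winv]

/-- The invariance, on divisors. -/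
theorem theta_inv_of_ord {A A' Z : Dv F} (hA : D.TFree A) (hA' : D.TFree A') (hZ : D.TFree Z)
    (δ : GL (Fin 2) F) (h00 : ∀ q, OrdGe q (A q + Z q - A' q) (δ 0 0))
    (h01 : ∀ q, OrdGe q (A q + Z q) (δ 0 1)) (h10 : ∀ q, OrdGe q (Z q - A' q) (δ 1 0))
    (h10T : ∀ q, D.InT q → OrdGe q D.nT (δ 1 0)) (h11 : ∀ q, OrdGe q (Z q) (δ 1 1))
    (h110 : δ 1 1 ≠ 0) (h11T : ∀ q, D.InT q → dvElt (δ 1 1) q = 0)
    (hdet : dvElt (δ 0 0 * δ 1 1 - δ 0 1 * δ 1 0) = A - A' + (Z + Z)) (y : XInf F) :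
    D.theta A 0 (infAct δ y) = D.theta A' 0 y := by
  have hΔ0 : δ 0 0 * δ 1 1 - δ 0 1 * δ 1 0 ≠ 0 := by
    have := δ.det_ne_zero
    rwa [Matrix.det_fin_two] at this
  set a := δ 0 0 with ha
  set b := δ 0 1 with hb
  set c := δ 1 0 with hc
  set d := δ 1 1 with hd
  set Δ := a * d - b * c with hΔ
  have hdI : d⁻¹ ≠ 0 := inv_ne_zero h110
  set Q : Dv F := dvElt d - Z with hQ
  have hQ0 : 0 ≤ Q := fun q => by
    have := (h11 q).resolve_left h110
    rw [hQ, Finsupp.zero_apply, Finsupp.sub_apply]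
    omega
  obtain ⟨𝔮, h𝔮0, h𝔮⟩ := exists_idealDv_eq hQ0
  set qu : Fˣ := Units.mk0 (Δ / d ^ 2) (div_ne_zero hΔ0 (pow_ne_zero _ h110))
  have hqv : dvElt (qu : F) = A - A' - (Q + Q) := by
    show dvElt (Δ / d ^ 2) = _
    rw [div_eq_mul_inv, dvElt_mul hΔ0 (inv_ne_zero (pow_ne_zero _ h110)),
      dvElt_inv (pow_ne_zero _ h110), dvElt_pow h110, hdet, hQ, two_nsmul]
    abel
  let low : GL (Fin 2) F := ⟨!![1, 0; c / d, 1], !![1, 0; -(c / d), 1],
    by ext i j; fin_cases i <;> fin_cases j <;> simp [Matrix.mul_apply, Fin.sum_univ_two],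
    by ext i j; fin_cases i <;> fin_cases j <;> simp [Matrix.mul_apply, Fin.sum_univ_two]⟩
  have hdec : δ = upperTri (Units.mk0 d h110) 0 (Units.mk0 d h110) *
      (upperTri qu (b / d) 1 * low) := by
    refine Units.ext (Matrix.ext fun i j => ?_)
    fin_cases i <;> fin_cases j <;>
      simp [upperTri, low, qu, Matrix.mul_apply, Fin.sum_univ_two, ← ha, ← hb, ← hc, ← hd, hΔ] <;>
      field_simp
    all_goals ring
  rw [hdec, infAct_mul', infAct_scalar, infAct_mul', D.theta_upper,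
    infAct_lower (γ := low) (t := c / d) rfl rfl rfl rfl]
  set β : F := (0 - b / d) / (qu : F) with hβ
  have hβ' : β = -(b * d) / Δ := by
    rw [hβ]
    show (0 - b / d) / (Δ / d ^ 2) = _
    field_simp
    ring
  have hB : A - dvElt (qu : F) = A' + (idealDv 𝔮 + idealDv 𝔮) := by rw [hqv, h𝔮]; abel
  have hdord : ∀ q, OrdGe q (Z q + Q q) d := fun q => Or.inr (by
    rw [hQ, Finsupp.sub_apply]; omega)
  have hdinv : ∀ q, OrdGe q (-(Z q + Q q)) d⁻¹ := fun q => Or.inr (by
    rw [dvElt_inv h110, hQ, Finsupp.sub_apply, Finsupp.neg_apply]; omega)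
  have hΔinv : ∀ q, OrdGe q (-(A q - A' q + (Z q + Z q))) Δ⁻¹ := fun q => Or.inr (by
    rw [dvElt_inv hΔ0, hdet, Finsupp.neg_apply, Finsupp.add_apply, Finsupp.sub_apply,
      Finsupp.add_apply])
  have hQT : ∀ q, D.InT q → Q q = 0 := fun q hq => by
    rw [hQ, Finsupp.sub_apply, h11T q hq, hZ q hq, sub_zero]
  have hexact : ∀ q, 0 < Q q → b ≠ 0 ∧ dvElt b q = A q + Z q := by
    intro q hq
    have hbc0 : b * c ≠ 0 := by
      intro h0
      have h1 := ((h00 q).mul (hdord q)).resolve_left (by rwa [hΔ, h0, sub_zero] at hΔ0)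
      have h2 := DFunLike.congr_fun hdet q
      rw [hΔ, h0, sub_zero, Finsupp.add_apply, Finsupp.sub_apply, Finsupp.add_apply] at h2
      omega
    obtain ⟨hb0, hc0⟩ := mul_ne_zero_iff.1 hbc0
    refine ⟨hb0, ?_⟩
    have hb1 := (h01 q).resolve_left hb0
    have hc1 := (h10 q).resolve_left hc0
    by_contra hne
    have hbc : OrdGe q (A q - A' q + (Z q + Z q) + 1) (b * c) := Or.inr (by
      rw [dvElt_mul hb0 hc0, Finsupp.add_apply]; omega)
    have h3 := ((((h00 q).mul (hdord q)).mono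
      (show A q - A' q + (Z q + Z q) + 1 ≤ _ by omega)).sub hbc).resolve_left hΔ0
    rw [← hΔ, hdet, Finsupp.add_apply, Finsupp.sub_apply, Finsupp.add_apply] at h3
    omega
  have hK : D.KeyHyp (A - dvElt (qu : F)) 𝔮 β (-(c / d)) := by
    rw [hB]
    refine ⟨TFree.add D hA' (TFree.add D (by rwa [h𝔮]) (by rwa [h𝔮])), h𝔮0,
      fun q hq => by rw [h𝔮]; exact hQT q hq, fun q _ => ?_, fun q hq => ?_, fun q hq => ?_,
      fun q _ => ?_, fun q hq => ?_, fun q hq => ?_⟩
    · rw [hβ', neg_div, div_eq_mul_inv, h𝔮]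
      refine (((h01 q).mul (hdord q)).mul (hΔinv q)).neg.mono ?_
      rw [Finsupp.add_apply, Finsupp.add_apply]
      omega
    · rw [h𝔮] at hq ⊢
      obtain ⟨hb0, hbe⟩ := hexact q hq
      refine ⟨by rw [hβ']; exact div_ne_zero (neg_ne_zero.2 (mul_ne_zero hb0 h110)) hΔ0, ?_⟩
      rw [hβ', div_eq_mul_inv, dvElt_mul (neg_ne_zero.2 (mul_ne_zero hb0 h110)) (inv_ne_zero hΔ0),
        dvElt_neg, dvElt_mul hb0 h110, dvElt_inv hΔ0, hdet, hQ]
      simp only [Finsupp.add_apply, Finsupp.sub_apply, Finsupp.neg_apply, hbe]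
      ring
    · rw [hβ', neg_div, div_eq_mul_inv]
      refine (((h01 q).mul (hdord q)).mul (hΔinv q)).neg.mono ?_
      rw [hA q hq, hA' q hq, hZ q hq, hQT q hq]
      simp
    · rw [div_eq_mul_inv, h𝔮]
      refine ((h10 q).mul (hdinv q)).neg.mono ?_
      rw [Finsupp.add_apply, Finsupp.add_apply]
      omega
    · rw [div_eq_mul_inv]
      refine ((h10T q hq).mul (hdinv q)).neg.mono ?_
      rw [hZ q hq, hQT q hq]
      simp
    · rw [h𝔮] at hq ⊢
      have hid : β * -(c / d) + 1 = a * d * Δ⁻¹ := by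
        rw [hβ']
        field_simp
        rw [hΔ]
        ring
      rw [hid]
      exact (((h00 q).mul (hdord q)).mul (hΔinv q)).mono (by omega)
  rw [theta_key hA' hK hB, winv_winv]

omit hm in
lemma valued_intUnit {v : HeightOneSpectrum (𝓞 F)} {x : v.adicCompletionIntegers F}
    (h : IsUnit x) : Valued.v (x : v.adicCompletion F) = 1 :=
  HeightOneSpectrum.adicCompletionIntegers.isUnit_iff_valued_eq_one.mp h

omit hm in
lemma valued_det (k : GL (Fin 2) (IntAd F)) (v : HeightOneSpectrum (𝓞 F)) :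
    Valued.v (((k 0 0 v * k 1 1 v - k 0 1 v * k 1 0 v : v.adicCompletionIntegers F)) :
      v.adicCompletion F) = 1 := by
  refine valued_intUnit ?_
  have h := (Matrix.GeneralLinearGroup.det k).isUnit.map
    (Pi.evalRingHom (fun u : HeightOneSpectrum (𝓞 F) => u.adicCompletionIntegers F) v)
  rw [Matrix.GeneralLinearGroup.val_det_apply, Matrix.det_fin_two] at h
  exact h

lemma valued_K0 {k : GL (Fin 2) (IntAd F)} (hk : k ∈ D.K0) {q : HeightOneSpectrum (𝓞 F)}
    (hq : D.InT q) :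
    Valued.v ((k 1 1 q : q.adicCompletionIntegers F) : q.adicCompletion F) = 1 := by
  have h10 : Valued.v ((k 1 0 q : q.adicCompletionIntegers F) : q.adicCompletion F) < 1 := by
    refine (hk q hq).trans_lt ?_
    rw [← exp_zero, exp_lt_exp, nT]
    push_cast
    omega
  have h := valued_det k q
  rw [AddSubgroupClass.coe_sub, MulMemClass.coe_mul, MulMemClass.coe_mul] at h
  have hlt : Valued.v (((k 0 1 q : q.adicCompletionIntegers F) : q.adicCompletion F) *
      (k 1 0 q : q.adicCompletionIntegers F)) < 1 := by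
    rw [map_mul]
    exact (mul_le_of_le_one_left' (k 0 1 q).2).trans_lt h10
  have h00 : Valued.v (((k 0 0 q : q.adicCompletionIntegers F) : q.adicCompletion F) *
      (k 1 1 q : q.adicCompletionIntegers F)) = 1 := by
    by_contra hne
    have hlt' : Valued.v (((k 0 0 q : q.adicCompletionIntegers F) : q.adicCompletion F) *
        (k 1 1 q : q.adicCompletionIntegers F)) < 1 := by
      refine lt_of_le_of_ne ?_ hne
      rw [map_mul]
      exact mul_le_one' (k 0 0 q).2 (k 1 1 q).2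
    exact absurd h (ne_of_lt ((Valuation.map_sub _ _ _).trans_lt (max_lt hlt' hlt)))
  rw [map_mul] at h00
  refine le_antisymm (k 1 1 q).2 (h00.ge.trans ?_)
  exact mul_le_of_le_one_left' (k 0 0 q).2

omit hm in
lemma tfree_adDv {a : (Adf F)ˣ} (h : ∀ q, D.InT q → (a : Adf F) q = 1) : D.TFree (adDv a) :=
  fun q hq => adDv_eq_zero (h q hq)

/-- The invariance of the theta series. -/
theorem theta_eq_of_rel {a a' : (Adf F)ˣ} (ha : ∀ q, D.InT q → (a : Adf F) q = 1)
    (ha' : ∀ q, D.InT q → (a' : Adf F) q = 1) (δ : GL (Fin 2) F) {k : GL (Fin 2) (IntAd F)}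
    (hk : k ∈ D.K0) (z : (Adf F)ˣ)
    (h : rationalMat δ * upperTri a' 0 1 =
      upperTri a 0 1 * Matrix.GeneralLinearGroup.map intToAdele k * upperTri z 0 z) (y : XInf F) :
    D.theta (adDv a) 0 (infAct δ y) = D.theta (adDv a') 0 y := by
  classical
  obtain ⟨r, hr0, hr⟩ := exists_ord_eq (TF (m := m) (F := F)) fun v => adDv z v
  set A := adDv a
  set A' := adDv a'
  set Z : Dv F := adDv z - dvElt r with hZ
  set δ' : GL (Fin 2) F := upperTri (Units.mk0 r hr0)⁻¹ 0 (Units.mk0 r hr0)⁻¹ * δ with hδ'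
  have hent : ∀ i j, δ' i j = r⁻¹ * δ i j := fun i j => by
    fin_cases i <;> fin_cases j <;>
      simp [hδ', upperTri, Matrix.mul_apply, Fin.sum_univ_two, Units.val_inv_eq_inv_val]
  have hu : ∀ (p r : (Adf F)ˣ) (y : Adf F), ((upperTri p y r : GAf F) :
      Matrix (Fin 2) (Fin 2) (Adf F)) = !![(p : Adf F), y; 0, (r : Adf F)] := fun _ _ _ => rfl
  have hR : ((rationalMat δ : GAf F) : Matrix (Fin 2) (Fin 2) (Adf F)) =
      !![algebraMap F (Adf F) (δ 0 0), algebraMap F (Adf F) (δ 0 1);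
        algebraMap F (Adf F) (δ 1 0), algebraMap F (Adf F) (δ 1 1)] := Matrix.ext fun i j => by
    fin_cases i <;> fin_cases j <;> rfl
  have hK : ((Matrix.GeneralLinearGroup.map intToAdele k : GAf F) :
      Matrix (Fin 2) (Fin 2) (Adf F)) = !![intToAdele (k 0 0), intToAdele (k 0 1);
        intToAdele (k 1 0), intToAdele (k 1 1)] := Matrix.ext fun i j => by
    fin_cases i <;> fin_cases j <;> rfl
  have hM := congrArg (fun M : GAf F => (M : Matrix (Fin 2) (Fin 2) (Adf F))) h
  simp only [Units.val_mul, Units.val_one, hu, hR, hK, Matrix.mul_fin_two, mul_zero, zero_mul,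
    add_zero, zero_add, mul_one, one_mul] at hM
  have m00 : ∀ v, loc v (δ 0 0) * (a' : Adf F) v = (a : Adf F) v *
      ((k 0 0 v : v.adicCompletionIntegers F) : v.adicCompletion F) * (z : Adf F) v := fun v =>
    congrArg (fun M : Matrix (Fin 2) (Fin 2) (Adf F) => M 0 0 v) hM
  have m01 : ∀ v, loc v (δ 0 1) = (a : Adf F) v *
      ((k 0 1 v : v.adicCompletionIntegers F) : v.adicCompletion F) * (z : Adf F) v := fun v =>
    congrArg (fun M : Matrix (Fin 2) (Fin 2) (Adf F) => M 0 1 v) hM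
  have m10 : ∀ v, loc v (δ 1 0) * (a' : Adf F) v =
      ((k 1 0 v : v.adicCompletionIntegers F) : v.adicCompletion F) * (z : Adf F) v := fun v =>
    congrArg (fun M : Matrix (Fin 2) (Fin 2) (Adf F) => M 1 0 v) hM
  have m11 : ∀ v, loc v (δ 1 1) =
      ((k 1 1 v : v.adicCompletionIntegers F) : v.adicCompletion F) * (z : Adf F) v := fun v =>
    congrArg (fun M : Matrix (Fin 2) (Fin 2) (Adf F) => M 1 1 v) hM
  have e00 : ∀ v, Valued.v (loc v (δ 0 0)) * exp (-A' v) =
      exp (-A v) * Valued.v ((k 0 0 v : v.adicCompletionIntegers F) : v.adicCompletion F) *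
        exp (-adDv z v) := fun v => by
    rw [← valued_idele, ← valued_idele, ← valued_idele, ← map_mul, m00, map_mul, map_mul]
  have e01 : ∀ v, Valued.v (loc v (δ 0 1)) =
      exp (-A v) * Valued.v ((k 0 1 v : v.adicCompletionIntegers F) : v.adicCompletion F) *
        exp (-adDv z v) := fun v => by
    rw [m01, map_mul, map_mul, valued_idele, valued_idele]
  have e10 : ∀ v, Valued.v (loc v (δ 1 0)) * exp (-A' v) =
      Valued.v ((k 1 0 v : v.adicCompletionIntegers F) : v.adicCompletion F) *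
        exp (-adDv z v) := fun v => by
    rw [← valued_idele, ← map_mul, m10, map_mul, valued_idele]
  have e11 : ∀ v, Valued.v (loc v (δ 1 1)) =
      Valued.v ((k 1 1 v : v.adicCompletionIntegers F) : v.adicCompletion F) *
        exp (-adDv z v) := fun v => by
    rw [m11, map_mul, valued_idele]
  have hr' : ∀ v, OrdGe v (-dvElt r v) r⁻¹ := fun v => Or.inr (by
    rw [dvElt_inv hr0, Finsupp.neg_apply])
  have hord : ∀ (v : HeightOneSpectrum (𝓞 F)) (x : F) (n : ℤ),
      Valued.v (loc v x) ≤ exp (-(n + dvElt r v)) → OrdGe v n (r⁻¹ * x) := fun v x n hx =>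
    ((hr' v).mul (ordGe_iff_valued.2 hx)).mono (by omega)
  have hle : ∀ (v : HeightOneSpectrum (𝓞 F)) (s t : WithZero (Multiplicative ℤ)) (n p : ℤ),
      s * exp (-p) = t → t ≤ exp (-n) → s ≤ exp (-(n - p)) := fun v s t n p he ht => by
    rw [← he] at ht
    calc s = s * exp (-p) * exp p := by
          rw [mul_assoc, ← exp_add, neg_add_cancel, exp_zero, mul_one]
      _ ≤ exp (-n) * exp p := mul_le_mul_left ht _
      _ = _ := by rw [← exp_add]; congr 1; ring
  have hk1 : ∀ v (i j : Fin 2), Valued.v ((k i j v : v.adicCompletionIntegers F) :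
      v.adicCompletion F) ≤ 1 := fun v i j => (k i j v).2
  have hZv : ∀ v, Z v = adDv z v - dvElt r v := fun v => Finsupp.sub_apply _ _ _
  have hZT : D.TFree Z := fun q hq => by rw [hZv, hr q (D.mem_TF.2 hq), sub_self]
  have hd0 : ∀ q, D.InT q → δ 1 1 ≠ 0 ∧ dvElt (δ 1 1) q = adDv z q := fun q hq => by
    have h1 := e11 q
    rw [valued_K0 hk hq, one_mul] at h1
    have hne : δ 1 1 ≠ 0 := fun h0 => by
      rw [h0, map_zero, map_zero] at h1
      exact exp_ne_zero h1.symm
    rw [valued_dvElt q hne, exp_inj, neg_inj] at h1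
    exact ⟨hne, h1⟩
  obtain ⟨P, hP⟩ := D.exists_inT
  have hd := (hd0 _ hP).1
  rw [show infAct δ y = infAct δ' y by rw [hδ', infAct_mul', infAct_scalar]]
  refine theta_inv_of_ord (tfree_adDv ha) (tfree_adDv ha') hZT δ' (fun v => ?_) (fun v => ?_)
    (fun v => ?_) (fun v hv => ?_) (fun v => ?_) ?_ (fun v hv => ?_) ?_ y
  · rw [hent]
    refine hord _ _ _ ((hle v _ _ (A v + adDv z v) _ (e00 v) ?_).trans ?_)
    · rw [neg_add, exp_add]
      refine mul_le_mul' ?_ le_rfl
      exact mul_le_of_le_one_right' (hk1 v 0 0)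
    · rw [exp_le_exp, hZv]; simp only [A, A']; omega
  · rw [hent]
    refine hord _ _ _ ?_
    rw [e01 v, hZv, show -(A v + (adDv z v - dvElt r v) + dvElt r v) = -A v + -adDv z v by ring,
      exp_add]
    exact mul_le_mul' (mul_le_of_le_one_right' (hk1 v 0 1)) le_rfl
  · rw [hent]
    refine hord _ _ _ ((hle v _ _ (adDv z v) _ (e10 v) (mul_le_of_le_one_left' (hk1 v 1 0))).trans ?_)
    rw [exp_le_exp, hZv]; simp only [A']; omega
  · rw [hent]
    refine hord _ _ _ ((hle v _ _ (D.nT + adDv z v) _ (e10 v) ?_).trans ?_)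
    · rw [neg_add, exp_add]
      exact mul_le_mul' (hk v hv) le_rfl
    · rw [exp_le_exp, tfree_adDv ha' v hv, hr v (D.mem_TF.2 hv)]; omega
  · rw [hent]
    refine hord _ _ _ ?_
    rw [e11 v, hZv, sub_add_cancel]
    exact mul_le_of_le_one_left' (hk1 v 1 1)
  · rw [hent]
    exact mul_ne_zero (inv_ne_zero hr0) hd
  · rw [hent, dvElt_mul (inv_ne_zero hr0) hd, Finsupp.add_apply, dvElt_inv hr0, Finsupp.neg_apply,
      hr v (D.mem_TF.2 hv), (hd0 v hv).2, neg_add_cancel]
  · have hΔ : δ 0 0 * δ 1 1 - δ 0 1 * δ 1 0 ≠ 0 := by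
      have := δ.det_ne_zero
      rwa [Matrix.det_fin_two] at this
    have he : δ' 0 0 * δ' 1 1 - δ' 0 1 * δ' 1 0 =
        r⁻¹ * r⁻¹ * (δ 0 0 * δ 1 1 - δ 0 1 * δ 1 0) := by simp only [hent]; ring
    rw [he, dvElt_mul (mul_ne_zero (inv_ne_zero hr0) (inv_ne_zero hr0)) hΔ,
      dvElt_mul (inv_ne_zero hr0) (inv_ne_zero hr0), dvElt_inv hr0]
    refine Finsupp.ext fun v => ?_
    have hdet := congrArg Valued.v (show loc v (δ 0 0 * δ 1 1 - δ 0 1 * δ 1 0) * (a' : Adf F) v =
        (a : Adf F) v * ((k 0 0 v * k 1 1 v - k 0 1 v * k 1 0 v : v.adicCompletionIntegers F) :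
          v.adicCompletion F) * ((z : Adf F) v * (z : Adf F) v) by
      rw [map_sub, map_mul, map_mul, AddSubgroupClass.coe_sub, MulMemClass.coe_mul,
        MulMemClass.coe_mul]
      linear_combination (loc v (δ 1 1)) * m00 v - (loc v (δ 0 1)) * m10 v +
        ((a : Adf F) v * ((k 0 0 v : v.adicCompletionIntegers F) : v.adicCompletion F) *
          (z : Adf F) v) * m11 v -
        (((k 1 0 v : v.adicCompletionIntegers F) : v.adicCompletion F) * (z : Adf F) v) * m01 v)
    rw [map_mul, map_mul, map_mul, map_mul, valued_det, mul_one, valued_dvElt v hΔ,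
      valued_idele, valued_idele, valued_idele, ← exp_add, ← exp_add, ← exp_add, exp_inj] at hdet
    simp only [Finsupp.add_apply, Finsupp.sub_apply, Finsupp.neg_apply, hZv]
    omega

end FermatAgent.LTG.Dihedral.DihedralData
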