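import Fermat.Agent.LT.General.Dihedral.Trace
import Fermat.Agent.LT.General.Dihedral.Gamma
import Fermat.Agent.LT.Dihedral.FiniteSum

/-!
# Factorisation of the finite exponential sum of the theta transformation, general bad number
-/

set_option autoImplicit false

noncomputable section

open NumberField IsDedekindDomain
open FermatAgent.LT.Dihedral
open FermatAgent.LT.Dihedral.QuadData
open scoped nonZeroDivisors

namespace FermatAgent.LTG.Dihedral.DihedralData

variable {F : Type} [Field F] [NumberField F] {m : ℕ} (D : DihedralData F m)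

/-- The modulus of the residue character. -/
def modI : Ideal (𝓞 D.M) := Ideal.span {((m ^ D.r : ℕ) : 𝓞 D.M)}

lemma idealDv_modI : idealDv D.modI = D.R := rfl

variable [hm : Fact (1 < m)]

lemma modI_ne : D.modI ≠ ⊥ := by
  rw [modI, ne_eq, Ideal.span_singleton_eq_bot, Nat.cast_pow]
  exact pow_ne_zero _ natCast_m_ne

lemma ordGe_modI {u : 𝓞 D.M} (hu : u ∈ D.modI) (P : HeightOneSpectrum (𝓞 D.M)) :
    OrdGe P (D.R P) (u : D.M) := ordGe_of_mem D.modI_ne hu P

omit hm in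
lemma diff_nonneg (q : HeightOneSpectrum (𝓞 F)) : (0 : ℤ) ≤ diffDv F q := idealDv_nonneg _ q

lemma OrdGe.to_diff {q : HeightOneSpectrum (𝓞 F)} {x : F} {n : ℤ} (h : OrdGe q n x) (hn : 0 ≤ n) :
    OrdGe q (-diffDv F q) x := h.mono (by have := diff_nonneg q; omega)

omit hm in
lemma ordGe_off {q : HeightOneSpectrum (𝓞 F)} (hq : ¬ D.InT q) {n : ℤ} {x : D.M}
    {P : HeightOneSpectrum (𝓞 D.M)} (hP : D.below P = q) (h : OrdGe P n x) :
    OrdGe P (D.ram P * n) x := by
  rwa [D.ram_eq_one (hP ▸ hq), one_mul]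

/-- The hypotheses on the coefficients of the finite sum. -/
structure SumCoeffs (𝔮 : Ideal (𝓞 F)) (c₁ : F) (c₂ : D.M) (d : F) : Prop where
  ne_bot : 𝔮 ≠ ⊥
  q_T : ∀ q, D.InT q → idealDv 𝔮 q = 0
  c₁_ord : ∀ q, ¬ D.InT q → OrdGe q (-idealDv 𝔮 q - D.dD q) c₁
  c₁_exact : ∀ q, 0 < idealDv 𝔮 q → c₁ ≠ 0 ∧ dvElt c₁ q = -idealDv 𝔮 q - D.dD q
  c₁_T : ∀ q, D.InT q → OrdGe q 0 c₁
  c₂_ord : ∀ P, ¬ D.InT (D.below P) → OrdGe P (-idealDv 𝔮 (D.below P) - D.dD (D.below P)) c₂
  c₂_T : ∀ P, D.InT (D.below P) → OrdGe P (-(D.R P + diffDv D.M P)) c₂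
  d_ord : ∀ q, ¬ D.InT q → OrdGe q (-idealDv 𝔮 q - D.dD q) d
  d_T : ∀ q, D.InT q → OrdGe q 0 d
  d_eq : ∀ q, 0 < idealDv 𝔮 q → OrdGe q (-D.dD q) (d + D.nrm c₂ / c₁)

variable {𝔮 : Ideal (𝓞 F)} {c₁ : F} {c₂ : D.M} {d : F}

variable {D}

omit hm in
lemma coprime_of_q_T (h : ∀ q, D.InT q → idealDv 𝔮 q = 0) (h0 : 𝔮 ≠ ⊥) :
    𝔮 ⊔ Ideal.span {(m : 𝓞 F)} = ⊤ := by
  by_contra hne
  obtain ⟨p, hp, hle⟩ := Ideal.exists_le_maximal _ hne
  have hp0 : p ≠ ⊥ := fun h' => h0 (le_bot_iff.1 (h' ▸ le_sup_left.trans hle))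
  have hmem : D.InT (⟨p, hp.isPrime, hp0⟩ : HeightOneSpectrum (𝓞 F)) :=
    (Ideal.span_singleton_le_iff_mem _).1 (le_sup_right.trans hle)
  have h1 := h _ hmem
  have h2 := FractionalIdeal.count_mono F ⟨p, hp.isPrime, hp0⟩
    (FractionalIdeal.coeIdeal_ne_zero.2 h0)
    ((FractionalIdeal.coeIdeal_le_coeIdeal _).2 (le_sup_left.trans hle))
  rw [FractionalIdeal.count_self] at h2
  change 1 ≤ idealDv 𝔮 _ at h2
  omega

omit hm in
lemma coprime_mapI (h : 𝔮 ⊔ Ideal.span {(m : 𝓞 F)} = ⊤) :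
    D.mapI 𝔮 ⊔ Ideal.span {(m : 𝓞 D.M)} = ⊤ := by
  have h1 := congrArg (Ideal.map (algebraMap (𝓞 F) (𝓞 D.M))) h
  rwa [Ideal.map_sup, Ideal.map_span, Set.image_singleton, map_natCast, Ideal.map_top] at h1

omit hm in
lemma SumCoeffs.notInT (h : D.SumCoeffs 𝔮 c₁ c₂ d) {q : HeightOneSpectrum (𝓞 F)}
    (hq : 0 < idealDv 𝔮 q) : ¬ D.InT q := fun hT => hq.ne' (h.q_T q hT)

omit hm in
lemma SumCoeffs.quad_ord (h : D.SumCoeffs 𝔮 c₁ c₂ d) {q : HeightOneSpectrum (𝓞 F)}
    (hq : ¬ D.InT q) (x : 𝓞 D.M) :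
    OrdGe q (-idealDv 𝔮 q - D.dD q) (D.quadForm c₁ c₂ x) := by
  refine OrdGe.add ?_ (D.ordGe_tra_self fun P hP => D.ordGe_off hq hP ?_)
  · simpa using (h.c₁_ord q hq).mul (D.nrm_int_ordGe q x)
  · simpa [hP] using (h.c₂_ord P (hP ▸ hq)).mul (ordGe_int x)

omit hm in
/-- The values at a translate differ by a small element away from `T`. -/
lemma SumCoeffs.diff_ord (h : D.SumCoeffs 𝔮 c₁ c₂ d) {q : HeightOneSpectrum (𝓞 F)}
    (hq : ¬ D.InT q) (x : 𝓞 D.M) {u : 𝓞 D.M} (hu : u ∈ D.mapI 𝔮) :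
    OrdGe q (-D.dD q) (D.quadForm c₁ c₂ (x + u) - D.quadForm c₁ c₂ x) := by
  have hu' : ∀ P, D.below P = q → OrdGe P (idealDv 𝔮 q) (u : D.M) := fun P hP => by
    have := ordGe_of_mem (map_ne_bot_ext h.ne_bot) hu P
    rwa [idealDv_map h.ne_bot, extDv_apply, hP, D.ram_eq_one (hP ▸ hq), one_mul] at this
  rw [quadForm_add]
  refine OrdGe.add ?_ (D.ordGe_tra_self fun P hP => D.ordGe_off hq hP ?_)
  · have h2 : OrdGe q (idealDv 𝔮 q) (D.tra ((x : D.M) * D.σ u) + D.nrm (u : D.M)) := by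
      refine OrdGe.add (D.ordGe_tra_self fun P hP => D.ordGe_off hq hP ?_) ?_
      · simpa using (ordGe_int (v := P) x).mul
          (D.ordGe_σ (hu' _ ((D.below_conjP P).trans hP)))
      · refine (D.ordGe_nrm_self fun P hP => D.ordGe_off hq hP (hu' P hP)).mono ?_
        have : 0 ≤ idealDv 𝔮 q := idealDv_nonneg 𝔮 q
        omega
    exact ((h.c₁_ord q hq).mul h2).mono (by ring_nf; rfl)
  · exact ((h.c₂_ord P (hP ▸ hq)).mul (hu' P hP)).mono (by rw [hP]; ring_nf; rfl)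

/-- Factorisation of the finite sum. -/
theorem SumCoeffs.sum_factor (h : D.SumCoeffs 𝔮 c₁ c₂ d) (φ : 𝓞 D.M → ℂ)
    (hφ : PeriodicMod D.modI φ) :
    qsum (D.mapI 𝔮 * D.modI) (fun x => φ x * ph (D.quadForm c₁ c₂ x)) =
      ph d * (D.ξ (D.mapI 𝔮) * (Ideal.absNorm 𝔮 : ℂ)) *
        qsum D.modI (fun x => φ x * D.psiT (D.tra (c₂ * (x : D.M)))) := by
  classical
  have hcop := coprime_of_q_T h.q_T h.ne_bot
  set K : ℕ := ∑ P ∈ D.TP, (D.R P + diffDv D.M P).natAbs
  obtain ⟨a, ha, b, hb, hab⟩ := Submodule.mem_sup.1 ((Ideal.eq_top_iff_one _).1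
    (Ideal.sup_pow_eq_top (n := K + 1) hcop))
  have hbw : ∀ q, D.InT q → OrdGe q (K + 1 : ℕ) (b : F) := fun q hq =>
    ordGe_pow_iff.2 (Ideal.pow_right_mono ((Ideal.span_singleton_le_iff_mem _).2 hq) _ hb)
  have hb0' : ∀ q, D.InT q → OrdGe q 0 (b : F) := fun q hq => (hbw q hq).mono (by positivity)
  have habF : (a : F) + (b : F) = 1 := by rw [← coeO_add, hab]; exact map_one _
  have hbq : ∀ q, OrdGe q (idealDv 𝔮 q) ((b : F) - 1) := fun q => by
    rw [show (b : F) - 1 = -(a : F) by linear_combination habF]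
    exact (ordGe_of_mem h.ne_bot ha q).neg
  have htr : ∀ q, D.InT q → ∀ y : 𝓞 D.M, OrdGe q 0 ((b : F) * D.tra (c₂ * (y : D.M))) := by
    intro q hq y
    rw [← D.tra_mul_algebraMap]
    refine D.ordGe_tra_self fun P hP => ?_
    rw [← hP] at hq
    refine ((D.ordGe_algebraMap (hbw _ hq)).mul ((h.c₂_T P hq).mul (ordGe_int y))).mono ?_
    have h1 : ((D.R P + diffDv D.M P).natAbs : ℤ) ≤ K := by
      exact_mod_cast Finset.single_le_sum (f := fun Q => (D.R Q + diffDv D.M Q).natAbs)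
        (fun _ _ => Nat.zero_le _) (D.mem_TP.2 hq)
    have h2 : ((K + 1 : ℕ) : ℤ) ≤ D.ram P * (K + 1 : ℕ) :=
      le_mul_of_one_le_left (by positivity) (D.one_le_ram P)
    push_cast at h2 ⊢
    omega
  have hquadT : ∀ q, D.InT q → ∀ x : 𝓞 D.M, OrdGe q 0 ((b : F) * D.quadForm c₁ c₂ x) := by
    intro q hq x
    rw [quadForm, mul_add]
    refine OrdGe.add ?_ (htr q hq x)
    simpa using (hb0' q hq).mul ((h.c₁_T q hq).mul (D.nrm_int_ordGe q x))
  have hdD := D.dD_nonneg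
  have hq0 : ∀ q, 0 ≤ idealDv 𝔮 q := fun q => idealDv_nonneg 𝔮 q
  set f₀ : 𝓞 D.M → ℂ := fun x => ph ((b : F) * D.quadForm c₁ c₂ x)
  set f₁ : 𝓞 D.M → ℂ := fun x => φ x * ph ((a : F) * D.quadForm c₁ c₂ x)
  have h0per : PeriodicMod (D.mapI 𝔮) f₀ := by
    intro x u hu
    refine D.ph_congr fun q => ?_
    rw [← mul_sub]
    by_cases hq : D.InT q
    · rw [mul_sub]
      exact OrdGe.to_diff ((hquadT q hq _).sub (hquadT q hq _)) le_rfl
    · rw [← D.dD_of_not hq]
      simpa using (ordGe_int b).mul (h.diff_ord hq x hu)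
  have h1per : PeriodicMod D.modI f₁ := by
    intro x u hu
    simp only [f₁, hφ x u hu]
    congr 1
    refine D.ph_congr fun q => ?_
    rw [← mul_sub]
    by_cases hq : D.InT q
    · rw [quadForm_add]
      refine (OrdGe.mul (m := 0) (n := -diffDv F q) (ordGe_int a) ?_).mono (by simp)
      refine OrdGe.add ?_ (D.trace_dual fun P hP => ?_)
      · have h2 : OrdGe q 0 (D.tra ((x : D.M) * D.σ u) + D.nrm (u : D.M)) := by
          rw [← coe_σO, ← coeO_mul, ← coe_traO]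
          exact (ordGe_int _).add (D.nrm_int_ordGe q u)
        exact OrdGe.to_diff (by simpa using (h.c₁_T q hq).mul h2) le_rfl
      · refine ((h.c₂_T P (hP ▸ hq)).mul (D.ordGe_modI hu P)).mono ?_
        omega
    · refine ((ordGe_of_mem h.ne_bot ha q).mul
        ((h.quad_ord hq (x + u)).sub (h.quad_ord hq x))).mono ?_
      rw [D.dD_of_not hq]
      omega
  have := finite_quot (map_ne_bot_ext (L := D.M) h.ne_bot)
  have := finite_quot D.modI_ne
  have hcopM : D.mapI 𝔮 ⊔ D.modI = ⊤ := by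
    rw [modI, Nat.cast_pow, ← Ideal.span_singleton_pow]
    exact Ideal.sup_pow_eq_top (coprime_mapI hcop)
  have hsum : qsum (D.mapI 𝔮 * D.modI) (fun x => φ x * ph (D.quadForm c₁ c₂ x)) =
      qsum (D.mapI 𝔮) f₀ * qsum D.modI f₁ := by
    rw [← qsum_mul_crt hcopM h0per h1per]
    refine qsum_congr fun x => ?_
    simp only [f₀, f₁]
    rw [← mul_assoc, mul_comm (ph _) (φ x), mul_assoc, ← ph_add, ← add_mul,
      add_comm (b : F), habF, one_mul]
  have h1 : ∀ x, f₁ x = φ x * D.psiT (D.tra (c₂ * (x : D.M))) := by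
    intro x
    simp only [f₁]
    congr 1
    refine (D.psiT_eq (fun q hq => OrdGe.to_diff (n := 0) ?_ le_rfl) fun q hq => ?_).symm
    · rw [show (a : F) * D.quadForm c₁ c₂ x - D.tra (c₂ * (x : D.M)) =
        (a : F) * (c₁ * D.nrm (x : D.M)) - (b : F) * D.tra (c₂ * (x : D.M)) by
        rw [quadForm]; linear_combination (D.tra (c₂ * (x : D.M))) * habF]
      refine OrdGe.sub ?_ (htr q hq x)
      simpa using (ordGe_int a).mul ((h.c₁_T q hq).mul (D.nrm_int_ordGe q x))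
    · refine ((ordGe_of_mem h.ne_bot ha q).mul (h.quad_ord hq x)).mono ?_
      rw [D.dD_of_not hq]
      omega
  rw [hsum, qsum_congr h1]
  congr 1
  -- the part prime to `m`
  let θ : AddChar (𝓞 F) ℂ :=
    { toFun := fun z => ph ((b : F) * c₁ * (z : F))
      map_zero_eq_one' := by simp [coeO_zero, ph_zero]
      map_add_eq_mul' := fun z z' => by rw [coeO_add, mul_add, ph_add] }
  have hθ : Conductor θ 𝔮 := by
    refine ⟨fun z hz => Small.ph_eq (D := D) fun q => ?_, fun q' 𝔟 hq' => ?_⟩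
    · by_cases hq : D.InT q
      · exact OrdGe.to_diff (by
          simpa using ((hb0' q hq).mul (h.c₁_T q hq)).mul (ordGe_int z)) le_rfl
      · refine (((ordGe_int b).mul (h.c₁_ord q hq)).mul (ordGe_of_mem h.ne_bot hz q)).mono ?_
        rw [D.dD_of_not hq]
        omega
    · by_contra hall
      push Not at hall
      have hb0 : 𝔟 ≠ ⊥ := fun hb0 => h.ne_bot (by rw [hq', hb0, Ideal.mul_bot])
      have hqv : idealDv 𝔮 q' = 1 + idealDv 𝔟 q' := by
        rw [hq', idealDv_mul q'.ne_bot hb0, idealDv_prime, Finsupp.add_apply,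
          Finsupp.single_eq_same]
      have hb' : 0 ≤ idealDv 𝔟 q' := idealDv_nonneg 𝔟 q'
      have hpos : 0 < idealDv 𝔮 q' := by omega
      have hq'T := h.notInT hpos
      have hmem : (b : F) * c₁ ∈ (fid (-idealDv 𝔟 - diffDv F) : FractionalIdeal (𝓞 F)⁰ F) := by
        refine mem_fid_dual.2 fun y hy => ?_
        obtain ⟨z, rfl⟩ : ∃ z : 𝓞 F, (z : F) = y := exists_int_of_nonneg
          (mem_fid.1 (mem_fid_iff_ordGe.2 fun q =>
            (mem_fid_iff_ordGe.1 hy q).mono (by simpa using idealDv_nonneg 𝔟 q)))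
        rw [← ph_eq_one_iff]
        exact hall z ((mem_iff_ordGe hb0).2 (mem_fid_iff_ordGe.1 hy))
      have hx := mem_fid_iff_ordGe.1 hmem q'
      obtain ⟨hc0, hce⟩ := h.c₁_exact q' hpos
      have hbne : (b : F) ≠ 0 := by
        intro h0
        have := hbq q'
        rw [h0, zero_sub] at this
        have := (this.neg).resolve_left (by simp)
        rw [neg_neg, dvElt_one, Finsupp.zero_apply] at this
        omega
      have hbv : dvElt (b : F) q' = 0 := by
        have h0 : 0 ≤ dvElt (b : F) q' := dvElt_coe_nonneg b q'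
        by_contra hne
        have h1 : OrdGe q' 1 (b : F) := Or.inr (by omega)
        have h2 := h1.sub ((hbq q').mono (show (1 : ℤ) ≤ idealDv 𝔮 q' by omega))
        rw [sub_sub_cancel] at h2
        have := h2.resolve_left one_ne_zero
        rw [dvElt_one, Finsupp.zero_apply] at this
        omega
      have hx' := hx.resolve_left (mul_ne_zero hbne hc0)
      rw [dvElt_mul hbne hc0, Finsupp.add_apply, hbv, hce, D.dD_of_not hq'T, Finsupp.sub_apply,
        Finsupp.neg_apply] at hx'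
      omega
  -- completing the square
  set S := (extDv (L := D.M) (idealDv 𝔮)).support
  have hmem : ∀ {P}, P ∈ S → 0 < idealDv 𝔮 (D.below P) := fun {P} hP => by
    have := hq0 (D.below P)
    rcases eq_or_ne (idealDv 𝔮 (D.below P)) 0 with h0 | h0
    · exact absurd (by rw [extDv_apply, h0, mul_zero]) (Finsupp.mem_support_iff.1 hP)
    · omega
  obtain ⟨x₀, hx₀⟩ := exists_int_congr S (fun P => (idealDv 𝔮 (D.below P)).toNat)
    (x := -D.σ c₂ / algebraMap F D.M c₁) (fun P hP => by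
      obtain ⟨hc0, hce⟩ := h.c₁_exact _ (hmem hP)
      have hT := h.notInT (hmem hP)
      have h1 : OrdGe P (idealDv 𝔮 (D.below P) + D.dD (D.below P)) ((algebraMap F D.M c₁)⁻¹) := by
        refine Or.inr ?_
        rw [dvElt_inv ((map_ne_zero _).2 hc0), Finsupp.neg_apply, dvElt_algebraMap hc0, extDv_apply,
          D.ram_eq_one hT, hce]
        linarith
      have h2 : OrdGe P (-idealDv 𝔮 (D.below P) - D.dD (D.below P)) (-D.σ c₂) := by
        refine (D.ordGe_σ ?_).neg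
        have := h.c₂_ord (D.conjP P) (by rwa [D.below_conjP])
        rwa [D.below_conjP] at this
      rw [div_eq_mul_inv]
      refine (h2.mul h1).mono ?_
      ring_nf; rfl)
  have hx₀' : ∀ q, ¬ D.InT q → ∀ P, D.below P = q →
      OrdGe P (-D.dD q) (algebraMap F D.M c₁ * D.σ (x₀ : D.M) + c₂) := by
    intro q hq P hP
    rcases (hq0 q).lt_or_eq with hpos | h0
    · obtain ⟨hc0, hce⟩ := h.c₁_exact q hpos
      have hS : D.conjP P ∈ S := by
        rw [Finsupp.mem_support_iff, extDv_apply, D.below_conjP, hP]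
        exact mul_ne_zero (by have := D.one_le_ram (D.conjP P); omega) hpos.ne'
      have h1 := D.ordGe_σ (hx₀ _ hS)
      rw [D.below_conjP, hP, Int.toNat_of_nonneg (hq0 q), map_sub, map_div₀, map_neg, D.σ_σ,
        D.σ_algebraMap] at h1
      have h2 := ((D.ordGe_algebraMap (P := P) (n := -idealDv 𝔮 q - D.dD q)
        (Or.inr (by rw [hP, hce]))).mul h1).neg
      rw [D.ram_eq_one (hP ▸ hq)] at h2
      rw [show algebraMap F D.M c₁ * D.σ (x₀ : D.M) + c₂ =
        -(algebraMap F D.M c₁ * (-c₂ / algebraMap F D.M c₁ - D.σ (x₀ : D.M))) by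
          have hne : algebraMap F D.M c₁ ≠ 0 := (map_ne_zero _).2 hc0
          field_simp
          ring]
      refine h2.mono ?_
      ring_nf; rfl
    · have h1 := (D.ordGe_algebraMap (P := P) (hP.symm ▸ h.c₁_ord q hq : OrdGe (D.below P) _ c₁)).mul
        (D.ordGe_σ (x := (x₀ : D.M)) (k := 0) (ordGe_int x₀))
      have h2 := h.c₂_ord P (hP ▸ hq)
      rw [hP] at h1 h2
      rw [← h0, neg_zero, zero_sub] at h1 h2
      rw [D.ram_eq_one (hP ▸ hq), one_mul, add_zero] at h1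
      exact h1.add h2
  have hshift : ∀ x, f₀ (x + x₀) = ph d * θ (D.nrmO x) := by
    intro x
    show ph _ = ph d * ph _
    rw [← ph_add]
    refine D.ph_congr ?_
    have hid : (b : F) * D.quadForm c₁ c₂ (x + x₀) -
        (d + (b : F) * c₁ * ((D.nrmO x : 𝓞 F) : F)) =
        (b : F) * D.tra ((algebraMap F D.M c₁ * D.σ (x₀ : D.M) + c₂) * (x : D.M)) +
          ((b : F) * D.quadForm c₁ c₂ x₀ - d) := by
      rw [show (algebraMap F D.M c₁ * D.σ (x₀ : D.M) + c₂) * (x : D.M) =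
        algebraMap F D.M c₁ * ((x : D.M) * D.σ (x₀ : D.M)) + c₂ * (x : D.M) by ring,
        D.tra_add, D.tra_mul_algebraMap, quadForm, quadForm, coeO_add, D.nrm_add, mul_add c₂,
        D.tra_add, coe_nrmO]
      ring
    rw [hid]
    intro q
    by_cases hq : D.InT q
    · rw [← hid]
      refine OrdGe.sub (OrdGe.to_diff (hquadT q hq _) le_rfl)
        (OrdGe.to_diff ((h.d_T q hq).add ?_) le_rfl)
      simpa using ((hb0' q hq).mul (h.c₁_T q hq)).mul (ordGe_int (D.nrmO x))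
    rw [← D.dD_of_not hq]
    refine OrdGe.add ?_ ?_
    · refine ((ordGe_int b).mul (D.ordGe_tra_self fun P hP => D.ordGe_off hq hP
        ((hx₀' q hq P hP).mul (ordGe_int x)))).mono ?_
      ring_nf; rfl
    · rcases (hq0 q).lt_or_eq with hpos | h0
      · obtain ⟨hc0, hce⟩ := h.c₁_exact q hpos
        rw [show (b : F) * D.quadForm c₁ c₂ x₀ - d =
          ((b : F) - 1) * D.quadForm c₁ c₂ x₀ +
            (D.quadForm c₁ c₂ x₀ + D.nrm c₂ / c₁) - (d + D.nrm c₂ / c₁) by ring]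
        refine OrdGe.sub (OrdGe.add ?_ ?_) (h.d_eq q hpos)
        · exact ((hbq q).mul (h.quad_ord hq x₀)).mono (by ring_nf; rfl)
        · rw [quadForm, D.quad_square hc0, div_eq_mul_inv]
          have h1 := D.ordGe_nrm_self fun P hP => D.ordGe_off hq hP (hx₀' q hq P hP)
          have h2 : OrdGe q (idealDv 𝔮 q + D.dD q) c₁⁻¹ := Or.inr (by
            rw [dvElt_inv hc0, Finsupp.neg_apply, hce]; linarith)
          refine (h1.mul h2).mono ?_
          have := hdD q
          omega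
      · refine OrdGe.sub ?_ ?_
        · exact ((ordGe_int b).mul (h.quad_ord hq x₀)).mono (by rw [← h0]; ring_nf; rfl)
        · exact (h.d_ord q hq).mono (by rw [← h0]; ring_nf; rfl)
  rw [← qsum_add_shift h0per x₀, qsum_congr hshift, qsum_const_mul,
    D.gamma_eq h.ne_bot hcop hθ]

end FermatAgent.LTG.Dihedral.DihedralData
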