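import Fermat.Agent.LT.General.Dihedral.Poisson
import Fermat.Agent.LT.General.Dihedral.Sum
import Fermat.Agent.LT.Base.Shift

/-!
# The transformation of the theta series under the inversion, general bad number
-/

set_option autoImplicit false

noncomputable section

open NumberField IsDedekindDomain MeasureTheory
open FermatAgent.LT (H3 XInf waveProd hshift hshift_z hshift_t hshift_zero embVec embVec_apply)
open FermatAgent.LT.Dihedral
open FermatAgent.LT.Dihedral.QuadData
open FermatAgent.LT.Dihedral.DihedralData (winv)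
open scoped nonZeroDivisors

namespace FermatAgent.LTG.Dihedral.DihedralData

variable {F : Type} [Field F] [NumberField F] {m : ℕ} (D : DihedralData F m)

/-- The size of the different and the modulus at the places over `m`. -/
def NT [Fact (1 < m)] : ℕ := ∑ P ∈ D.TP, (D.R P + diffDv D.M P).natAbs

/-- The exponent of the level. -/
def nT [Fact (1 < m)] : ℕ := 2 * D.NT + 1

variable [hm : Fact (1 < m)]

lemma le_NT {P : HeightOneSpectrum (𝓞 D.M)} (h : D.InT (D.below P)) :
    D.R P + diffDv D.M P ≤ D.NT := by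
  have h1 : ((D.R P + diffDv D.M P).natAbs : ℤ) ≤ D.NT := by
    exact_mod_cast Finset.single_le_sum (f := fun Q => (D.R Q + diffDv D.M Q).natAbs)
      (fun _ _ => Nat.zero_le _) (D.mem_TP.2 h)
  omega

omit hm in
lemma TFree.add {A B : Dv F} (hA : D.TFree A) (hB : D.TFree B) : D.TFree (A + B) :=
  fun q hq => by rw [Finsupp.add_apply, hA q hq, hB q hq, add_zero]

omit hm in
lemma TFree.neg {A : Dv F} (hA : D.TFree A) : D.TFree (-A) := fun q hq => by
  rw [Finsupp.neg_apply, hA q hq, neg_zero]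

/-- The hypotheses of the transformation. -/
structure KeyHyp (B : Dv F) (𝔮 : Ideal (𝓞 F)) (β β' : F) : Prop where
  tfree : D.TFree B
  ne_bot : 𝔮 ≠ ⊥
  q_T : ∀ q, D.InT q → idealDv 𝔮 q = 0
  β_ord : ∀ q, ¬ D.InT q → OrdGe q (B q - idealDv 𝔮 q) β
  β_exact : ∀ q, 0 < idealDv 𝔮 q → β ≠ 0 ∧ dvElt β q = B q - idealDv 𝔮 q
  β_T : ∀ q, D.InT q → OrdGe q 0 β
  β'_ord : ∀ q, ¬ D.InT q → OrdGe q (idealDv 𝔮 q - B q) β'
  β'_T : ∀ q, D.InT q → OrdGe q D.nT β'
  congr : ∀ q, 0 < idealDv 𝔮 q → OrdGe q (idealDv 𝔮 q) (β * β' + 1)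

variable {D} {A A' B : Dv F} {𝔮 : Ideal (𝓞 F)} {β β' : F}

lemma KeyHyp.not_inT (hK : D.KeyHyp B 𝔮 β β') {q : HeightOneSpectrum (𝓞 F)}
    (hq : 0 < idealDv 𝔮 q) : ¬ D.InT q := fun hT => hq.ne' (hK.q_T q hT)

lemma KeyHyp.β_all (hK : D.KeyHyp B 𝔮 β β') (q : HeightOneSpectrum (𝓞 F)) :
    OrdGe q (B q - idealDv 𝔮 q) β := by
  by_cases hq : D.InT q
  · rw [hK.tfree q hq, hK.q_T q hq, sub_zero]
    exact hK.β_T q hq
  · exact hK.β_ord q hq

omit hm in
lemma Pair.conj_eq (p : D.Pair B) (P : HeightOneSpectrum (𝓞 D.M)) :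
    p.J P + p.J (D.conjP P) =
      D.ram P * (dvElt (p.lam : F) (D.below P) + B (D.below P) + D.dD (D.below P)) := by
  have h1 := DFunLike.congr_fun p.hdv P
  rwa [Finsupp.add_apply, conjDv_apply, extDv_apply, Finsupp.add_apply, Finsupp.add_apply] at h1

/-- The weight of a class is periodic. -/
lemma hW_periodic (p : D.Pair B) {Q : Dv F} (hQ : 0 ≤ Q)
    (hβ : ∀ q, OrdGe q (B q - Q q) β) {x u : D.M}
    (hx : x ∈ (fid (-p.J) : FractionalIdeal (𝓞 D.M)⁰ D.M))
    (hu : u ∈ (fid (-p.J + (extDv Q + D.R)) : FractionalIdeal (𝓞 D.M)⁰ D.M)) :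
    D.hW β p.lam (x + u) = D.hW β p.lam x := by
  have hx' := mem_fid_iff_ordGe.1 hx
  have hu' : ∀ P, OrdGe P (-p.J P + D.ram P * Q (D.below P) + D.R P) u := fun P => by
    have := mem_fid_iff_ordGe.1 hu P
    rwa [Finsupp.add_apply, Finsupp.add_apply, Finsupp.neg_apply, extDv_apply, ← add_assoc] at this
  have hQ0 : ∀ P, (0 : ℤ) ≤ D.ram P * Q (D.below P) := fun P =>
    mul_nonneg (zero_le_one.trans (D.one_le_ram P)) (hQ _)
  have hR0 : ∀ P, (0 : ℤ) ≤ D.R P := fun P => D.R_nonneg P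
  simp only [hW]
  congr 1
  · refine D.fT_periodic (ordGe_of_mem_fid p.hJ hx) fun P hP => (hu' P).mono ?_
    have := hQ0 P
    rw [p.hJ P hP]
    omega
  · refine D.ph_congr fun q => ?_
    rw [show -(β * ((p.lam : F) * D.nrm (x + u))) - -(β * ((p.lam : F) * D.nrm x)) =
      -(β * ((p.lam : F) * (D.tra (x * D.σ u) + D.nrm u))) by rw [D.nrm_add]; ring]
    set n : ℤ := Q q - (dvElt (p.lam : F) q + B q + D.dD q) with hn
    have hk : OrdGe q n (D.tra (x * D.σ u) + D.nrm u) := by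
      refine OrdGe.add (D.ordGe_tra_self fun P hP => ?_) ?_
      · refine ((hx' P).mul (D.ordGe_σ (hu' (D.conjP P)))).mono ?_
        have h1 := p.conj_eq P
        have h2 := hR0 (D.conjP P)
        rw [Finsupp.neg_apply, D.below_conjP, D.ram_conjP, hn, hP]
        rw [hP] at h1
        linear_combination h1 + h2
      · obtain ⟨P, hP⟩ := D.exists_above q
        rw [← hP]
        refine D.ordGe_of_algebraMap
          (k := -(p.J P + p.J (D.conjP P)) + 2 * (D.ram P * Q (D.below P))) ?_ ?_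
        · rw [p.conj_eq P, hn, ← hP]
          have := hQ0 P
          have := D.one_le_ram P
          linarith
        · rw [algebraMap_nrm]
          refine ((hu' P).mul (D.ordGe_σ (hu' (D.conjP P)))).mono ?_
          have := hR0 P
          have := hR0 (D.conjP P)
          rw [D.below_conjP, D.ram_conjP]
          linarith
    refine (((hβ q).mul (OrdGe.mul (Or.inr le_rfl : OrdGe q (dvElt (p.lam : F) q) (p.lam : F)) hk)).neg).mono ?_
    have := D.dD_le_diff q
    omega

variable (D) in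
/-- The sum at the places over `m`. -/
def sT (lam : F) (v : D.M) : ℂ :=
  qsum D.modI fun y => D.fT (y : D.M) * D.psiT (lam * D.tra ((y : D.M) * D.σ v))

variable (D) in
/-- The lattice attached to a class. -/
def keyLat (J : Dv D.M) (Q : Dv F) : Dv D.M := -J + (extDv Q + D.R)

lemma dual_eq (p : D.Pair B) (Q : Dv F) :
    D.dualDv (p.lam : F) (D.keyLat p.J Q) =
      -p.J + extDv (B - Q) - D.R - (D.conjDv (diffDv D.M) - extDv D.dD) := by
  have hc : D.conjDv p.J = extDv (dvElt (p.lam : F) + B + D.dD) - p.J := eq_sub_of_add_eq' p.hdv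
  rw [dualDv, keyLat]
  simp only [map_sub, map_add, map_neg, D.conjDv_extDv, D.conjDv_R, hc]
  abel

lemma dual_ord (p : D.Pair B) {Q : Dv F} {v : D.M}
    (hv : v ∈ (fid (D.dualDv (p.lam : F) (D.keyLat p.J Q)) : FractionalIdeal (𝓞 D.M)⁰ D.M))
    (P : HeightOneSpectrum (𝓞 D.M)) :
    OrdGe P (-p.J P + D.ram P * (B (D.below P) - Q (D.below P)) - D.R P -
      (diffDv D.M (D.conjP P) - D.ram P * D.dD (D.below P))) v := by
  rw [dual_eq] at hv
  have := mem_fid_iff_ordGe.1 hv P
  rwa [Finsupp.sub_apply, Finsupp.sub_apply, Finsupp.add_apply, Finsupp.neg_apply, extDv_apply,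
    Finsupp.sub_apply, Finsupp.sub_apply, conjDv_apply, extDv_apply] at this

lemma dual_not (p : D.Pair B) {Q : Dv F} {v : D.M}
    (hv : v ∈ (fid (D.dualDv (p.lam : F) (D.keyLat p.J Q)) : FractionalIdeal (𝓞 D.M)⁰ D.M))
    {P : HeightOneSpectrum (𝓞 D.M)} (hP : ¬ D.InT (D.below P)) :
    OrdGe P (-p.J P + (B (D.below P) - Q (D.below P))) v := by
  refine (dual_ord p hv P).mono ?_
  rw [D.R_not hP, D.diff_not (by rwa [D.below_conjP]), D.below_conjP, D.ram_eq_one hP]
  omega

lemma dual_T (p : D.Pair B) (hB : D.TFree B) {Q : Dv F} (hQ : D.TFree Q) {v : D.M}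
    (hv : v ∈ (fid (D.dualDv (p.lam : F) (D.keyLat p.J Q)) : FractionalIdeal (𝓞 D.M)⁰ D.M))
    {P : HeightOneSpectrum (𝓞 D.M)} (hP : D.InT (D.below P)) :
    OrdGe P (-(D.R P + diffDv D.M (D.conjP P))) v := by
  refine (dual_ord p hv P).mono ?_
  rw [p.hJ P hP, hB _ hP, hQ _ hP, D.dD_T hP]
  simp only [sub_zero, mul_zero, neg_zero, add_zero]
  omega

lemma sT_periodic {lam : F} {v : D.M} (hlam : ∀ q, D.InT q → OrdGe q 0 lam)
    (hv : ∀ P, D.InT (D.below P) → OrdGe P (-(D.R P + diffDv D.M (D.conjP P))) v) :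
    PeriodicMod D.modI fun y : 𝓞 D.M =>
      D.fT (y : D.M) * D.psiT (lam * D.tra ((y : D.M) * D.σ v)) := by
  intro x u hu
  simp only [coeO_add]
  rw [D.fT_periodic (D.tint_int x) fun P _ => D.ordGe_modI hu P]
  congr 1
  refine D.psiT_congr fun q hq => ?_
  rw [add_mul, D.tra_add, mul_add, add_sub_cancel_left]
  simpa using (hlam q hq).mul (D.trace_dual (z := (u : D.M) * D.σ v) fun P hP => by
    refine ((D.ordGe_modI hu P).mul (D.ordGe_σ (hv (D.conjP P)
      (by rw [D.below_conjP, hP]; exact hq)))).mono ?_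
    rw [D.conjP_conjP, D.R_conjP]
    omega)

/-- The finite sum of a class at a dual point. -/
lemma finite_sum_eq (hK : D.KeyHyp B 𝔮 β β') (p : D.Pair B) {l₀ : D.M} (hl₀ : l₀ ≠ 0)
    (hmem : l₀ ∈ (fid (-p.J) : FractionalIdeal (𝓞 D.M)⁰ D.M))
    (hexact : ∀ P, (extDv (idealDv 𝔮) + D.R : Dv D.M) P ≠ 0 → dvElt l₀ P = -p.J P) {v : D.M}
    (hv : v ∈ (fid (D.dualDv (p.lam : F) (D.keyLat p.J (idealDv 𝔮))) :
      FractionalIdeal (𝓞 D.M)⁰ D.M)) :
    qsum (D.mapI 𝔮 * D.modI) (fun x => D.hW β p.lam (l₀ * (x : D.M)) *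
        ph ((p.lam : F) * D.tra (l₀ * (x : D.M) * D.σ v))) =
      ph (-(β' * ((p.lam : F) * D.nrm v))) * (D.η (idealDv 𝔮) * (Ideal.absNorm 𝔮 : ℂ)) *
        D.sT p.lam v := by
  have hlam0 : (p.lam : F) ≠ 0 := p.lam.ne_zero
  have hl0 := mem_fid_iff_ordGe.1 hmem
  have hlamT : ∀ q, D.InT q → dvElt (p.lam : F) q = 0 := fun q hq => p.lam_T hK.tfree hq
  have hlamI : ∀ q, D.InT q → OrdGe q 0 (p.lam : F) := fun q hq => Or.inr (hlamT q hq).ge
  have hlamQ : ∀ q, OrdGe q (dvElt (p.lam : F) q) (p.lam : F) := fun q => Or.inr le_rfl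
  have hq0 : ∀ q, 0 ≤ idealDv 𝔮 q := fun q => idealDv_nonneg 𝔮 q
  have hlT : ∀ P, D.InT (D.below P) → dvElt l₀ P = 0 := fun P hP => by
    rw [hexact P ?_, p.hJ P hP, neg_zero]
    rw [Finsupp.add_apply, extDv_apply, hK.q_T _ hP, mul_zero, zero_add]
    have := D.R_T hP
    omega
  have hl0T : D.TUnit l₀ := ⟨hl₀, hlT⟩
  have hQfree : D.TFree (idealDv 𝔮) := hK.q_T
  have hvT : ∀ P, D.InT (D.below P) → OrdGe P (-(D.R P + diffDv D.M (D.conjP P))) v :=
    fun P hP => dual_T p hK.tfree hQfree hv hP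
  have hσv : ∀ P, D.InT (D.below P) → OrdGe P (-(D.R P + diffDv D.M P)) (D.σ v) := fun P hP => by
    refine D.ordGe_σ ?_
    have := hvT (D.conjP P) (by rwa [D.below_conjP])
    rwa [D.conjP_conjP, D.R_conjP] at this
  set c₁ : F := -(β * (p.lam : F) * D.nrm l₀)
  set c₂ : D.M := algebraMap F D.M (p.lam : F) * (l₀ * D.σ v)
  set d : F := -(β' * ((p.lam : F) * D.nrm v))
  have hnl : ∀ q, OrdGe q (-(dvElt (p.lam : F) q + B q + D.dD q)) (D.nrm l₀) := by
    intro q
    obtain ⟨P, hP⟩ := D.exists_above q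
    subst hP
    refine D.ordGe_of_algebraMap (k := -(p.J P + p.J (D.conjP P))) ?_ ?_
    · rw [p.conj_eq P]
      have := D.one_le_ram P
      linarith
    · rw [algebraMap_nrm]
      refine ((hl0 P).mul (D.ordGe_σ (hl0 (D.conjP P)))).mono ?_
      rw [Finsupp.neg_apply, Finsupp.neg_apply]; omega
  have hnv : ∀ q, ¬ D.InT q → OrdGe q (-(dvElt (p.lam : F) q + B q + D.dD q) +
      2 * (B q - idealDv 𝔮 q)) (D.nrm v) := by
    intro q hq
    obtain ⟨P, hP⟩ := D.exists_above q
    subst hP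
    refine D.ordGe_of_algebraMap
      (k := -(p.J P + p.J (D.conjP P)) + 2 * (B (D.below P) - idealDv 𝔮 (D.below P))) ?_ ?_
    · rw [D.ram_eq_one hq, one_mul, p.conj_eq P, D.ram_eq_one hq]; omega
    · rw [algebraMap_nrm]
      refine ((dual_not p hv hq).mul (D.ordGe_σ (dual_not p hv (P := D.conjP P)
        (by rwa [D.below_conjP])))).mono ?_
      rw [D.below_conjP]
      omega
  have hS : D.SumCoeffs 𝔮 c₁ c₂ d := by
    refine ⟨hK.ne_bot, hK.q_T, fun q hq => ?_, fun q hq => ?_, fun q hq => ?_, fun P hP => ?_,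
      fun P hP => ?_, fun q hq => ?_, fun q hq => ?_, fun q hq => ?_⟩
    · refine (((hK.β_ord q hq).mul (hlamQ q)).mul (hnl q)).neg.mono ?_
      omega
    · obtain ⟨hb0, hbe⟩ := hK.β_exact q hq
      have hqT := hK.not_inT hq
      obtain ⟨P, hP⟩ := D.exists_above q
      subst hP
      have hne : ∀ Q, D.below Q = D.below P → (extDv (idealDv 𝔮) + D.R : Dv D.M) Q ≠ 0 := by
        intro Q hQ
        rw [Finsupp.add_apply, extDv_apply, D.R_not (hQ.symm ▸ hqT), add_zero,
          D.ram_eq_one (hQ.symm ▸ hqT), one_mul, hQ]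
        exact hq.ne'
      have hcb : dvElt l₀ P + dvElt l₀ (D.conjP P) = -(p.J P + p.J (D.conjP P)) := by
        rw [hexact P (hne P rfl), hexact (D.conjP P) (hne _ (D.below_conjP P))]
        ring
      have hN : dvElt (D.nrm l₀) (D.below P) =
          -(dvElt (p.lam : F) (D.below P) + B (D.below P) + D.dD (D.below P)) := by
        have h1 := DFunLike.congr_fun (D.extDv_dvElt_nrm hl₀) P
        rw [extDv_apply, D.ram_eq_one hqT, one_mul, Finsupp.add_apply, conjDv_apply, hcb,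
          p.conj_eq P, D.ram_eq_one hqT, one_mul] at h1
        exact h1
      have hn0 : D.nrm l₀ ≠ 0 := D.nrm_eq_zero.not.2 hl₀
      refine ⟨neg_ne_zero.2 (mul_ne_zero (mul_ne_zero hb0 hlam0) hn0), ?_⟩
      simp only [c₁]
      rw [dvElt_neg, dvElt_mul (mul_ne_zero hb0 hlam0) hn0, dvElt_mul hb0 hlam0, Finsupp.add_apply,
        Finsupp.add_apply, hbe, hN]
      omega
    · refine (((hK.β_T q hq).mul (hlamI q hq)).mul (hnl q)).neg.mono ?_
      rw [hlamT q hq, hK.tfree q hq, D.dD_T hq]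
      simp
    · refine ((D.ordGe_algebraMap (hlamQ (D.below P))).mul
        ((hl0 P).mul (D.ordGe_σ (dual_not p hv (P := D.conjP P) (by rwa [D.below_conjP]))))).mono ?_
      have := p.conj_eq P
      rw [D.ram_eq_one hP, one_mul] at this
      rw [D.below_conjP, Finsupp.neg_apply, D.ram_eq_one hP, one_mul]
      omega
    · refine ((D.ordGe_algebraMap (hlamI _ hP)).mul ((hl0T.tint P hP).mul (hσv P hP))).mono ?_
      simp
    · refine ((hK.β'_ord q hq).mul ((hlamQ q).mul (hnv q hq))).neg.mono ?_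
      omega
    · obtain ⟨P, hP⟩ := D.exists_above q
      subst hP
      refine OrdGe.neg (D.ordGe_of_algebraMap (k := 0) ?_ ?_)
      · have := D.one_le_ram P
        linarith
      rw [map_mul, map_mul, algebraMap_nrm]
      refine ((D.ordGe_algebraMap (hK.β'_T _ hq)).mul ((D.ordGe_algebraMap (hlamI _ hq)).mul
        ((hvT P hq).mul (hσv P hq)))).mono ?_
      have h1 := D.le_NT hq
      have h2 := D.le_NT (P := D.conjP P) (by rwa [D.below_conjP])
      have h3 : (D.nT : ℤ) ≤ D.ram P * D.nT :=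
        le_mul_of_one_le_left (by positivity) (D.one_le_ram P)
      rw [D.R_conjP] at h2
      have h4 : (D.nT : ℤ) = 2 * D.NT + 1 := by simp [nT]
      linarith
    · obtain ⟨hb0, hbe⟩ := hK.β_exact q hq
      have hqT := hK.not_inT hq
      have hid : d + D.nrm c₂ / c₁ = -(((p.lam : F) * D.nrm v) * (β * β' + 1) * β⁻¹) := by
        simp only [d, c₁, c₂, D.nrm_mul, D.nrm_algebraMap, D.nrm_σ]
        have hn0 : D.nrm l₀ ≠ 0 := D.nrm_eq_zero.not.2 hl₀
        field_simp
        ring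
      rw [hid]
      have hbi : OrdGe q (idealDv 𝔮 q - B q) β⁻¹ :=
        Or.inr (by rw [dvElt_inv hb0, Finsupp.neg_apply, hbe]; omega)
      refine ((((hlamQ q).mul (hnv q hqT)).mul (hK.congr q hq)).mul hbi).neg.mono ?_
      omega
  have hφ : PeriodicMod D.modI fun x : 𝓞 D.M => D.fT (l₀ * (x : D.M)) := by
    intro x u hu
    simp only [coeO_add, mul_add]
    refine D.fT_periodic (hl0T.tint.mul (D.tint_int x)) fun P hP => ?_
    simpa using (hl0T.tint P hP).mul (D.ordGe_modI hu P)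
  have hsummand : ∀ x : 𝓞 D.M, D.hW β p.lam (l₀ * (x : D.M)) *
      ph ((p.lam : F) * D.tra (l₀ * (x : D.M) * D.σ v)) =
      D.fT (l₀ * (x : D.M)) * ph (D.quadForm c₁ c₂ x) := by
    intro x
    rw [hW, mul_assoc, ← ph_add]
    congr 2
    simp only [quadForm, c₁, c₂]
    rw [mul_assoc (algebraMap F D.M _), D.tra_mul_algebraMap, mul_right_comm l₀ (D.σ v), D.nrm_mul]
    ring
  have hξ : D.ξ (D.mapI 𝔮) = D.η (idealDv 𝔮) := by
    rw [η, ← idealDv_map hK.ne_bot, D.ξc_idealDv (coprime_mapI (coprime_of_q_T hK.q_T hK.ne_bot))]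
  rw [qsum_congr hsummand, hS.sum_factor _ hφ, hξ]
  congr 1
  -- replacing `l₀` by an integer congruent to it
  obtain ⟨u, hu⟩ := exists_int_congr D.TP (fun P => (D.R P).toNat) (x := l₀)
    fun P hP => hl0T.tint P (D.mem_TP.1 hP)
  have hu' : ∀ P, D.InT (D.below P) → OrdGe P (D.R P) ((u : D.M) - l₀) := fun P hP => by
    have := (hu P (D.mem_TP.2 hP)).neg
    rw [neg_sub] at this
    exact this.mono (Int.self_le_toNat _)
  have huU : D.TUnit (u : D.M) := by
    refine TUnit.of_fT (D := D) ?_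
    rw [show (u : D.M) = l₀ + ((u : D.M) - l₀) by ring, D.fT_periodic hl0T.tint hu',
      D.fT_of_unit hl0T]
    exact D.ξc_ne_zero _
  rw [sT, ← D.qsum_mul_unit D.modI_ne (a := u) (sT_periodic hlamI hvT) ?_]
  · refine qsum_congr fun x => ?_
    rw [coeO_mul]
    have h1 : D.fT (l₀ * (x : D.M)) = D.fT ((u : D.M) * x) := by
      rw [show (u : D.M) * x = l₀ * x + ((u : D.M) - l₀) * x by ring]
      refine (D.fT_periodic (hl0T.tint.mul (D.tint_int x)) fun P hP => ?_).symm
      simpa using (hu' P hP).mul (ordGe_int x)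
    rw [h1]
    congr 1
    refine D.psiT_congr fun q hq => ?_
    simp only [c₂]
    rw [mul_assoc (algebraMap F D.M _), D.tra_mul_algebraMap, ← mul_sub, ← D.tra_sub,
      show l₀ * D.σ v * (x : D.M) - (u : D.M) * x * D.σ v =
        -(((u : D.M) - l₀) * (D.σ v * x)) by ring, D.tra_neg]
    refine OrdGe.mono (OrdGe.mul (hlamI q hq) (D.trace_dual fun P hP => ?_).neg) (by simp)
    refine ((hu' P (hP ▸ hq)).mul ((hσv P (hP ▸ hq)).mul (ordGe_int x))).mono ?_
    omega
  · rw [modI, Nat.cast_pow, ← Ideal.span_singleton_pow]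
    exact Ideal.sup_pow_eq_top (D.tunit_int_iff.1 huU)

omit hm in
lemma hW_zero (β lam : F) : D.hW β lam 0 = 0 := by rw [hW, D.fT_zero, zero_mul]

/-- A class contribution as an integral of lattice sums. -/
lemma card_mul_classSum (β : F) (p : D.Pair A) (y : XInf F) :
    (Fintype.card D.kerOne : ℂ) * D.classSum β p y =
      D.ξc p.J * ((D.cA A * ∏ w, (y w).t / 2 : ℝ) : ℂ) *
        ∫ u in D.dom, D.latSum (-p.J) fun x => D.hW β p.lam x *
          gaussV (lW (p.lam : F)) (fun w => (y w).z) (fun w => (y w).t)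
            (fun w => Real.exp (u w)) (D.vec x) := by
  rw [classSum, mul_left_comm]
  congr 1
  rw [D.unfold_orbits p.lam.ne_zero (-p.J) (D.hW β p.lam) (C := 1) (fun q => norm_hW_le _ _ _)
    (fun e q => hW_uval_mul β p.lam e _) _ fun w => (y w).t_pos]
  refine setIntegral_congr_fun D.measurableSet_dom fun u _ => ?_
  exact tsum_Pts_eq_latSum (D := D.toQuadData) (fun x => D.hW β p.lam x *
    D.gU (p.lam : F) (fun w => (y w).z) (fun w => (y w).t) x u) (by rw [hW_zero, zero_mul])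

omit hm [NumberField F] in
lemma normSq_inv (y : XInf F) (w : InfinitePlace F) :
    Complex.normSq ((winv y) w).z + ((winv y) w).t ^ 2 =
      (Complex.normSq (y w).z + (y w).t ^ 2)⁻¹ := by
  have h : 0 < Complex.normSq (y w).z + (y w).t ^ 2 :=
    add_pos_of_nonneg_of_pos (Complex.normSq_nonneg _) (pow_pos (y w).t_pos 2)
  show Complex.normSq (zInv (fun v => (y v).z) (fun v => (y v).t) w) +
    tInv (fun v => (y v).z) (fun v => (y v).t) w ^ 2 = _
  rw [zInv, tInv, Complex.normSq_div, Complex.normSq_neg, Complex.normSq_conj,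
    Complex.normSq_ofReal]
  field_simp

omit hm [NumberField F] in
lemma winv_winv (y : XInf F) : winv (winv y) = y := by
  funext w
  have h : 0 < Complex.normSq (y w).z + (y w).t ^ 2 :=
    add_pos_of_nonneg_of_pos (Complex.normSq_nonneg _) (pow_pos (y w).t_pos 2)
  have hn := normSq_inv y w
  refine H3.ext ?_ ?_
  · show -(starRingEnd ℂ) ((winv y) w).z /
      ((Complex.normSq ((winv y) w).z + ((winv y) w).t ^ 2 : ℝ) : ℂ) = (y w).z
    rw [hn]
    show -(starRingEnd ℂ) (zInv (fun v => (y v).z) (fun v => (y v).t) w) / _ = _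
    rw [zInv, map_div₀, map_neg, Complex.conj_conj, Complex.conj_ofReal, Complex.ofReal_inv]
    have h' : ((Complex.normSq (y w).z + (y w).t ^ 2 : ℝ) : ℂ) ≠ 0 :=
      Complex.ofReal_ne_zero.2 h.ne'
    field_simp
  · show ((winv y) w).t / (Complex.normSq ((winv y) w).z + ((winv y) w).t ^ 2) = (y w).t
    rw [hn]
    show tInv (fun v => (y v).z) (fun v => (y v).t) w / _ = _
    rw [tInv]
    field_simp

omit hm in
/-- Translating the Gaussian by an element of `F`. -/
lemma gauss_shift (b lam : F) (y : XInf F) (s : InfinitePlace F → ℝ) (x : D.M) :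
    gaussV (lW lam) (fun w => (hshift y (embVec b) w).z) (fun w => (hshift y (embVec b) w).t) s
        (D.vec x) =
      ph (b * (lam * D.nrm x)) *
        gaussV (lW lam) (fun w => (y w).z) (fun w => (y w).t) s (D.vec x) := by
  have hph : ph (b * (lam * D.nrm x)) = ∏ w : InfinitePlace F, Complex.exp
      (2 * Real.pi * Complex.I * ((2 * (w.embedding (b * (lam * D.nrm x))).re : ℝ) : ℂ)) := by
    rw [ph, ← Complex.exp_sum]
    congr 1
    rw [show ((Algebra.trace ℚ F (b * (lam * D.nrm x)) : ℚ) : ℂ) =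
      (((Algebra.trace ℚ F (b * (lam * D.nrm x)) : ℚ) : ℝ) : ℂ) from (Complex.ofReal_ratCast _).symm,
      trace_eq_sum_places D.totallyComplex, Complex.ofReal_sum, Finset.mul_sum]
  rw [hph, gaussV, gaussV, ← Finset.prod_mul_distrib]
  refine Finset.prod_congr rfl fun w _ => ?_
  rw [gaussPair, gaussPair, hshift_t, hshift_z, embVec_apply]
  simp only [← Complex.exp_add, lW, map_mul, ← D.emb_nrm w x]
  congr 1
  simp only [mul_add, add_mul, Complex.add_re, Complex.ofReal_add, Complex.ofReal_mul,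
    Complex.ofReal_ofNat]
  rw [show w.embedding lam * w.embedding b * (D.vec x w).1 * (D.vec x w).2 =
    w.embedding b * (w.embedding lam * ((D.vec x w).1 * (D.vec x w).2)) by ring]
  ring

/-- The common value of the transformed classes. -/
theorem classSum_main (hK : D.KeyHyp B 𝔮 β β') (p : D.Pair B) (y : XInf F) :
    (Fintype.card D.kerOne : ℂ) * D.classSum β p (winv (hshift y (embVec β'))) =
      D.ξc p.J * D.η (idealDv 𝔮) *
        ((D.cA B * ndeg (idealDv 𝔮) * (D.covol (p.lam : F) (D.keyLat p.J (idealDv 𝔮)))⁻¹ *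
          ∏ w, (y w).t / 2 : ℝ) : ℂ) *
        ∫ u in D.dom, D.latSum (D.dualDv (p.lam : F) (D.keyLat p.J (idealDv 𝔮))) fun v =>
          D.sT p.lam v * gaussV (lW (p.lam : F)) (fun w => (y w).z) (fun w => (y w).t)
            (fun w => Real.exp (u w)) (D.vec v) := by
  classical
  set y1 : XInf F := hshift y (embVec β') with hy1
  have hQ0 : (0 : Dv F) ≤ idealDv 𝔮 := idealDv_nonneg 𝔮
  set I := D.mapI 𝔮 * D.modI
  have hI : I ≠ ⊥ := mul_ne_zero (map_ne_bot_ext hK.ne_bot) D.modI_ne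
  have hIdv : idealDv I = extDv (idealDv 𝔮) + D.R := by
    rw [idealDv_mul (map_ne_bot_ext hK.ne_bot) D.modI_ne, idealDv_map hK.ne_bot, idealDv_modI]
  obtain ⟨P₀, hP₀⟩ := D.exists_inT
  obtain ⟨l₀, hl₀, hmem, hex⟩ := D.exists_gen (-p.J) (extDv (idealDv 𝔮) + D.R).support
    ⟨P₀, Finsupp.mem_support_iff.2 (by
      rw [Finsupp.add_apply, extDv_apply, hK.q_T _ hP₀, mul_zero, zero_add]
      have := D.R_T hP₀
      omega)⟩
  have hexact : ∀ P, (extDv (idealDv 𝔮) + D.R : Dv D.M) P ≠ 0 → dvElt l₀ P = -p.J P :=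
    fun P hP => by rw [hex P (Finsupp.mem_support_iff.2 hP), Finsupp.neg_apply]
  rw [card_mul_classSum]
  have hpois : ∀ u : InfinitePlace F → ℝ, (D.latSum (-p.J) fun x => D.hW β p.lam x *
        gaussV (lW (p.lam : F)) (fun w => (winv y1 w).z) (fun w => (winv y1 w).t)
          (fun w => Real.exp (u w)) (D.vec x)) =
      (((D.covol (p.lam : F) (D.keyLat p.J (idealDv 𝔮)))⁻¹ *
          ∏ w, (Complex.normSq (winv y1 w).z + (winv y1 w).t ^ 2)⁻¹ : ℝ) : ℂ) *
        ((D.η (idealDv 𝔮) * (Ideal.absNorm 𝔮 : ℂ)) *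
          D.latSum (D.dualDv (p.lam : F) (D.keyLat p.J (idealDv 𝔮))) fun v =>
            D.sT p.lam v * gaussV (lW (p.lam : F)) (fun w => (y w).z) (fun w => (y w).t)
              (fun w => Real.exp (u w)) (D.vec v)) := by
    intro u
    rw [D.latSum_poisson (E := -p.J) (I := I) p.lam.ne_zero hI hl₀ hmem
      (fun P hP => by rw [hexact P (hIdv ▸ hP), Finsupp.neg_apply]) (C := 1)
      (fun x => norm_hW_le _ _ _)
      (fun x hx w hw => hW_periodic p hQ0 hK.β_all hx (by rwa [hIdv] at hw))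
      _ (fun w => (winv y1 w).t_pos) fun w => Real.exp_pos _, hIdv,
      show -p.J + (extDv (idealDv 𝔮) + D.R) = D.keyLat p.J (idealDv 𝔮) from rfl]
    congr 1
    rw [latSum, latSum, ← tsum_mul_left]
    refine tsum_congr fun v => ?_
    rw [finite_sum_eq hK p hl₀ hmem hexact v.2,
      show zInv (fun w => (winv y1 w).z) (fun w => (winv y1 w).t) = fun w => (y1 w).z from
        funext fun w => congrArg (fun Y : XInf F => (Y w).z) (winv_winv y1),
      show tInv (fun w => (winv y1 w).z) (fun w => (winv y1 w).t) = fun w => (y1 w).t from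
        funext fun w => congrArg (fun Y : XInf F => (Y w).t) (winv_winv y1),
      hy1, gauss_shift]
    have h1 : ph (-(β' * ((p.lam : F) * D.nrm (v : D.M)))) *
        ph (β' * ((p.lam : F) * D.nrm (v : D.M))) = 1 := by
      rw [← ph_add, neg_add_cancel, ph_zero]
    linear_combination (D.η (idealDv 𝔮) * (Ideal.absNorm 𝔮 : ℂ) * D.sT p.lam v *
      gaussV (lW (p.lam : F)) (fun w => (y w).z) (fun w => (y w).t)
        (fun w => Real.exp (u w)) (D.vec v)) * h1
  simp only [hpois, integral_const_mul, ← mul_assoc]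
  congr 1
  have hprod : (∏ w, (winv y1 w).t / 2) *
      (∏ w, (Complex.normSq (winv y1 w).z + (winv y1 w).t ^ 2)⁻¹) = ∏ w, (y w).t / 2 := by
    rw [← Finset.prod_mul_distrib]
    refine Finset.prod_congr rfl fun w _ => ?_
    rw [normSq_inv y1 w, inv_inv]
    show tInv (fun v => (y1 v).z) (fun v => (y1 v).t) w / 2 * _ = _
    rw [tInv, show (y1 w).t = (y w).t from rfl]
    have h : (0 : ℝ) < Complex.normSq (y1 w).z + (y1 w).t ^ 2 :=
      add_pos_of_nonneg_of_pos (Complex.normSq_nonneg _) (pow_pos (y1 w).t_pos 2)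
    rw [show (y1 w).t = (y w).t from rfl] at h
    field_simp
  have hN : (Ideal.absNorm 𝔮 : ℂ) = ((ndeg (idealDv 𝔮) : ℝ) : ℂ) := by
    rw [ndeg_idealDv hK.ne_bot]; simp
  rw [hN, ← hprod]
  push_cast
  ring

/-- Pairs for `A` give pairs for `A + 2 E`. -/
def Pair.shift (E : Dv F) (hE : D.TFree E) (h : A' = A + (E + E)) (p : D.Pair A) : D.Pair A' where
  lam := p.lam
  J := p.J + extDv E
  hJ := fun P hP => by rw [Finsupp.add_apply, p.hJ P hP, extDv_apply, hE _ hP, mul_zero, add_zero]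
  hdv := by
    subst h
    have h1 := p.hdv
    simp only [map_add, D.conjDv_extDv] at h1 ⊢
    rw [add_add_add_comm, h1]
    abel

omit hm in
lemma Pair.shift_equiv {E : Dv F} (hE : D.TFree E) (h : A' = A + (E + E)) {p q : D.Pair A}
    (hpq : p.Equiv' q) : (p.shift E hE h).Equiv' (q.shift E hE h) := by
  obtain ⟨v, hv, h1, h2⟩ := hpq
  exact ⟨v, hv, h1, by show q.J + _ = p.J + _ + _; rw [h2, add_right_comm]⟩

/-- The shift on classes. -/
def clsShift (E : Dv F) (hE : D.TFree E) (h : A' = A + (E + E)) : D.Cls A → D.Cls A' :=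
  Quotient.map (sa := D.pairSetoid A) (sb := D.pairSetoid A') (Pair.shift E hE h)
    fun _ _ hpq => Pair.shift_equiv hE h hpq

omit hm in
lemma clsShift_clsShift (E : Dv F) (hE : D.TFree E) (h : A' = A + (E + E))
    (h' : A = A' + (-E + -E)) (c : D.Cls A) :
    clsShift (-E) (TFree.neg D hE) h' (clsShift E hE h c) = c := by
  induction c using Quotient.inductionOn with
  | h p =>
    refine congrArg (Quotient.mk _) (Pair.ext' rfl ?_)
    show p.J + extDv E + extDv (-E) = p.J
    rw [map_neg, add_neg_cancel_right]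

/-- The classes of `A` and of `A + 2 E`. -/
def clsShiftEquiv (E : Dv F) (hE : D.TFree E) (h : A' = A + (E + E)) : D.Cls A ≃ D.Cls A' where
  toFun := clsShift E hE h
  invFun := clsShift (-E) (TFree.neg D hE) (by rw [h]; abel)
  left_inv := clsShift_clsShift E hE h (by rw [h]; abel)
  right_inv c := by
    have h' := clsShift_clsShift (A := A') (A' := A) (-E) (TFree.neg D hE) (by rw [h]; abel)
      (by rw [h]; abel) c
    simpa only [neg_neg] using h'

omit hm in
lemma cA_shift (A E : Dv F) : D.cA (A + (E + E)) * ndeg E = D.cA A := by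
  have hA := ndeg_pos (A + D.dD)
  have hE := ndeg_pos E
  rw [cA, cA, show A + (E + E) + D.dD = (E + E) + (A + D.dD) by abel, ndeg_add, ndeg_add,
    Real.sqrt_mul (by positivity), Real.sqrt_mul_self hE.le, mul_inv]
  field_simp

omit hm in
lemma keyHyp_top [Fact (1 < m)] (hA : D.TFree A) : D.KeyHyp A ⊤ 0 0 := by
  refine ⟨hA, by simp, fun q _ => ?_, fun q _ => ordGe_zero _, fun q hq => ?_,
    fun q _ => ordGe_zero _, fun q _ => ordGe_zero _, fun q _ => ordGe_zero _, fun q hq => ?_⟩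
  · rw [idealDv_top]; rfl
  · rw [idealDv_top] at hq; exact absurd hq (lt_irrefl _)
  · rw [idealDv_top] at hq; exact absurd hq (lt_irrefl _)

/-- The transformation of the theta series. -/
theorem theta_key (hA : D.TFree A') (hK : D.KeyHyp B 𝔮 β β')
    (hB : B = A' + (idealDv 𝔮 + idealDv 𝔮)) (y : XInf F) :
    D.theta B β (winv (hshift y (embVec β'))) = D.theta A' 0 (winv y) := by
  have hE : D.TFree (idealDv 𝔮) := hK.q_T
  set e := clsShiftEquiv (D := D) (A := A') (A' := B) (idealDv 𝔮) hE hB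
  let r' : D.Cls B → D.Pair B := fun c => (D.crep A' (e.symm c)).shift (idealDv 𝔮) hE hB
  have hr' : ∀ c, Quotient.mk (D.pairSetoid B) (r' c) = c := fun c => by
    show clsShift (idealDv 𝔮) hE hB (Quotient.mk (D.pairSetoid A') (D.crep A' (e.symm c))) = c
    rw [D.mk_crep A']
    exact e.apply_symm_apply c
  rw [D.theta_eq _ β _ hr', D.theta_eq A' 0 _ (D.mk_crep A'), ← e.sum_comp]
  refine Finset.sum_congr rfl fun c _ => ?_
  simp only [r', Equiv.symm_apply_apply]
  set p := D.crep A' c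
  have hk : (Fintype.card D.kerOne : ℂ) ≠ 0 := by
    have := D.card_kerOne_pos
    exact Nat.cast_ne_zero.2 (by omega)
  refine mul_left_cancel₀ hk ?_
  have h2 := classSum_main (keyHyp_top hA) p y
  rw [show hshift y (embVec (0 : F)) = y by
    rw [show embVec (0 : F) = 0 from funext fun w => by simp [embVec_apply], hshift_zero]] at h2
  rw [classSum_main hK _ y, h2]
  have hlat : D.keyLat (p.shift (idealDv 𝔮) hE hB).J (idealDv 𝔮) =
      D.keyLat p.J (idealDv (⊤ : Ideal (𝓞 F))) := by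
    show -(p.J + extDv (idealDv 𝔮)) + (extDv (idealDv 𝔮) + D.R) = _
    rw [keyLat, idealDv_top, map_zero]
    abel
  rw [hlat]
  change D.ξc (p.J + extDv (idealDv 𝔮)) * _ * _ * _ = _
  have hη : D.ξc (p.J + extDv (idealDv 𝔮)) * D.η (idealDv 𝔮) =
      D.ξc p.J * D.η (idealDv (⊤ : Ideal (𝓞 F))) := by
    rw [ξc_add, mul_assoc, show D.ξc (extDv (idealDv 𝔮)) = D.η (idealDv 𝔮) from rfl, η_sq,
      idealDv_top, η_zero]
  rw [hη, idealDv_top, ndeg_zero, show D.cA B * ndeg (idealDv 𝔮) = D.cA A' by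
    rw [hB]; exact cA_shift A' _]
  simp only [mul_one]
  rfl

end FermatAgent.LTG.Dihedral.DihedralData
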