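import Fermat.Agent.LT.Base.Series
import Fermat.Agent.LT.Base.Expansion
import Fermat.Agent.LT.Base.Siegel
import Fermat.Agent.LT.Base.Space
import Fermat.Agent.LT.Base.BallInt
import Fermat.Agent.LT.Base.WaveSph
import Fermat.Agent.LT.Descent.Classical.Sph
import Fermat.Agent.LT.Dihedral.ThetaMove

/-!
# Series of waves with frequencies of norm bounded below
-/

set_option autoImplicit false

noncomputable section

open NumberField IsDedekindDomain MeasureTheory
open FermatAgent.LT
open FermatAgent.LT.Dihedral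
open FermatAgent.LT.Dihedral.QuadData
open scoped MatrixGroups

namespace FermatAgent.LTG.Dihedral

variable {F : Type} [Field F] [NumberField F]

/-- A series of waves whose frequencies have norm bounded below. -/
def IsWaveSeries (Φ : XInf F → ℂ) : Prop :=
  ∃ (ι : Type) (_ : Countable ι) (a : ι → ℂ) (μ : ι → Fˣ) (δ : ℝ), 0 < δ ∧
    (∀ i, δ ≤ ∏ w : InfinitePlace F, ‖w.embedding (μ i : F)‖) ∧
    ∀ y, HasSum (fun i => a i * waveProd (μ i : F) y) (Φ y)

variable [IsTotallyComplex F]

omit [IsTotallyComplex F] in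
lemma waveProd_ne_zero (μ : Fˣ) (y : XInf F) : waveProd (μ : F) y ≠ 0 := by
  rw [← norm_ne_zero_iff, norm_waveProd]
  refine Finset.prod_ne_zero_iff.2 fun w _ => ?_
  have := (y w).t_pos
  have h : 0 < ‖w.embedding (μ : F)‖ := norm_pos_iff.2 ((map_ne_zero _).2 μ.ne_zero)
  exact mul_ne_zero h.ne' (mul_ne_zero (y w).t_pos.ne' (H3.besselK0_pos (by positivity)).ne')

/-- The height decreases at most inversely in the frequency. -/
lemma mul_besselK0_le {x t c : ℝ} (hx : 0 < x) (hc : 0 < c) (ht : c ≤ t) :
    t * H3.besselK0 (x * t) ≤ 2 / x * H3.besselK0 (x * (c / 2)) := by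
  have h0 : 0 < x * (c / 2) := by positivity
  refine (mul_le_mul_of_nonneg_left (H3.besselK0_le_exp h0 (by nlinarith)) (hc.trans_le ht).le).trans ?_
  rw [← mul_assoc]
  refine mul_le_mul_of_nonneg_right ?_ (H3.besselK0_pos h0).le
  have h1 : x * t / 2 + 1 ≤ Real.exp (x * t - x * (c / 2)) :=
    le_trans (by nlinarith) (Real.add_one_le_exp _)
  rw [Real.exp_neg, ← div_eq_mul_inv, div_le_div_iff₀ (Real.exp_pos _) hx]
  nlinarith

namespace IsWaveSeries

variable {Φ : XInf F → ℂ}

omit [IsTotallyComplex F] in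
/-- A majorant where all heights are bounded below. -/
theorem exists_majorant {ι : Type} {a : ι → ℂ} {μ : ι → Fˣ} {δ : ℝ} (hδ : 0 < δ)
    (hμ : ∀ i, δ ≤ ∏ w : InfinitePlace F, ‖w.embedding (μ i : F)‖)
    (h : ∀ y, HasSum (fun i => a i * waveProd (μ i : F) y) (Φ y)) {c : ℝ} (hc : 0 < c) :
    ∃ u : ι → ℝ, Summable u ∧ ∀ y : XInf F, (∀ w, c ≤ (y w).t) →
      ∀ i, ‖a i * waveProd (μ i : F) y‖ ≤ u i := by
  set y₀ : XInf F := fun _ => ⟨0, c / 2, by positivity⟩ with hy₀
  set k : ℝ := (∏ _w : InfinitePlace F, (1 / (Real.pi * c))) * δ⁻¹ with hk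
  refine ⟨fun i => k * ‖a i * waveProd (μ i : F) y₀‖, (summable_norm_iff.2 (h y₀).summable).mul_left k,
    fun y hy i => ?_⟩
  beta_reduce
  rw [norm_mul, norm_mul, mul_left_comm k]
  refine mul_le_mul_of_nonneg_left ?_ (norm_nonneg _)
  rw [norm_waveProd, norm_waveProd]
  have hν : ∀ w : InfinitePlace F, 0 < ‖w.embedding (μ i : F)‖ := fun w =>
    norm_pos_iff.2 ((map_ne_zero _).2 (μ i).ne_zero)
  have hP : 0 < ∏ w : InfinitePlace F, ‖w.embedding (μ i : F)‖ := Finset.prod_pos fun w _ => hν w
  calc ∏ w : InfinitePlace F, ‖w.embedding (μ i : F)‖ *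
        ((y w).t * H3.besselK0 (4 * Real.pi * ‖w.embedding (μ i : F)‖ * (y w).t))
      ≤ ∏ w : InfinitePlace F, ((1 / (Real.pi * c)) * ((c / 2) *
          H3.besselK0 (4 * Real.pi * ‖w.embedding (μ i : F)‖ * (c / 2)))) := by
        refine Finset.prod_le_prod (fun w _ => ?_) fun w _ => ?_
        · have := (y w).t_pos
          have := hν w
          have := (H3.besselK0_pos (show 0 < 4 * Real.pi * ‖w.embedding (μ i : F)‖ * (y w).t by
            positivity)).le
          positivity
        · refine (mul_le_mul_of_nonneg_left (mul_besselK0_le (by have := hν w; positivity) hc (hy w))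
            (norm_nonneg _)).trans_eq ?_
          have := (hν w).ne'
          field_simp
          ring
    _ ≤ k * ∏ w : InfinitePlace F, (‖w.embedding (μ i : F)‖ * ((c / 2) *
          H3.besselK0 (4 * Real.pi * ‖w.embedding (μ i : F)‖ * (c / 2)))) := by
        rw [hk, Finset.prod_mul_distrib, Finset.prod_mul_distrib (f := fun w : InfinitePlace F => ‖w.embedding (μ i : F)‖),
          mul_assoc (∏ _w : InfinitePlace F, (1 / (Real.pi * c)))]
        refine mul_le_mul_of_nonneg_left ?_ (by positivity)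
        rw [← mul_assoc]
        refine le_mul_of_one_le_left (Finset.prod_nonneg fun w _ => ?_) ?_
        · have := hν w
          have := (H3.besselK0_pos (show 0 < 4 * Real.pi * ‖w.embedding (μ i : F)‖ * (c / 2) by
            positivity)).le
          positivity
        · rw [inv_mul_eq_div, one_le_div hδ]
          exact hμ i

theorem comp_upper (h : IsWaveSeries Φ) (u q : Fˣ) (c : F) :
    IsWaveSeries fun y => Φ (infAct (upperTri u 0 u * upperTri q c 1) y) := by
  obtain ⟨ι, hι, a, μ, δ, hδ, hμ, hs⟩ := h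
  refine ⟨ι, hι, fun i => a i * ph ((μ i : F) * c), fun i => μ i * q,
    δ * ∏ w : InfinitePlace F, ‖w.embedding (q : F)‖,
    mul_pos hδ (Finset.prod_pos fun w _ => norm_pos_iff.2 ((map_ne_zero _).2 q.ne_zero)),
    fun i => ?_, fun y => ?_⟩
  · simp only [Units.val_mul, map_mul, norm_mul, Finset.prod_mul_distrib]
    exact mul_le_mul_of_nonneg_right (hμ i) (Finset.prod_nonneg fun w _ => norm_nonneg _)
  · have hmove : ∀ ν : F, waveProd ν (infAct (upperTri q c 1) y) =
        waveProd (ν * (q : F)) y * ph (ν * c) := fun ν => by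
      rw [upperTri_split, infAct_mul', infAct_upperUni, waveProd_shift, waveProd_infAct_diag,
        waveChar_embVec, phaseInf_eq_exp_trace]
      rfl
    show HasSum _ (Φ (infAct (upperTri u 0 u * upperTri q c 1) y))
    rw [infAct_mul', infAct_scalar]
    refine (hs (infAct (upperTri q c 1) y)).congr_fun fun i => ?_
    beta_reduce
    rw [hmove, Units.val_mul]
    ring

omit [IsTotallyComplex F] in
lemma continuous_waveProd (μ : Fˣ) : Continuous fun y : XInf F => waveProd (μ : F) y := by
  refine continuous_finsetProd _ fun w _ => continuous_const.mul ?_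
  have hν : w.embedding (μ : F) ≠ 0 := (map_ne_zero _).2 μ.ne_zero
  have hK : Continuous fun Q : H3 => H3.besselK0 (4 * Real.pi * ‖w.embedding (μ : F)‖ * Q.t) :=
    H3.continuousOn_besselK0.comp_continuous (continuous_const.mul H3.continuous_coord_t)
      fun Q => mul_pos (by have := norm_pos_iff.mpr hν; positivity) Q.t_pos
  exact ((Complex.continuous_ofReal.comp (H3.continuous_coord_t.mul hK)).mul
    ((H3.continuous_echar _).comp H3.continuous_coord_z)).comp (continuous_apply w)

omit [IsTotallyComplex F] in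
theorem continuous (h : IsWaveSeries Φ) : Continuous Φ := by
  obtain ⟨ι, -, a, μ, δ, hδ, hμ, hs⟩ := h
  rw [show Φ = fun y => ∑' i, a i * waveProd (μ i : F) y from funext fun y => (hs y).tsum_eq.symm]
  refine continuous_iff_continuousAt.2 fun y₀ => ?_
  obtain ⟨w₀, hw₀⟩ := Finite.exists_min fun w : InfinitePlace F => (y₀ w).t
  set c := (y₀ w₀).t / 2
  have hc : 0 < c := by have := (y₀ w₀).t_pos; positivity
  obtain ⟨u, hu, hbd⟩ := exists_majorant hδ hμ hs hc
  set U : Set (XInf F) := {y | ∀ w, c < (y w).t}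
  have hU : IsOpen U := by
    simp only [U, Set.ofPred_forall]
    exact isOpen_iInter_of_finite fun w =>
      isOpen_lt continuous_const (H3.continuous_coord_t.comp (continuous_apply w))
  have hy₀ : y₀ ∈ U := fun w => by
    have := hw₀ w
    have := (y₀ w₀).t_pos
    show c < _
    simp only [c]
    linarith
  exact (continuousOn_tsum (fun i => (continuous_const.mul (continuous_waveProd (μ i))).continuousOn)
    hu fun i y hy => hbd y (fun w => (hy w).le) i).continuousAt (hU.mem_nhds hy₀)

omit [IsTotallyComplex F] in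
theorem exists_bound (h : IsWaveSeries Φ) {c : ℝ} (hc : 0 < c) :
    ∃ C, ∀ y, (∀ w, c ≤ (y w).t) → ‖Φ y‖ ≤ C := by
  obtain ⟨ι, -, a, μ, δ, hδ, hμ, hs⟩ := h
  obtain ⟨u, hu, hbd⟩ := exists_majorant hδ hμ hs hc
  refine ⟨∑' i, u i, fun y hy => ?_⟩
  rw [← (hs y).tsum_eq]
  exact tsum_of_norm_bounded hu.hasSum (hbd y hy)

omit [IsTotallyComplex F] in
theorem isSph0 (h : IsWaveSeries Φ) (w : InfinitePlace F) (x : XInf F) :
    letI := Classical.decEq (InfinitePlace F)
    H3.IsSph0 fun P => Φ (Function.update x w P) := by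
  classical
  intro P ε hε
  obtain ⟨ι, hι, a, μ, δ, hδ, hμ, hs⟩ := h
  let y : H3 → XInf F := fun Q => Function.update x w Q
  have hy : Continuous y := continuous_const.update w continuous_id
  have hterm : ∀ i, H3.IsSph0 fun Q => a i * waveProd (μ i : F) (y Q) := by
    intro i
    have hν : w.embedding (μ i : F) ≠ 0 := (map_ne_zero _).2 (μ i).ne_zero
    set k : ℂ := a i * ((‖w.embedding (μ i : F)‖ : ℂ) * ∏ u ∈ Finset.univ.erase w,
      ((‖u.embedding (μ i : F)‖ : ℂ) * H3.wave (u.embedding (μ i : F)) (x u)))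
    have e : (fun Q => a i * waveProd (μ i : F) (y Q)) =
        fun Q => k * H3.wave (w.embedding (μ i : F)) Q := by
      funext Q
      simp only [y]
      rw [waveProd, ← Finset.mul_prod_erase _ _ (Finset.mem_univ w), Function.update_self,
        Finset.prod_congr rfl fun u hu => by rw [Function.update_of_ne (Finset.ne_of_mem_erase hu)]]
      simp only [k]
      ring
    rw [e]
    exact (H3.isSph0_wave _ hν).const_mul k
  -- a lower bound for the heights on the ball
  set rest := Finset.univ.image fun u => min (x u).t (P.t * Real.exp (-ε))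
  obtain ⟨c, hcmem, hcle⟩ : ∃ c ∈ rest, ∀ z ∈ rest, c ≤ z :=
    ⟨rest.min' (Finset.univ_nonempty.image _), rest.min'_mem _, fun z hz => rest.min'_le z hz⟩
  have hc : 0 < c := by
    obtain ⟨u, -, rfl⟩ := Finset.mem_image.1 hcmem
    exact lt_min (x u).t_pos (mul_pos P.t_pos (Real.exp_pos _))
  obtain ⟨b, hb, hbd⟩ := exists_majorant hδ hμ hs hc
  have hball : ∀ Q ∈ H3.ball P ε, ∀ i, ‖a i * waveProd (μ i : F) (y Q)‖ ≤ b i := by
    intro Q hQ
    refine hbd _ fun u => ?_
    refine (hcle _ (Finset.mem_image_of_mem _ (Finset.mem_univ u))).trans ?_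
    simp only [y]
    rcases eq_or_ne u w with rfl | hu
    · rw [Function.update_self]
      rw [← H3.preimage_ballSet P hε.le] at hQ
      exact (min_le_right _ _).trans hQ.1.1
    · rw [Function.update_of_ne hu]
      exact min_le_left _ _
  have : IsFiniteMeasure (H3.vol.restrict (H3.ball P ε)) :=
    ⟨by rw [Measure.restrict_apply_univ]; exact H3.ball_volume_lt_top P hε.le⟩
  have hm : MeasurableSet (H3.ball P ε) := by
    rw [← H3.preimage_ballSet P hε.le]
    exact H3.measurable_coords (H3.isCompact_ballSet P ε).measurableSet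
  have hI := hasSum_integral_of_dominated_convergence
    (μ := H3.vol.restrict (H3.ball P ε))
    (F := fun i Q => a i * waveProd (μ i : F) (y Q)) (f := fun Q => Φ (y Q))
    (fun i _ => b i)
    (fun i => (continuous_const.mul ((continuous_waveProd (μ i)).comp hy)).aestronglyMeasurable)
    (fun i => ae_restrict_of_forall_mem hm fun Q hQ => hball Q hQ i)
    (Filter.Eventually.of_forall fun _ => hb) (integrable_const _)
    (Filter.Eventually.of_forall fun Q => hs (y Q))
  exact hI.unique (((hs (y P)).mul_left (H3.sph0 ε : ℂ)).congr_fun fun i => hterm i P ε hε)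

omit [IsTotallyComplex F] in
/-- The waves of equal frequency collected. -/
theorem exists_coeff (h : IsWaveSeries Φ) :
    ∃ A : Fˣ → ℂ, ∀ y, HasSum (fun ν : Fˣ => A ν * waveProd (ν : F) y) (Φ y) := by
  obtain ⟨ι, -, a, μ, δ, hδ, hμ, hs⟩ := h
  refine ⟨fun ν => ∑' i : {i // μ i = ν}, a i, fun y => ?_⟩
  refine HasSum.sigma ((Equiv.sigmaFiberEquiv μ).hasSum_iff.2 (hs y)) fun ν => ?_
  have hsum : Summable fun i : {i // μ i = ν} => a i * waveProd (ν : F) y :=
    ((hs y).summable.comp_injective Subtype.val_injective).congr fun i => by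
      simp only [Function.comp_apply, i.2]
  refine ((summable_mul_right_iff (waveProd_ne_zero ν y)).1 hsum).hasSum.mul_right
    (waveProd (ν : F) y) |>.congr_fun fun i => ?_
  simp only [Function.comp_apply, Equiv.sigmaFiberEquiv_apply, i.2]

end IsWaveSeries

omit [IsTotallyComplex F] in
/-- An expansion from the expansions of all the slices. -/
theorem hasExpansion_of_slices {φ : XInf F → GAf F → ℂ}
    (hrat : ∀ γ x g, φ (infAct γ x) (rationalMat γ * g) = φ x g)
    (h : ∀ g, ∃ a : Fˣ → ℂ, ∀ x, HasSum (fun ν : Fˣ => a ν * waveProd (ν : F) x) (φ x g)) :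
    ∃ W, HasExpansion φ W := by
  choose a hexp using h
  refine ⟨fun g => a g 1, fun x g => ?_⟩
  refine (hexp g x).congr_fun fun ν => ?_
  congr 1
  set h := rationalMat (upperTri ν 0 1) * g with hh
  have h2 : ∀ y, HasSum (fun lam : Fˣ => a h (lam * ν⁻¹) * waveProd (lam : F) y) (φ y g) := fun y => by
    have h3 := hexp h (infAct (upperTri ν 0 1) y)
    rw [hh, hrat] at h3
    refine ((Equiv.mulRight ν⁻¹).hasSum_iff.mpr h3).congr_fun fun lam => ?_
    simp only [Function.comp_apply, Equiv.coe_mulRight, waveProd_infAct_diag]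
    rw [Units.val_mul, mul_assoc, Units.inv_mul, mul_one]
  have h4 := expansion_unique h2 (hexp g) ν
  rwa [mul_inv_cancel] at h4

end FermatAgent.LTG.Dihedral
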