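import Fermat.Agent.LT.General.Dihedral.Key
import Fermat.Agent.LT.General.Dihedral.Series
import Fermat.Agent.LT.Dihedral.Majorant

/-!
# The theta series at an inverted point is a series of waves, for any shift
-/

set_option autoImplicit false

noncomputable section

open NumberField IsDedekindDomain MeasureTheory
open FermatAgent.LT (H3 XInf waveProd)
open FermatAgent.LT.Dihedral
open FermatAgent.LT.Dihedral.QuadData
open FermatAgent.LT.Dihedral.DihedralData (winv)
open scoped nonZeroDivisors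

namespace FermatAgent.LTG.Dihedral.DihedralData

variable {F : Type} [Field F] [NumberField F] {m : ℕ} [hm : Fact (1 < m)] (D : DihedralData F m)

/-- The Fourier coefficient of a weight at a dual point. -/
def fS (I : Ideal (𝓞 D.M)) (β lam : F) (l₀ v : D.M) : ℂ :=
  qsum I fun x => D.hW β lam (l₀ * (x : D.M)) * ph (lam * D.tra (l₀ * (x : D.M) * D.σ v))

/-- The constant of the transformed contribution of a class. -/
def zP {B : Dv F} (p : D.Pair B) (Q : Dv F) : ℂ :=
  D.ξc p.J * ((D.cA B * (D.covol (p.lam : F) (D.keyLat p.J Q))⁻¹ : ℝ) : ℂ)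

omit hm in
/-- The integral over the domain of a lattice sum, split at the origin. -/
theorem integral_latSum {l : F} (hl : l ≠ 0) (E : Dv D.M) (h : D.M → ℂ) {C : ℝ}
    (hC : ∀ x, ‖h x‖ ≤ C) (hinv : ∀ (e : D.unitOne) (p : D.Pts E), h (D.uval e * p) = h p)
    (z : InfinitePlace F → ℂ) {t : InfinitePlace F → ℝ} (ht : ∀ w, 0 < t w) :
    ∫ u in D.dom, D.latSum E (fun x => h x *
        gaussV (lW l) z t (fun w => Real.exp (u w)) (D.vec x)) =
      h 0 * ((volume : Measure (InfinitePlace F → ℝ)).real D.dom : ℂ) +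
        (Fintype.card D.kerOne : ℂ) * ∑' o : D.Orb E, h (D.orep o) * D.gI l z t (D.orep o) := by
  classical
  have := D.countable_fid E
  have : IsFiniteMeasure ((volume : Measure (InfinitePlace F → ℝ)).restrict D.dom) :=
    ⟨by rw [Measure.restrict_apply_univ]; exact D.volume_dom_ne_top.lt_top⟩
  have h0mem : (0 : D.M) ∈ (fid E : FractionalIdeal (𝓞 D.M)⁰ D.M) := mem_fid.2 (Or.inl rfl)
  set x₀ : D.Lat E := ⟨0, h0mem⟩
  have hg0 : ∀ u, D.gU l z t (x₀ : D.M) u = 1 := fun u => by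
    simp [gU, gaussV, gaussPair, x₀]
  let e : D.Pts E ≃ {x : D.Lat E // x ∉ ({x₀} : Finset (D.Lat E))} :=
    { toFun := fun p => ⟨⟨p.1, p.2.1⟩, fun h' => p.2.2
        (congrArg Subtype.val (Finset.mem_singleton.1 h'))⟩
      invFun := fun x => ⟨x.1.1, x.1.2, fun h' => x.2 (Finset.mem_singleton.2 (Subtype.ext h'))⟩
      left_inv := fun _ => rfl
      right_inv := fun _ => rfl }
  have hintg : ∀ x : D.Lat E,
      Integrable (fun u => h x * D.gU l z t x u) (volume.restrict D.dom) := fun x => by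
    by_cases hx : x = x₀
    · subst hx; simp only [hg0]; exact integrable_const _
    · exact ((D.integrable_gU hl z ht fun h' => hx (Subtype.ext h')).integrableOn.integrable).const_mul _
  have hPts : Summable fun p : D.Pts E => ∫ u in D.dom, ‖h p * D.gU l z t p u‖ := by
    refine ((D.summable_setIntegral hl E z ht).mul_left C).of_nonneg_of_le
      (fun p => integral_nonneg fun _ => norm_nonneg _) fun p => ?_
    simp only [norm_mul]
    rw [integral_const_mul]
    exact mul_le_mul_of_nonneg_right (hC p) (integral_nonneg fun _ => norm_nonneg _)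
  have hall : Summable fun x : D.Lat E => ∫ u in D.dom, ‖h x * D.gU l z t x u‖ :=
    (Finset.summable_compl_iff {x₀}).1 (e.summable_iff.1 hPts)
  have hI : Summable fun x : D.Lat E => ∫ u in D.dom, h x * D.gU l z t x u :=
    Summable.of_norm (hall.of_nonneg_of_le (fun _ => norm_nonneg _)
      fun x => norm_integral_le_integral_norm _)
  show ∫ u in D.dom, ∑' x : D.Lat E, h x * D.gU l z t x u = _
  rw [← integral_tsum_of_summable_integral_norm hintg hall,
    ← hI.sum_add_tsum_subtype_compl {x₀}, Finset.sum_singleton, ← e.tsum_eq,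
    D.unfold_orbits hl E h (C := C) (fun p => hC p) hinv z ht,
    ← integral_tsum_of_summable_integral_norm
      (fun p : D.Pts E => ((D.integrable_gU hl z ht p.2.2).integrableOn.integrable).const_mul _)
      hPts]
  congr 1
  simp only [hg0, mul_one, setIntegral_const, Complex.real_smul, x₀]
  exact mul_comm _ _

variable {D} {B : Dv F} {β : F} {Q : Dv F} {I : Ideal (𝓞 D.M)} {l₀ : D.M}

lemma norm_fS_le (hI : I ≠ ⊥) (lam : F) (v : D.M) :
    ‖D.fS I β lam l₀ v‖ ≤ (Nat.card (𝓞 D.M ⧸ I) : ℝ) := by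
  have := finite_quot hI
  have := Fintype.ofFinite (𝓞 D.M ⧸ I)
  rw [fS, qsum_eq_sum, Nat.card_eq_fintype_card]
  refine (norm_sum_le _ _).trans ((Finset.sum_le_card_nsmul _ _ 1 fun c _ => ?_).trans_eq ?_)
  · rw [norm_mul, norm_ph, mul_one]; exact norm_hW_le _ _ _
  · rw [nsmul_eq_mul, mul_one, Finset.card_univ]

variable (p : D.Pair B) (hQ : 0 ≤ Q) (hβ : ∀ q, OrdGe q (B q - Q q) β) (hI : I ≠ ⊥)
  (hIdv : idealDv I = extDv Q + D.R) (hl₀ : l₀ ≠ 0)
  (hmem : l₀ ∈ (fid (-p.J) : FractionalIdeal (𝓞 D.M)⁰ D.M))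
  (hexact : ∀ P, idealDv I P ≠ 0 → dvElt l₀ P = (-p.J) P)

include hQ hβ hI hIdv hl₀ hmem hexact

omit hl₀ hexact in
lemma fS_uval_mul (e : D.unitOne) {v : D.M}
    (hv : v ∈ (fid (D.dualDv (p.lam : F) (D.keyLat p.J Q)) : FractionalIdeal (𝓞 D.M)⁰ D.M)) :
    D.fS I β p.lam l₀ (D.uval e * v) = D.fS I β p.lam l₀ v := by
  have hmul : ∀ x : 𝓞 D.M, l₀ * (x : D.M) ∈ (fid (-p.J) : FractionalIdeal (𝓞 D.M)⁰ D.M) :=
    fun x => mem_fid_iff_ordGe.2 fun P => by
      simpa using (mem_fid_iff_ordGe.1 hmem P).mul (ordGe_int (v := P) x)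
  have hper : PeriodicMod I fun x : 𝓞 D.M => D.hW β p.lam (l₀ * (x : D.M)) *
      ph ((p.lam : F) * D.tra (l₀ * (x : D.M) * D.σ (D.uval e * v))) := by
    intro x u hu
    have hlu : l₀ * (u : D.M) ∈ (fid (D.keyLat p.J Q) : FractionalIdeal (𝓞 D.M)⁰ D.M) :=
      mem_fid_iff_ordGe.2 fun P => by
        rw [keyLat, ← hIdv, Finsupp.add_apply]
        exact (mem_fid_iff_ordGe.1 hmem P).mul (ordGe_of_mem hI hu P)
    simp only [coeO_add, mul_add]
    rw [hW_periodic p hQ hβ (hmul x) hlu, add_mul, D.tra_add, mul_add, ph_add,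
      D.ph_dual p.lam.ne_zero hlu (D.uval_mul_mem e hv), mul_one]
  set a : 𝓞 D.M := ((e : (𝓞 D.M)ˣ) : 𝓞 D.M)
  have ha : Ideal.span {a} ⊔ I = ⊤ := by
    rw [Ideal.span_singleton_eq_top.2 (Units.isUnit _), top_sup_eq]
  rw [fS, ← D.qsum_mul_unit hI hper ha, fS]
  refine qsum_congr fun x => ?_
  rw [coeO_mul, show (a : D.M) = D.uval e from rfl, show l₀ * (D.uval e * (x : D.M)) =
    D.uval e * (l₀ * (x : D.M)) by ring, hW_uval_mul, map_mul]
  have h1 : D.uval e * D.σ (D.uval e) = 1 := by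
    rw [← algebraMap_nrm, nrm_uval, map_one]
  rw [show D.uval e * (l₀ * (x : D.M)) * (D.σ (D.uval e) * D.σ v) =
    D.uval e * D.σ (D.uval e) * (l₀ * (x : D.M) * D.σ v) by ring, h1, one_mul]

/-- The contribution of a class at an inverted point. -/
theorem classSum_winv (y : XInf F) :
    D.classSum β p (winv y) =
      D.zP p Q * D.fS I β p.lam l₀ 0 * ((((volume : Measure (InfinitePlace F → ℝ)).real D.dom /
          Fintype.card D.kerOne * ∏ w, (y w).t / 2 : ℝ)) : ℂ) +
      ∑' o : D.Orb (D.dualDv (p.lam : F) (D.keyLat p.J Q)),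
        D.zP p Q * D.fS I β p.lam l₀ (D.orep o) * (((∏ w, (y w).t / 2 : ℝ)) : ℂ) *
          D.gI (p.lam : F) (fun w => (y w).z) (fun w => (y w).t) (D.orep o) := by
  classical
  have hk : (Fintype.card D.kerOne : ℂ) ≠ 0 := by
    have := D.card_kerOne_pos
    exact Nat.cast_ne_zero.2 (by omega)
  refine mul_left_cancel₀ hk ?_
  rw [card_mul_classSum]
  have hlat : -p.J + idealDv I = D.keyLat p.J Q := by rw [hIdv]; rfl
  have hpois : ∀ u : InfinitePlace F → ℝ, (D.latSum (-p.J) fun x => D.hW β p.lam x *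
        gaussV (lW (p.lam : F)) (fun w => (winv y w).z) (fun w => (winv y w).t)
          (fun w => Real.exp (u w)) (D.vec x)) =
      (((D.covol (p.lam : F) (D.keyLat p.J Q))⁻¹ *
          ∏ w, (Complex.normSq (winv y w).z + (winv y w).t ^ 2)⁻¹ : ℝ) : ℂ) *
        D.latSum (D.dualDv (p.lam : F) (D.keyLat p.J Q)) fun v => D.fS I β p.lam l₀ v *
          gaussV (lW (p.lam : F)) (fun w => (y w).z) (fun w => (y w).t)
            (fun w => Real.exp (u w)) (D.vec v) := by
    intro u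
    rw [D.latSum_poisson (E := -p.J) (I := I) p.lam.ne_zero hI hl₀ hmem hexact (C := 1)
      (fun x => norm_hW_le _ _ _)
      (fun x hx w hw => hW_periodic p hQ hβ hx (by rwa [hIdv] at hw))
      _ (fun w => (winv y w).t_pos) fun w => Real.exp_pos _, hlat,
      show zInv (fun w => (winv y w).z) (fun w => (winv y w).t) = fun w => (y w).z from
        funext fun w => congrArg (fun Y : XInf F => (Y w).z) (winv_winv y),
      show tInv (fun w => (winv y w).z) (fun w => (winv y w).t) = fun w => (y w).t from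
        funext fun w => congrArg (fun Y : XInf F => (Y w).t) (winv_winv y)]
    rfl
  simp only [hpois, integral_const_mul]
  rw [D.integral_latSum p.lam.ne_zero _ (D.fS I β p.lam l₀) (fun v => norm_fS_le hI _ _)
    (fun e v => fS_uval_mul p hQ hβ hI hIdv hmem e v.2.1) _ fun w => (y w).t_pos]
  have hprod : (∏ w, (winv y w).t / 2) *
      (∏ w, (Complex.normSq (winv y w).z + (winv y w).t ^ 2)⁻¹) = ∏ w, (y w).t / 2 := by
    rw [← Finset.prod_mul_distrib]
    refine Finset.prod_congr rfl fun w _ => ?_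
    rw [normSq_inv y w, inv_inv]
    show tInv (fun v => (y v).z) (fun v => (y v).t) w / 2 * _ = _
    rw [tInv]
    have h : (0 : ℝ) < Complex.normSq (y w).z + (y w).t ^ 2 :=
      add_pos_of_nonneg_of_pos (Complex.normSq_nonneg _) (pow_pos (y w).t_pos 2)
    field_simp
  rw [zP, ← hprod]
  set X := ((volume : Measure (InfinitePlace F → ℝ)).real D.dom : ℝ)
  rw [show ∀ a b c : ℂ, (∑' o : D.Orb (D.dualDv (p.lam : F) (D.keyLat p.J Q)),
      a * D.fS I β p.lam l₀ (D.orep o) * b *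
        D.gI (p.lam : F) (fun w => (y w).z) (fun w => (y w).t) (D.orep o)) =
    a * b * ∑' o : D.Orb (D.dualDv (p.lam : F) (D.keyLat p.J Q)),
      D.fS I β p.lam l₀ (D.orep o) *
        D.gI (p.lam : F) (fun w => (y w).z) (fun w => (y w).t) (D.orep o) from
      fun a b _ => by rw [← tsum_mul_left]; exact tsum_congr fun o => by ring]
  · push_cast
    field_simp
  · exact 0

omit hQ hβ hIdv hl₀ hmem hexact in
/-- The series of a class is absolutely summable. -/
lemma summable_series (y : XInf F) :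
    Summable fun o : D.Orb (D.dualDv (p.lam : F) (D.keyLat p.J Q)) =>
      ‖D.zP p Q * D.fS I β p.lam l₀ (D.orep o) * (((∏ w, (y w).t / 2 : ℝ)) : ℂ) *
          D.gI (p.lam : F) (fun w => (y w).z) (fun w => (y w).t) (D.orep o)‖ := by
  refine ((D.summable_gI p.lam.ne_zero _ (fun w => (y w).z) (fun w => (y w).t_pos)).mul_left
    (‖D.zP p Q‖ * (Nat.card (𝓞 D.M ⧸ I) : ℝ) * ‖(((∏ w, (y w).t / 2 : ℝ)) : ℂ)‖)).of_nonneg_of_le
    (fun _ => norm_nonneg _) fun o => ?_
  rw [norm_mul, norm_mul, norm_mul]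
  gcongr
  exact norm_fS_le hI _ _

omit hQ hβ hI hIdv hl₀ hmem hexact

omit hm in
lemma wave_eq {x : D.M} (hx : x ≠ 0) (y : XInf F) :
    (((∏ w, (y w).t / 2 : ℝ)) : ℂ) * D.gI (p.lam : F) (fun w => (y w).z) (fun w => (y w).t) x =
      (((∏ w : InfinitePlace F, ‖w.embedding ((p.lam : F) * D.nrm x)‖ : ℝ)) : ℂ)⁻¹ *
        waveProd ((p.lam : F) * D.nrm x) y := by
  have hν : (p.lam : F) * D.nrm x ≠ 0 := mul_ne_zero p.lam.ne_zero (D.nrm_eq_zero.not.2 hx)
  rw [D.gI_eq _ _ (fun w => (y w).t_pos) hx, waveProd, Complex.ofReal_prod, Complex.ofReal_prod,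
    ← Finset.prod_inv_distrib, ← Finset.prod_mul_distrib, ← Finset.prod_mul_distrib]
  refine Finset.prod_congr rfl fun w _ => ?_
  have h1 : (((‖w.embedding ((p.lam : F) * D.nrm x)‖ : ℝ)) : ℂ) ≠ 0 :=
    Complex.ofReal_ne_zero.2 (norm_ne_zero_iff.2 ((map_ne_zero _).2 hν))
  have h2 : (((y w).t : ℝ) : ℂ) ≠ 0 := Complex.ofReal_ne_zero.2 (y w).t_pos.ne'
  rw [inv_mul_cancel_left₀ h1]
  push_cast
  field_simp

omit hm in
lemma exists_freq_bound (E : Dv D.M) :
    ∃ δ : ℝ, 0 < δ ∧ δ ≤ 1 ∧ ∀ x : D.Pts E,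
      δ ≤ ∏ w : InfinitePlace F, ‖w.embedding ((p.lam : F) * D.nrm x)‖ := by
  refine ⟨min 1 (Real.sqrt (ndeg (dvElt (p.lam : F)) * ndeg E)),
    lt_min one_pos (Real.sqrt_pos.2 (mul_pos (ndeg_pos _) (ndeg_pos _))), min_le_left _ _,
    fun x => (min_le_right _ _).trans ?_⟩
  have hn : D.nrm (x : D.M) ≠ 0 := D.nrm_eq_zero.not.2 x.2.2
  rw [← D.sqrt_ndeg_dvElt (mul_ne_zero p.lam.ne_zero hn), dvElt_mul p.lam.ne_zero hn, ndeg_add]
  refine Real.sqrt_le_sqrt (mul_le_mul_of_nonneg_left ?_ (ndeg_pos _).le)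
  have h1 : ndeg (dvElt (D.nrm (x : D.M))) = ndeg (dvElt (x : D.M)) := by
    have h := congrArg ndeg (D.extDv_dvElt_nrm x.2.2)
    rw [ndeg_extDv, D.finrank_eq, ndeg_add, ndeg_conjDv] at h
    nlinarith [ndeg_pos (dvElt (D.nrm (x : D.M))), ndeg_pos (dvElt (x : D.M))]
  rw [h1, show dvElt (x : D.M) = E + (dvElt (x : D.M) - E) by abel, ndeg_add]
  exact le_mul_of_one_le_right (ndeg_pos _).le
    (one_le_ndeg (sub_nonneg.2 ((mem_fid.1 x.2.1).resolve_left x.2.2)))

/-- The twist of a pair by a divisor of relative norm one. -/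
def Pair.twist (J₀ : Dv D.M) (h0 : D.TFreeM J₀) (hc : J₀ + D.conjDv J₀ = 0) (p : D.Pair B) :
    D.Pair B where
  lam := p.lam
  J := p.J + J₀
  hJ := fun P hP => by rw [Finsupp.add_apply, p.hJ P hP, h0 P hP, add_zero]
  hdv := by rw [map_add, add_add_add_comm, hc, add_zero, p.hdv]

omit p

lemma exists_twisted_reps {J₀ : Dv D.M} (h0 : D.TFreeM J₀) (hc : J₀ + D.conjDv J₀ = 0)
    (β : F) (y : XInf F) :
    D.theta B β y = ∑ c : D.Cls B, D.classSum β ((D.crep B c).twist J₀ h0 hc) y := by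
  have hcong : ∀ {J : Dv D.M} (hJ : D.TFreeM J) (hJc : J + D.conjDv J = 0) (p q : D.Pair B),
      p.Equiv' q → (p.twist J hJ hJc).Equiv' (q.twist J hJ hJc) := by
    rintro J hJ hJc p q ⟨v, hv, h1, h2⟩
    exact ⟨v, hv, h1, by show q.J + _ = p.J + _ + _; rw [h2, add_right_comm]⟩
  have h0' : D.TFreeM (-J₀) := fun P hP => by rw [Finsupp.neg_apply, h0 P hP, neg_zero]
  have hc' : -J₀ + D.conjDv (-J₀) = 0 := by rw [map_neg, ← neg_add, hc, neg_zero]
  let f : D.Cls B → D.Cls B := Quotient.map (sa := D.pairSetoid B) (sb := D.pairSetoid B)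
    (Pair.twist J₀ h0 hc) (hcong h0 hc)
  let g : D.Cls B → D.Cls B := Quotient.map (sa := D.pairSetoid B) (sb := D.pairSetoid B)
    (Pair.twist (-J₀) h0' hc') (hcong h0' hc')
  have hgf : ∀ c, g (f c) = c := fun c => by
    induction c using Quotient.inductionOn with
    | h p => exact congrArg (Quotient.mk _) (Pair.ext' rfl (add_neg_cancel_right _ _))
  have hfg : ∀ c, f (g c) = c := fun c => by
    induction c using Quotient.inductionOn with
    | h p => exact congrArg (Quotient.mk _) (Pair.ext' rfl (neg_add_cancel_right _ _))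
  let e : D.Cls B ≃ D.Cls B := ⟨f, g, hgf, hfg⟩
  have hr : ∀ c, Quotient.mk (D.pairSetoid B) ((D.crep B (e.symm c)).twist J₀ h0 hc) = c :=
    fun c => by
    show f (Quotient.mk (D.pairSetoid B) (D.crep B (e.symm c))) = c
    rw [D.mk_crep B]
    exact hfg c
  rw [D.theta_eq B β y hr, ← e.sum_comp]
  simp only [Equiv.symm_apply_apply]

variable (D) in
/-- A divisor of relative norm one with value `-1` and zero at prescribed places. -/
theorem exists_twist_dv (S : Finset (HeightOneSpectrum (𝓞 D.M))) :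
    ∃ J₀ : Dv D.M, D.TFreeM J₀ ∧ J₀ + D.conjDv J₀ = 0 ∧ D.ξc J₀ = -1 ∧
      ∀ P ∈ S, J₀ P = 0 := by
  classical
  obtain ⟨J, hJ, hsq⟩ := D.exists_sq_eq_neg_one
  set K₀ := idealDv J
  have hK : D.TFreeM K₀ := fun P hP => by
    obtain ⟨a, ha, b, hb, hab⟩ := Submodule.mem_sup.1 ((Ideal.eq_top_iff_one _).1 hJ)
    have hbP : b ∈ P.asIdeal :=
      (Ideal.span_singleton_le_iff_mem _).2 ((D.inT_below_iff P).1 hP) hb
    have haP : a ∉ P.asIdeal := fun h' =>
      P.isPrime.ne_top ((Ideal.eq_top_iff_one _).2 (hab ▸ add_mem h' hbP))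
    have ha0 : a ≠ 0 := fun h' => haP (h' ▸ zero_mem _)
    have hJ0 : J ≠ ⊥ := fun h' => by
      rw [h', bot_sup_eq] at hJ
      exact P.isPrime.ne_top (top_le_iff.1 (hJ ▸ (Ideal.span_singleton_le_iff_mem _).2
        ((D.inT_below_iff P).1 hP)))
    have h1 : K₀ P ≤ dvElt (a : D.M) P := (idealDv_le_iff hJ0 ha0).1 ha P
    have h2 := mt (mem_prime_iff P ha0).2 haP
    have h3 : 0 ≤ K₀ P := idealDv_nonneg J P
    omega
  set S' := S ∪ S.image D.conjP ∪ D.TP with hS'
  obtain ⟨w₁, hw₁, hw₁S⟩ := exists_ord_eq S' fun P => -K₀ P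
  obtain ⟨b, hb⟩ := exists_int_congr D.TP (fun P => (D.R P).toNat) (x := w₁⁻¹) fun P hP => Or.inr (by
    rw [dvElt_inv hw₁, Finsupp.neg_apply, hw₁S P (Finset.mem_union_right _ hP),
      hK P (D.mem_TP.1 hP)]
    simp)
  obtain ⟨a, ha⟩ := exists_crt S' (fun P => (D.R P).toNat + 1)
    (fun P => if P ∈ D.TP then b else 1)
  set w : D.M := w₁ * (a : D.M)
  have hT : ∀ P, D.InT (D.below P) → OrdGe P (D.R P) (w - 1) := fun P hP => by
    have hP' := D.mem_TP.2 hP
    have h1 := ha P (Finset.mem_union_right _ hP')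
    rw [if_pos hP'] at h1
    have h2 := hb P hP'
    have hw1 : OrdGe P 0 w₁ := Or.inr (by
      rw [hw₁S P (Finset.mem_union_right _ hP'), hK P hP]; simp)
    rw [show w - 1 = w₁ * ((a : D.M) - b) - w₁ * (w₁⁻¹ - b) by
      simp only [w]; field_simp; ring]
    refine (hw1.mul (h1.mono ?_)).sub (hw1.mul (h2.mono ?_)) |>.mono (zero_add _).ge <;>
      · have := Int.self_le_toNat (D.R P)
        omega
  obtain ⟨P₁, hP₁⟩ := D.exists_inT
  have hw1T : D.TUnit (1 : D.M) := ⟨one_ne_zero, fun P _ => by rw [dvElt_one]; rfl⟩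
  have hfw : D.fT w = 1 := by
    rw [show w = 1 + (w - 1) by ring, D.fT_periodic hw1T.tint hT,
      D.fT_eq_one one_ne_zero dvElt_one]
  have hwU : D.TUnit w := TUnit.of_fT (D := D) (by rw [hfw]; exact one_ne_zero)
  have hzero : ∀ P ∈ S', K₀ P + dvElt w P = 0 := fun P hP => by
    by_cases hT' : D.InT (D.below P)
    · rw [hK P hT', hwU.2 P hT', zero_add]
    · have h1 := ha P hP
      rw [if_neg (mt D.mem_TP.1 hT'), show ((1 : 𝓞 D.M) : D.M) = 1 from map_one _] at h1
      have ha0 : a ≠ 0 := fun h' => hwU.1 (by simp [w, h'])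
      have haP : a ∉ P.asIdeal := fun h' => by
        have h2 := (ordGe_one_iff.2 h').sub (h1.mono (by omega))
        rw [sub_sub_cancel] at h2
        have h3 := h2.resolve_left one_ne_zero
        rw [dvElt_one, Finsupp.zero_apply] at h3
        omega
      have h4 : dvElt (a : D.M) P = 0 := by
        have := mt (mem_prime_iff P ha0).2 haP
        have : (0 : ℤ) ≤ dvElt (a : D.M) P := dvElt_coe_nonneg a P
        omega
      simp only [w]
      rw [dvElt_mul hw₁ (RingOfIntegers.coe_ne_zero_iff.2 ha0), Finsupp.add_apply, hw₁S P hP, h4]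
      ring
  set K' := K₀ + dvElt w
  refine ⟨K' - D.conjDv K', fun P hP => ?_, ?_, ?_, fun P hP => ?_⟩
  · have hP' : D.InT (D.below (D.conjP P)) := by rwa [D.below_conjP]
    simp only [K', Finsupp.sub_apply, conjDv_apply, Finsupp.add_apply, hK P hP, hwU.2 P hP,
      hK _ hP', hwU.2 _ hP']
    rfl
  · rw [map_sub, show D.conjDv (D.conjDv K') = K' from Finsupp.ext fun P => by
      rw [conjDv_apply, conjDv_apply, conjP_conjP]]
    abel
  · rw [ξc_sub, ξc_conj, div_inv_eq_mul, ξc_add, D.ξc_idealDv hJ, ← D.fT_of_unit hwU, hfw,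
      mul_one, ← pow_two, hsq]
  · rw [Finsupp.sub_apply, conjDv_apply]
    show K₀ P + dvElt w P - (K₀ (D.conjP P) + dvElt w (D.conjP P)) = 0
    rw [hzero P (Finset.mem_union_left _ (Finset.mem_union_left _ hP)),
      hzero _ (Finset.mem_union_left _ (Finset.mem_union_right _ (Finset.mem_image_of_mem _ hP))),
      sub_zero]

/-- The theta series at an inverted point is a series of waves. -/
theorem theta_winv_series (β : F) :
    IsWaveSeries (fun y : XInf F => D.theta B β (winv y)) := by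
  classical
  -- the modulus
  set Q : Dv F := if β = 0 then 0 else (B - dvElt β).mapRange (max 0) (max_self 0) with hQdef
  have hQ : 0 ≤ Q := fun v => by
    rw [hQdef]
    split_ifs
    · exact le_rfl
    · simp
  have hβ : ∀ q, OrdGe q (B q - Q q) β := fun q => by
    rcases eq_or_ne β 0 with h | h
    · exact Or.inl h
    · refine Or.inr ?_
      have : Q q = max 0 (B q - dvElt β q) := by rw [hQdef, if_neg h]; simp
      omega
  obtain ⟨𝔮, h𝔮0, h𝔮⟩ := exists_idealDv_eq hQ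
  set I := D.mapI 𝔮 * D.modI with hIdef
  have hI : I ≠ ⊥ := mul_ne_zero (map_ne_bot_ext h𝔮0) D.modI_ne
  have hIdv : idealDv I = extDv Q + D.R := by
    rw [hIdef, idealDv_mul (map_ne_bot_ext h𝔮0) D.modI_ne, idealDv_map h𝔮0, idealDv_modI, h𝔮]
  have hS : (idealDv I).support.Nonempty := by
    obtain ⟨P, hP⟩ := D.exists_inT
    refine ⟨P, Finsupp.mem_support_iff.2 ?_⟩
    rw [hIdv, Finsupp.add_apply, extDv_apply]
    have h1 := D.R_T hP
    have h2 := mul_nonneg (zero_le_one.trans (D.one_le_ram P)) (hQ (D.below P))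
    omega
  obtain ⟨J₀, hJT, hJc, hJξ, hJS⟩ := D.exists_twist_dv (idealDv I).support
  -- the two representatives of a class
  let pr : D.Cls B × Bool → D.Pair B := fun cb =>
    if cb.2 then (D.crep B cb.1).twist J₀ hJT hJc else D.crep B cb.1
  have hgen : ∀ c, ∃ l₀ : D.M, l₀ ≠ 0 ∧ ∀ b,
      l₀ ∈ (fid (-(pr (c, b)).J) : FractionalIdeal (𝓞 D.M)⁰ D.M) ∧
        ∀ P, idealDv I P ≠ 0 → dvElt l₀ P = (-(pr (c, b)).J) P := by
    intro c
    obtain ⟨l₀, hl₀, hmem, hex⟩ := D.exists_gen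
      (-(D.crep B c).J + (-J₀).mapRange (max 0) (max_self 0)) (idealDv I).support hS
    refine ⟨l₀, hl₀, fun b => ⟨mem_fid_iff_ordGe.2 fun P => (mem_fid_iff_ordGe.1 hmem P).mono ?_,
      fun P hP => ?_⟩⟩
    · cases b <;> simp [pr, Pair.twist]
    · rw [hex P (Finsupp.mem_support_iff.2 hP)]
      cases b <;> simp [pr, Pair.twist, hJS P (Finsupp.mem_support_iff.2 hP)]
  choose l hl hl' using hgen
  let E' : D.Cls B × Bool → Dv D.M := fun cb =>
    D.dualDv ((pr cb).lam : F) (D.keyLat (pr cb).J Q)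
  let μ : (Σ cb, D.Orb (E' cb)) → Fˣ := fun i =>
    (pr i.1).lam * Units.mk0 (D.nrm (D.orep i.2 : D.M)) (D.nrm_eq_zero.not.2 (D.orep i.2).2.2)
  let a : (Σ cb, D.Orb (E' cb)) → ℂ := fun i =>
    2⁻¹ * (D.zP (pr i.1) Q * D.fS I β (pr i.1).lam (l i.1.1) (D.orep i.2)) *
      (((∏ w : InfinitePlace F, ‖w.embedding (μ i : F)‖ : ℝ)) : ℂ)⁻¹
  choose δ hδ hδ1 hδle using fun cb => exists_freq_bound (pr cb) (E' cb)
  have : ∀ cb, Countable (D.Orb (E' cb)) := fun cb => Quotient.mk_surjective.countable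
  refine ⟨Σ cb, D.Orb (E' cb), inferInstance, a, μ, ∏ cb, δ cb,
    Finset.prod_pos fun cb _ => hδ cb, fun i => ?_, fun y => ?_⟩
  · refine le_trans ?_ (hδle i.1 (D.orep i.2))
    rw [← Finset.mul_prod_erase _ _ (Finset.mem_univ i.1)]
    exact mul_le_of_le_one_right (hδ _).le
      (Finset.prod_le_one (fun cb _ => (hδ cb).le) fun cb _ => hδ1 cb)
  obtain ⟨T, hTdef⟩ : ∃ T : ∀ cb, D.Orb (E' cb) → ℂ, ∀ cb o, T cb o =
    D.zP (pr cb) Q * D.fS I β (pr cb).lam (l cb.1) (D.orep o) *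
      (((∏ w, (y w).t / 2 : ℝ)) : ℂ) *
      D.gI ((pr cb).lam : F) (fun w => (y w).z) (fun w => (y w).t) (D.orep o) :=
    ⟨_, fun _ _ => rfl⟩
  have hT : ∀ cb, Summable fun o => ‖T cb o‖ := fun cb => by
    simp only [hTdef]; exact summable_series (pr cb) hI y
  have hterm : ∀ i : Σ cb, D.Orb (E' cb),
      a i * waveProd (μ i : F) y = 2⁻¹ * T i.1 i.2 := by
    rintro ⟨cb, o⟩
    simp only [hTdef, a, μ, Units.val_mul, Units.val_mk0]
    rw [mul_assoc (D.zP (pr cb) Q * D.fS I β (pr cb).lam (l cb.1) (D.orep o)),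
      wave_eq (pr cb) (D.orep o).2.2]
    ring
  have hsum : Summable fun i : Σ cb, D.Orb (E' cb) => 2⁻¹ * T i.1 i.2 := by
    have h : Summable fun i : Σ cb, D.Orb (E' cb) => ‖T i.1 i.2‖ :=
      (summable_sigma_of_nonneg fun _ => norm_nonneg _).2 ⟨hT, Summable.of_finite⟩
    exact h.of_norm.mul_left _
  have hclass : ∀ cb, D.classSum β (pr cb) (winv y) =
      D.zP (pr cb) Q * D.fS I β (pr cb).lam (l cb.1) 0 *
        ((((volume : Measure (InfinitePlace F → ℝ)).real D.dom /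
          Fintype.card D.kerOne * ∏ w, (y w).t / 2 : ℝ)) : ℂ) + ∑' o, T cb o :=
    fun cb => by
    simp only [hTdef]
    exact classSum_winv (pr cb) hQ hβ hI hIdv (hl cb.1) (hl' cb.1 cb.2).1 (hl' cb.1 cb.2).2 y
  have hneg : ∀ c, D.zP (pr (c, true)) Q * D.fS I β (pr (c, true)).lam (l c) 0 =
      -(D.zP (pr (c, false)) Q * D.fS I β (pr (c, false)).lam (l c) 0) := by
    intro c
    have hd : ndeg J₀ = 1 := by
      have h := congrArg ndeg hJc
      rw [ndeg_add, ndeg_conjDv, ndeg_zero] at h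
      nlinarith [ndeg_pos J₀]
    have hcov : D.covol ((D.crep B c).lam : F) (D.keyLat ((D.crep B c).J + J₀) Q) =
        D.covol ((D.crep B c).lam : F) (D.keyLat (D.crep B c).J Q) := by
      simp only [covol, keyLat, ndeg_add, ndeg_neg, hd, mul_one]
    show D.ξc ((D.crep B c).J + J₀) * ((D.cA B *
        (D.covol ((D.crep B c).lam : F) (D.keyLat ((D.crep B c).J + J₀) Q))⁻¹ : ℝ) : ℂ) *
      D.fS I β (D.crep B c).lam (l c) 0 = _
    rw [hcov, ξc_add, hJξ]
    show _ = -(D.zP (D.crep B c) Q * D.fS I β (D.crep B c).lam (l c) 0)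
    rw [zP]
    ring
  refine (hsum.hasSum_iff.2 ?_).congr_fun hterm
  rw [hsum.tsum_sigma, tsum_fintype, Fintype.sum_prod_type]
  simp only [Fintype.sum_bool, tsum_mul_left, ← Finset.mul_sum]
  have h1 : D.theta B β (winv y) = ∑ c, D.classSum β (pr (c, false)) (winv y) :=
    D.theta_eq B β _ (D.mk_crep B)
  have h2 : D.theta B β (winv y) = ∑ c, D.classSum β (pr (c, true)) (winv y) :=
    exists_twisted_reps hJT hJc β _
  have h3 : D.theta B β (winv y) + D.theta B β (winv y) =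
      ∑ c, ((∑' o, T (c, true) o) + ∑' o, T (c, false) o) := by
    conv_lhs => arg 1; rw [h2]
    conv_lhs => arg 2; rw [h1]
    rw [← Finset.sum_add_distrib]
    refine Finset.sum_congr rfl fun c _ => ?_
    rw [hclass, hclass, hneg c]
    ring
  rw [← h3]
  ring

end FermatAgent.LTG.Dihedral.DihedralData
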