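import Fermat.Agent.LT.General.Interface
import Fermat.Agent.LT.General.ClassField.Main
import Fermat.Agent.LT.General.Dihedral.Cusp
import Fermat.Agent.LT.General.Dihedral.Hecke
import Fermat.Agent.LT.General.Dihedral.WinvSeries

/-!
# The dihedral cusp form of the general Langlands-Tunnell argument
-/

set_option autoImplicit false

noncomputable section

open NumberField IsDedekindDomain
open FermatAgent.LT
open FermatAgent.LT.Dihedral
open FermatAgent.LT.Dihedral.QuadData
open FermatAgent.LT.Dihedral.DihedralData (exists_idele_exact)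

namespace FermatAgent.LTG

namespace Dihedral.DihedralData

variable {F : Type} [Field F] [NumberField F] {m : ℕ} [hm : Fact (1 < m)] {D : DihedralData F m}

/-- The dihedral form does not vanish. -/
theorem G_ne_zero : D.G ≠ 0 := by
  have := D.isTotallyComplex
  intro h0
  obtain ⟨a, ha, haT⟩ := exists_idele_exact (-D.dD)
  have haT' : ∀ q, D.InT q → (a : Adf F) q = 1 := fun q hq =>
    haT q (by rw [Finsupp.neg_apply, D.dD_T hq, neg_zero])
  have h1 : ∀ x, HasSum (D.term (adDv a) 0 x) 0 := fun x => by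
    have h := (D.hasSum_term (adDv a) (D.mk_crep _) 0 x).summable.hasSum
    have hG : D.theta (adDv a) 0 x = 0 := by
      rw [← G_goodMat haT' D.K0.one_mem (z := 1) x, h0]
      rfl
    rwa [show ∑' ν, D.term (adDv a) 0 x ν = 0 from hG] at h
  have h2 := expansion_unique (F := fun _ => (0 : ℂ)) (a := fun ν : Fˣ => D.coefR (D.freqDv (adDv a) ν) *
    (((Real.sqrt (ndeg (D.freqDv (adDv a) ν)))⁻¹ : ℝ) : ℂ)) (a' := fun _ => 0)
    (fun x => (h1 x).congr_fun fun ν => by simp [term, ph_zero]) (fun x => by simp) 1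
  simp [freqDv, dvElt_one, ha, coefR_zero, ndeg_zero] at h2

end Dihedral.DihedralData

/-- **The dihedral cusp form on `F`.** -/
theorem exists_dihedral (S : Setup) :
    ∃ (n : ℕ) (G : XInf S.F → GAf S.F → ℂ), G ≠ 0 ∧ IsDihedralLike S n G := by
  obtain ⟨D, hD⟩ := Dihedral.hasDihedralData S
  have : Fact (1 < S.m) := ⟨by
    have := Nat.le_of_dvd (Nat.pos_of_ne_zero S.m_ne_zero) S.six_dvd
    omega⟩
  refine ⟨D.nT, D.G, Dihedral.DihedralData.G_ne_zero,
    ⟨Dihedral.DihedralData.G_isCuspFn, fun w hw σ hσ => ?_⟩⟩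
  rw [← hD w hw σ hσ, ← D.coefR_eq_coeff hw]
  exact Dihedral.DihedralData.G_isEigenAt hw

end FermatAgent.LTG
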