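import Fermat.Agent.LT.General.Dihedral.Theta
import Fermat.Agent.LT.Dihedral.Key

/-!
# Poisson summation over a lattice of `M` with periodic weights
-/

set_option autoImplicit false

noncomputable section

open NumberField IsDedekindDomain
open FermatAgent.LT (H3 XInf waveProd)
open FermatAgent.LT.Dihedral
open FermatAgent.LT.Dihedral.QuadData
open scoped nonZeroDivisors

namespace FermatAgent.LTG.Dihedral.DihedralData

variable {F : Type} [Field F] [NumberField F] {m : ℕ} (D : DihedralData F m)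

/-- The phases of a lattice at a point of the dual lattice are trivial. -/
lemma ph_dual {l : F} (hl : l ≠ 0) {E : Dv D.M} {a v : D.M}
    (ha : a ∈ (fid E : FractionalIdeal (𝓞 D.M)⁰ D.M))
    (hv : v ∈ (fid (D.dualDv l E) : FractionalIdeal (𝓞 D.M)⁰ D.M)) :
    ph (l * D.tra (a * D.σ v)) = 1 := by
  obtain ⟨c, rfl⟩ := (D.mem_iff_lbasis E).1 ha
  have h := (D.mem_dual_iff E hl).1 hv
  choose n hn using h
  rw [ph_eq_one_iff]
  refine ⟨∑ i, c i * n i, ?_⟩
  rw [← D.tra_mul_algebraMap, ← trace_rat, ← mul_assoc, mul_comm (algebraMap F D.M l),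
    mul_assoc, Finset.sum_mul, map_sum, Int.cast_sum]
  refine Finset.sum_congr rfl fun i _ => ?_
  rw [smul_mul_assoc, map_smul, hn, smul_eq_mul, Int.cast_mul]

/-- A sum over residues is unchanged by a unit factor. -/
lemma qsum_mul_unit {I : Ideal (𝓞 D.M)} (hI : I ≠ ⊥) {f : 𝓞 D.M → ℂ} (hf : PeriodicMod I f)
    {a : 𝓞 D.M} (ha : Ideal.span {a} ⊔ I = ⊤) : qsum I (fun x => f (a * x)) = qsum I f := by
  classical
  have := finite_quot hI
  have := Fintype.ofFinite (𝓞 D.M ⧸ I)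
  obtain ⟨y, hy, z, hz, hyz⟩ := Submodule.mem_sup.1 ((Ideal.eq_top_iff_one _).1 ha)
  obtain ⟨t, rfl⟩ := Ideal.mem_span_singleton'.1 hy
  rw [qsum_eq_sum, qsum_reindex hf (fun c => a * qrep I c)]
  refine Function.bijective_iff_has_inverse.2 ⟨fun c => Ideal.Quotient.mk I t * c, ?_, ?_⟩ <;>
  · intro c
    have h1 : Ideal.Quotient.mk I t * Ideal.Quotient.mk I a = 1 := by
      rw [← map_mul, ← map_one (Ideal.Quotient.mk I), Ideal.Quotient.eq,
        show t * a - 1 = -z by linear_combination hyz]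
      exact neg_mem hz
    simp only [map_mul, mk_qrep]
    linear_combination c * h1

section Periodic

variable {E : Dv D.M} {I : Ideal (𝓞 D.M)} {h : D.M → ℂ}

/-- Poisson summation with periodic weights. -/
theorem latSum_poisson {l : F} (hl : l ≠ 0) (hI : I ≠ ⊥) {l₀ : D.M} (hl₀ : l₀ ≠ 0)
    (hmem : l₀ ∈ (fid E : FractionalIdeal (𝓞 D.M)⁰ D.M))
    (hexact : ∀ P, idealDv I P ≠ 0 → dvElt l₀ P = E P) {C : ℝ} (hC : ∀ x, ‖h x‖ ≤ C)
    (hper : ∀ x ∈ (fid E : FractionalIdeal (𝓞 D.M)⁰ D.M),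
      ∀ u ∈ (fid (E + idealDv I) : FractionalIdeal (𝓞 D.M)⁰ D.M), h (x + u) = h x)
    (z : InfinitePlace F → ℂ) {t s : InfinitePlace F → ℝ} (ht : ∀ w, 0 < t w) (hs : ∀ w, 0 < s w) :
    D.latSum E (fun x => h x * gaussV (lW l) z t s (D.vec x)) =
      (((D.covol l (E + idealDv I))⁻¹ * ∏ w, (Complex.normSq (z w) + t w ^ 2)⁻¹ : ℝ) : ℂ) *
        D.latSum (D.dualDv l (E + idealDv I)) (fun v =>
          qsum I (fun x => h (l₀ * (x : D.M)) * ph (l * D.tra (l₀ * (x : D.M) * D.σ v))) *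
            gaussV (lW l) (zInv z t) (tInv z t) s (D.vec v)) := by
  classical
  have := finite_quot hI
  have := Fintype.ofFinite (𝓞 D.M ⧸ I)
  obtain ⟨e, he⟩ : ∃ e : (𝓞 D.M ⧸ I) × D.Lat (E + idealDv I) ≃ D.Lat E,
      ∀ c u, (e (c, u) : D.M) = l₀ * ((qrep I c : 𝓞 D.M) : D.M) + (u : D.M) :=
    ⟨Equiv.ofBijective _ (D.split_bijective (E := E) hI hl₀ hmem hexact), fun _ _ => rfl⟩
  set g : D.M → ℂ := fun x => gaussV (lW l) z t s (D.vec x)
  set g' : D.M → ℂ := fun x => gaussV (lW l) (zInv z t) (tInv z t) s (D.vec x)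
  have hsum : Summable fun x : D.Lat E => h x * g x := by
    refine Summable.of_norm (((D.summable_gauss_lattice E hl 0 z ht hs).mul_left
      C).of_nonneg_of_le (fun _ => norm_nonneg _) fun x => ?_)
    rw [norm_mul, zero_add]
    exact mul_le_mul_of_nonneg_right (hC x) (norm_nonneg _)
  have hval : ∀ (c : 𝓞 D.M ⧸ I) (u : D.Lat (E + idealDv I)),
      h (e (c, u) : D.M) = h (l₀ * ((qrep I c : 𝓞 D.M) : D.M)) := by
    intro c u
    rw [he]
    refine hper _ (mem_fid_iff_ordGe.2 fun P => ?_) _ u.2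
    simpa using (mem_fid_iff_ordGe.1 hmem P).mul (ordGe_int (v := P) (qrep I c))
  have h1 : D.latSum E (fun x => h x * g x) =
      ∑ c : 𝓞 D.M ⧸ I, h (l₀ * ((qrep I c : 𝓞 D.M) : D.M)) *
        D.latSum (E + idealDv I)
          (fun u => gaussV (lW l) z t s (D.vec (l₀ * ((qrep I c : 𝓞 D.M) : D.M) + u))) := by
    have hs' : Summable fun cu : (𝓞 D.M ⧸ I) × D.Lat (E + idealDv I) =>
        h (e cu : D.M) * g (e cu : D.M) :=
      (e.summable_iff (f := fun x : D.Lat E => h x * g x)).2 hsum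
    have he1 : D.latSum E (fun x => h x * g x) =
        ∑' cu : (𝓞 D.M ⧸ I) × D.Lat (E + idealDv I), h (e cu : D.M) * g (e cu : D.M) :=
      (e.tsum_eq (fun x : D.Lat E => h x * g x)).symm
    rw [he1, hs'.tsum_prod, tsum_fintype]
    unfold latSum
    refine Finset.sum_congr rfl fun c _ => ?_
    rw [← tsum_mul_left]
    refine tsum_congr fun u => ?_
    rw [hval, he]
  rw [h1]
  simp only [D.lattice_poisson _ hl _ z ht hs]
  set E' := D.dualDv l (E + idealDv I)
  set K : ℂ := (((D.covol l (E + idealDv I))⁻¹ *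
    ∏ w, (Complex.normSq (z w) + t w ^ 2)⁻¹ : ℝ) : ℂ)
  have hph : ∀ (r : D.M), Summable fun v : D.Lat E' =>
      ph (l * D.tra (r * D.σ (v : D.M))) * g' (v : D.M) := fun r => by
    refine Summable.of_norm (((D.summable_gauss_lattice E' hl 0 (zInv z t) (tInv_pos z ht) hs)).congr
      fun v => ?_)
    rw [norm_mul, norm_ph, one_mul, zero_add]
  have h3 : ∀ c : 𝓞 D.M ⧸ I, h (l₀ * ((qrep I c : 𝓞 D.M) : D.M)) *
      (K * D.latSum E' (fun v => ph (l * D.tra (l₀ * ((qrep I c : 𝓞 D.M) : D.M) * D.σ v)) * g' v)) =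
      K * ∑' v : D.Lat E', h (l₀ * ((qrep I c : 𝓞 D.M) : D.M)) *
        ph (l * D.tra (l₀ * ((qrep I c : 𝓞 D.M) : D.M) * D.σ (v : D.M))) * g' (v : D.M) := by
    intro c
    rw [latSum, mul_left_comm, ← tsum_mul_left]
    exact congrArg _ (tsum_congr fun v => (mul_assoc _ _ _).symm)
  rw [Finset.sum_congr rfl fun c _ => h3 c, ← Finset.mul_sum,
    ← Summable.tsum_finsetSum fun c _ => ((hph _).mul_left _).congr fun v => (mul_assoc _ _ _).symm]
  refine congrArg _ (tsum_congr fun v => ?_)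
  beta_reduce
  rw [qsum_eq_sum, Finset.sum_mul]

end Periodic

end FermatAgent.LTG.Dihedral.DihedralData
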