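import Fermat.Agent.LT.General.Dihedral.Form
import Fermat.Agent.LT.General.Dihedral.Series
import Fermat.Agent.LT.General.Dihedral.Coef
import Fermat.Agent.LT.Dihedral.Majorant
import Fermat.Agent.LT.General.Dihedral.WinvSeries

/-!
# Every slice of the dihedral form is a series of waves
-/

set_option autoImplicit false

noncomputable section

open NumberField IsDedekindDomain
open FermatAgent.LT
open FermatAgent.LT.Dihedral
open FermatAgent.LT.Dihedral.QuadData
open FermatAgent.LT.Dihedral.DihedralData (winv wMat infAct_wMat exists_upper_form)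

namespace FermatAgent.LTG.Dihedral.DihedralData

variable {F : Type} [Field F] [NumberField F] {m : ℕ} [hm : Fact (1 < m)] {D : DihedralData F m}

theorem theta_isWaveSeries (A : Dv F) (β : F) : IsWaveSeries fun y => D.theta A β y := by
  classical
  have := D.isTotallyComplex
  have : Countable F := (Module.Free.chooseBasis ℚ F).equivFun.injective.countable
  have : Countable Fˣ := Units.val_injective.countable
  refine ⟨{ν : Fˣ // D.coefR (D.freqDv A (ν : F)) ≠ 0}, inferInstance,
    fun ν => D.coefR (D.freqDv A (ν.1 : F)) *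
      (((Real.sqrt (ndeg (D.freqDv A (ν.1 : F))))⁻¹ : ℝ) : ℂ) * ph (-(β * (ν.1 : F))),
    fun ν => ν.1, (Real.sqrt (ndeg (A + D.dD)))⁻¹, inv_pos.2 (Real.sqrt_pos.2 (ndeg_pos _)),
    fun ν => ?_, fun y => ?_⟩
  · have hE := one_le_ndeg (D.coefR_ne_zero ν.2).1
    rw [freqDv, add_assoc, ndeg_add] at hE
    rw [← D.sqrt_ndeg_dvElt ν.1.ne_zero, ← Real.sqrt_inv]
    refine Real.sqrt_le_sqrt ?_
    rwa [inv_le_iff_one_le_mul₀ (ndeg_pos _)]
  · refine (hasSum_subtype_iff_of_support_subset (f := D.term A β y) ?_).2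
      (D.hasSum_term A (D.mk_crep A) β y).summable.hasSum |>.congr_fun fun ν => ?_
    · intro ν hν h
      exact hν (D.term_eq_zero h)
    · simp only [Function.comp_apply, term]

/-- The series after any rational matrix. -/
theorem theta_infAct_isWaveSeries (A : Dv F) (M : GL (Fin 2) F) : IsWaveSeries fun y => D.theta A 0 (infAct M y) := by
  have := D.isTotallyComplex
  rcases eq_or_ne (M 1 0) 0 with h | h
  · obtain ⟨u, q, c, rfl⟩ := exists_upper_form M h
    exact (theta_isWaveSeries A 0).comp_upper u q c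
  · have hdet : M 0 0 * M 1 1 - M 0 1 * M 1 0 ≠ 0 := by
      have := M.det_ne_zero
      rwa [Matrix.det_fin_two] at this
    set Δ := M 0 0 * M 1 1 - M 0 1 * M 1 0 with hΔ
    set u : Fˣ := Units.mk0 (Δ / M 1 0) (div_ne_zero hdet h)
    set q : Fˣ := Units.mk0 (M 1 0 ^ 2 / Δ) (div_ne_zero (pow_ne_zero _ h) hdet)
    have hM : M = upperTri 1 (M 0 0 / M 1 0) 1 *
        ((wMat : GL (Fin 2) F) * (upperTri u 0 u * upperTri q (M 1 1 * M 1 0 / Δ) 1)) := by
      refine Units.ext (Matrix.ext fun i j => ?_)
      fin_cases i <;> fin_cases j <;>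
        simp [upperTri, wMat, wUni, u, q, Matrix.mul_apply, Fin.sum_univ_two] <;>
        field_simp
      all_goals (rw [hΔ]; ring)
    have e : (fun y => D.theta A 0 (infAct M y)) =
        fun y => D.theta (A - dvElt ((1 : Fˣ) : F)) ((0 - M 0 0 / M 1 0) / ((1 : Fˣ) : F))
          (winv (infAct (upperTri u 0 u * upperTri q (M 1 1 * M 1 0 / Δ) 1) y)) := by
      funext y
      conv_lhs => rw [hM, infAct_mul', D.theta_upper, infAct_mul', infAct_wMat]
    rw [e]
    exact (theta_winv_series _).comp_upper u q _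

theorem G_isWaveSeries (g : GAf F) :
    IsWaveSeries fun x => D.G x g := by
  set d := (D.exists_dec g).some
  simp only [G_eq d, Dec.value]
  exact theta_infAct_isWaveSeries _ _

end FermatAgent.LTG.Dihedral.DihedralData
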