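import Fermat.Agent.LT.General.Dihedral.Eta
import Fermat.Agent.LT.Dihedral.Trace

/-!
# Phases of rational traces and the additive character at the places over `m`, general bad number
-/

set_option autoImplicit false

noncomputable section

open NumberField IsDedekindDomain
open FermatAgent.LT.Dihedral
open FermatAgent.LT.Dihedral.QuadData
open scoped nonZeroDivisors

namespace FermatAgent.LTG.Dihedral.DihedralData

variable {F : Type} [Field F] [NumberField F] {m : ℕ} (D : DihedralData F m)

/-- An element of `F` orthogonal to the ring of integers of `M`. -/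
lemma ordGe_of_trivial {x : F} (A : Dv D.M)
    (h : ∀ y : D.M, (∀ P, OrdGe P (A P) y) → ph (x * D.tra y) = 1) (P : HeightOneSpectrum (𝓞 D.M)) :
    OrdGe P (-A P - diffDv D.M P) (algebraMap F D.M x) := by
  have h1 : algebraMap F D.M x ∈ (fid (-A - diffDv D.M) : FractionalIdeal (𝓞 D.M)⁰ D.M) := by
    refine mem_fid_dual.2 fun y hy => ?_
    rw [trace_rat, tra_mul_algebraMap, ← ph_eq_one_iff]
    exact h y (mem_fid_iff_ordGe.1 hy)
  simpa using mem_fid_iff_ordGe.1 h1 P

/-- Elements with integral trace. -/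
def Small (_D : DihedralData F m) (x : F) : Prop := ∀ q, OrdGe q (-diffDv F q) x

lemma Small.trace_int {x : F} (h : D.Small x) : ∃ n : ℤ, Algebra.trace ℚ F x = n := by
  have h1 : x ∈ (fid (-(0 : Dv F) - diffDv F) : FractionalIdeal (𝓞 F)⁰ F) :=
    mem_fid_iff_ordGe.2 fun q => by simpa using h q
  obtain ⟨n, hn⟩ := mem_fid_dual.1 h1 1 (mem_fid_iff_ordGe.2 fun q => Or.inr (by simp [dvElt_one]))
  exact ⟨n, by rwa [mul_one] at hn⟩

lemma Small.ph_eq {x : F} (h : D.Small x) : ph x = 1 := (ph_eq_one_iff x).2 h.trace_int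

lemma ph_congr {x y : F} (h : D.Small (x - y)) : ph x = ph y := by
  rw [← sub_add_cancel x y, ph_add, h.ph_eq, one_mul]

lemma ordGe_unit_cancel {q : HeightOneSpectrum (𝓞 F)} {n : ℤ} {b : 𝓞 F} {x : F}
    (hb : b ∉ q.asIdeal) (h : OrdGe q n ((b : F) * x)) : OrdGe q n x := by
  have hb0 : b ≠ 0 := fun h0 => hb (h0 ▸ zero_mem _)
  have hbF : (b : F) ≠ 0 := RingOfIntegers.coe_ne_zero_iff.2 hb0
  rcases h with h | h
  · exact Or.inl ((mul_eq_zero.1 h).resolve_left hbF)
  rcases eq_or_ne x 0 with rfl | hx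
  · exact ordGe_zero _
  refine Or.inr ?_
  have h1 := mt (mem_prime_iff q hb0).2 hb
  have h2 : (0 : ℤ) ≤ dvElt (b : F) q := dvElt_coe_nonneg b q
  rw [dvElt_mul hbF hx, Finsupp.add_apply] at h
  omega

/-- The relative trace sends the inverse different of `M` to that of `F`, prime by prime. -/
lemma trace_dual {q : HeightOneSpectrum (𝓞 F)} {z : D.M}
    (h : ∀ P, D.below P = q → OrdGe P (-diffDv D.M P) z) : OrdGe q (-diffDv F q) (D.tra z) := by
  classical
  rcases eq_or_ne z 0 with rfl | hz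
  · exact Or.inl D.tra_zero
  set S := ((dvElt z).support.image D.below) ∪ {q}
  set N := ∑ P ∈ (dvElt z).support, (dvElt z P).natAbs
  obtain ⟨b, hb⟩ := exists_crt S (fun v => if v = q then 1 else N)
    (fun v => if v = q then 1 else 0)
  have hbq : b ∉ q.asIdeal := fun hmem => by
    have := hb q (by simp [S])
    simp only [if_true, Nat.cast_one, ← coeO_sub, ordGe_one_iff] at this
    exact q.isPrime.ne_top ((Ideal.eq_top_iff_one _).2 (by simpa using sub_mem hmem this))
  refine ordGe_unit_cancel hbq ?_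
  have h1 : algebraMap F D.M (b : F) * z ∈
      (fid (-(0 : Dv D.M) - diffDv D.M) : FractionalIdeal (𝓞 D.M)⁰ D.M) := by
    refine mem_fid_iff_ordGe.2 fun P => ?_
    rw [neg_zero, zero_sub, Finsupp.neg_apply]
    by_cases hP : D.below P = q
    · simpa using (D.ordGe_algebraMap (ordGe_int b)).mul (h P hP)
    have hdiff : (0 : ℤ) ≤ diffDv D.M P := idealDv_nonneg _ P
    by_cases hs : P ∈ (dvElt z).support
    · have h2 := hb (D.below P) (Finset.mem_union_left _ (Finset.mem_image_of_mem _ hs))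
      rw [if_neg hP, if_neg hP, coeO_zero, sub_zero] at h2
      refine ((D.ordGe_algebraMap h2).mul
        (Or.inr le_rfl : OrdGe P (dvElt z P) z)).mono ?_
      have h3 : ((dvElt z P).natAbs : ℤ) ≤ N := by
        exact_mod_cast Finset.single_le_sum
          (f := fun Q => (dvElt z Q).natAbs) (fun _ _ => Nat.zero_le _) hs
      have h4 : (N : ℤ) ≤ D.ram P * N := le_mul_of_one_le_left (by positivity) (D.one_le_ram P)
      omega
    · refine ((D.ordGe_algebraMap (ordGe_int b)).mul
        (Or.inr le_rfl : OrdGe P (dvElt z P) z)).mono ?_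
      rw [Finsupp.notMem_support_iff.1 hs]
      omega
  have h2 : (b : F) * D.tra z ∈
      (fid (-(0 : Dv F) - diffDv F) : FractionalIdeal (𝓞 F)⁰ F) := by
    refine mem_fid_dual.2 fun a ha => ?_
    obtain ⟨n, hn⟩ := mem_fid_dual.1 h1 (algebraMap F D.M a) (by
      refine mem_fid_iff_ordGe.2 fun P => ?_
      simpa using D.ordGe_algebraMap (mem_fid_iff_ordGe.1 ha (D.below P)))
    refine ⟨n, ?_⟩
    rw [← hn, trace_rat]
    congr 1
    rw [show algebraMap F D.M (b : F) * z * algebraMap F D.M a =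
      algebraMap F D.M ((b : F) * a) * z by rw [map_mul]; ring, tra_mul_algebraMap]
    ring
  simpa using mem_fid_iff_ordGe.1 h2 q

variable [hm : Fact (1 < m)]

lemma exists_psi (z : F) : ∃ w : F, (∀ q, D.InT q → OrdGe q (-diffDv F q) (w - z)) ∧
    ∀ q, ¬ D.InT q → OrdGe q (-diffDv F q) w := by
  classical
  rcases eq_or_ne z 0 with rfl | hz
  · exact ⟨0, fun q _ => Or.inl (sub_zero _), fun q _ => ordGe_zero _⟩
  set S := (dvElt z).support ∪ TF (m := m)
  obtain ⟨d, hd⟩ := exists_crt S (fun v => (dvElt z v).natAbs)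
    (fun v => if D.InT v then 1 else 0)
  have hdiff : ∀ q, (0 : ℤ) ≤ diffDv F q := fun q => idealDv_nonneg _ q
  have hzq : ∀ q, OrdGe q (dvElt z q) z := fun q => Or.inr le_rfl
  refine ⟨z * (d : F), fun q hq => ?_, fun q hq => ?_⟩
  · have h1 := hd q (Finset.mem_union_right _ (D.mem_TF.2 hq))
    rw [if_pos hq] at h1
    rw [show z * (d : F) - z = z * ((d : F) - ((1 : 𝓞 F) : F)) by
      rw [show ((1 : 𝓞 F) : F) = 1 from map_one _]; ring]
    refine ((hzq q).mul h1).mono ?_
    have := hdiff q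
    omega
  · by_cases hs : q ∈ (dvElt z).support
    · have h1 := hd q (Finset.mem_union_left _ hs)
      rw [if_neg hq, coeO_zero, sub_zero] at h1
      refine ((hzq q).mul h1).mono ?_
      have := hdiff q
      omega
    · refine ((hzq q).mul (ordGe_int d)).mono ?_
      rw [Finsupp.notMem_support_iff.1 hs]
      have := hdiff q
      omega

/-- The phase of the part at the places over `m`. -/
def psiT (z : F) : ℂ := ph (D.exists_psi z).choose

lemma psiT_eq {z w : F} (hT : ∀ q, D.InT q → OrdGe q (-diffDv F q) (w - z))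
    (hout : ∀ q, ¬ D.InT q → OrdGe q (-diffDv F q) w) : D.psiT z = ph w := by
  obtain ⟨h1, h2⟩ := (D.exists_psi z).choose_spec
  refine D.ph_congr fun q => ?_
  by_cases hq : D.InT q
  · simpa using (h1 q hq).sub (hT q hq)
  · exact (h2 q hq).sub (hout q hq)

lemma psiT_add (x y : F) : D.psiT (x + y) = D.psiT x * D.psiT y := by
  obtain ⟨a1, a2⟩ := (D.exists_psi x).choose_spec
  obtain ⟨b1, b2⟩ := (D.exists_psi y).choose_spec
  rw [psiT, psiT, psiT, ← ph_add]
  refine D.psiT_eq (z := x + y) (fun q hq => ?_) fun q hq => (a2 q hq).add (b2 q hq)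
  simpa [add_sub_add_comm] using (a1 q hq).add (b1 q hq)

lemma psiT_eq_one {z : F} (h : ∀ q, D.InT q → OrdGe q (-diffDv F q) z) : D.psiT z = 1 := by
  rw [D.psiT_eq (w := 0) (fun q hq => by simpa using (h q hq).neg) (fun q _ => ordGe_zero _),
    ph_zero]

lemma psiT_congr {x y : F} (h : ∀ q, D.InT q → OrdGe q (-diffDv F q) (x - y)) :
    D.psiT x = D.psiT y := by
  rw [← sub_add_cancel x y, psiT_add, D.psiT_eq_one h, one_mul]

end FermatAgent.LTG.Dihedral.DihedralData
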